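import Mathlib
import Fermat.Agent.CAR.Local.Exhaust

/-!
# CAR-17: the "chart-ring" fields of the contract (`fin`, `not_max`, `res`, `hBO`), abstract

`B` a ring of elements of `F` integral over `W[x]` (for CAR: the chart `integralClosure W[x] F`,
`x = J₀ J₂`), `O ⊇ W[x]` a valuation subring of `F` (a component) with reduction
`red : O → κ`.

* `mem_of_isIntegralElem`, `mem_of_isIntegral_adjoin` : a valuation subring containing `W` and
  `x` contains every element integral over `W[x]` (gives `hBO`).
* `mem_compositeSubring_of_isIntegral_adjoin` : **(`fin`)** if moreover the reductions of `W` and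
  of `x` are regular at a place `Vs` of `κ`, every element integral over `W[x]` lies in the
  composite valuation ring `(O, Vs)`: its reduction is regular at `Vs`.
* `centre_not_isMaximal` : **(`not_max`)** if the reduction of `W` lies in a field `k ⊆ κ` over
  which the reduction of `x` is transcendental, the centre of `O` on `B` is not a maximal ideal.
* `exists_sub_algebraMap_mem_nonunits` : **(`res`)** for `k` algebraically closed and `κ`
  algebraic over `k[x̄]`, a valuation subring `Vs ≠ ⊤` of `κ` containing `k` has residue field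
  `k`: every `v ∈ Vs` is congruent to a constant modulo the maximal ideal.
-/

set_option autoImplicit false

namespace Fermat.Agent.CAR.Local.Inst.ChartFields

open IsLocalRing Fermat.Agent.CAR.Local Polynomial

section Integral

variable {F : Type*} [Field F]

/-- A valuation subring is integrally closed in the field: an element integral over a ring
mapping into `V` lies in `V`. -/
theorem mem_of_isIntegralElem (V : ValuationSubring F) {R : Type*} [CommRing R] (f : R →+* F)
    (hf : ∀ r, f r ∈ V) {y : F} (hy : f.IsIntegralElem y) : y ∈ V := by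
  obtain ⟨p, hp, hpy⟩ := hy
  let g : R →+* V := f.codRestrict V.toSubring hf
  have h1 : IsIntegral V y := by
    refine ⟨p.map g, hp.map g, ?_⟩
    rw [Polynomial.eval₂_map]
    exact hpy
  obtain ⟨a, ha⟩ := (IsIntegrallyClosed.isIntegral_iff (R := V) (K := F)).1 h1
  rw [← ha]
  exact a.2

variable {W : Type*} [CommRing W] [Algebra W F]

/-- `W[x] ⊆ V` if `W ⊆ V` and `x ∈ V`. -/
theorem adjoin_le (V : ValuationSubring F) {x : F} (hW : ∀ w : W, algebraMap W F w ∈ V)
    (hx : x ∈ V) {r : F} (hr : r ∈ Algebra.adjoin W {x}) : r ∈ V := by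
  refine Algebra.adjoin_induction (p := fun r _ => r ∈ V) ?_ ?_ ?_ ?_ hr
  · intro y hy
    rw [Set.mem_singleton_iff] at hy
    rw [hy]
    exact hx
  · exact hW
  · intro a b _ _ ha hb
    exact V.add_mem _ _ ha hb
  · intro a b _ _ ha hb
    exact V.mul_mem _ _ ha hb

/-- A valuation subring containing `W` and `x` contains every element integral over `W[x]`. -/
theorem mem_of_isIntegral_adjoin (V : ValuationSubring F) {x : F}
    (hW : ∀ w : W, algebraMap W F w ∈ V) (hx : x ∈ V) {y : F}
    (hy : IsIntegral (Algebra.adjoin W {x}) y) : y ∈ V :=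
  mem_of_isIntegralElem V (algebraMap (Algebra.adjoin W {x}) F) (fun r => adjoin_le V hW hx r.2) hy

variable {κ : Type*} [Field κ]

/-- **(`fin`)** If `W ⊆ O`, `x ∈ O` and the reductions of `W` and of `x` are regular at the place
`Vs`, then every element integral over `W[x]` lies in the composite valuation ring `(O, Vs)`. -/
theorem mem_compositeSubring_of_isIntegral_adjoin (O : ValuationSubring F) (red : O →+* κ)
    (hred : ∀ x : O, red x = 0 ↔ x ∈ maximalIdeal O) (Vs : ValuationSubring κ) {x : F}
    (hW : ∀ w : W, algebraMap W F w ∈ O) (hx : x ∈ O)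
    (hWs : ∀ w : W, red ⟨algebraMap W F w, hW w⟩ ∈ Vs) (hxs : red ⟨x, hx⟩ ∈ Vs) {y : F}
    (hy : IsIntegral (Algebra.adjoin W {x}) y) : y ∈ compositeSubring O red hred Vs :=
  mem_of_isIntegral_adjoin (compositeSubring O red hred Vs)
    (fun w => (mem_compositeSubring_iff O red hred Vs _).2 ⟨hW w, hWs w⟩)
    ((mem_compositeSubring_iff O red hred Vs _).2 ⟨hx, hxs⟩) hy

end Integral

section NotMax

variable {W B F κ k : Type*} [CommRing W] [CommRing B] [Field F] [Algebra W F] [Algebra B F]
  [Field κ] [Field k] [Algebra k κ]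

/-- The reduction of an element of `W[x]` is a polynomial in the reduction of `x`, with
coefficients in a field `k` containing the reduction of `W`. -/
theorem exists_aeval_eq_red (O : ValuationSubring F) (red : O →+* κ) {x : F}
    (hW : ∀ w : W, algebraMap W F w ∈ O) (hx : x ∈ O)
    (hWk : ∀ w : W, ∃ c : k, red ⟨algebraMap W F w, hW w⟩ = algebraMap k κ c)
    {r : F} (hr : r ∈ Algebra.adjoin W {x}) :
    ∃ P : k[X], red ⟨r, adjoin_le O hW hx hr⟩ = aeval (red ⟨x, hx⟩) P := by
  refine Algebra.adjoin_induction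
    (p := fun r hr => ∃ P : k[X], red ⟨r, adjoin_le O hW hx hr⟩ = aeval (red ⟨x, hx⟩) P)
    ?_ ?_ ?_ ?_ hr
  · intro y hy
    rw [Set.mem_singleton_iff] at hy
    subst hy
    exact ⟨X, by rw [aeval_X]⟩
  · intro w
    obtain ⟨c, hc⟩ := hWk w
    exact ⟨C c, by rw [aeval_C]; exact hc⟩
  · rintro a b ha hb ⟨P, hP⟩ ⟨Q, hQ⟩
    refine ⟨P + Q, ?_⟩
    rw [map_add, ← hP, ← hQ, ← map_add]
    rfl
  · rintro a b ha hb ⟨P, hP⟩ ⟨Q, hQ⟩
    refine ⟨P * Q, ?_⟩
    rw [map_mul, ← hP, ← hQ, ← map_mul]
    rfl

/-- **(`not_max`)** Let every element of `B` be integral over `W[x]`, `x ∈ B`, and let the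
reduction of `W` on the component `O` lie in a field `k ⊆ κ` over which the reduction of `x` is
transcendental.  Then the centre of `O` on `B` is not a maximal ideal (the component is not a
closed point). -/
theorem centre_not_isMaximal (O : ValuationSubring F) (red : O →+* κ)
    (hred : ∀ x : O, red x = 0 ↔ x ∈ maximalIdeal O)
    (hBO : ∀ b : B, algebraMap B F b ∈ O) {x : F}
    (hint : ∀ b : B, IsIntegral (Algebra.adjoin W {x}) (algebraMap B F b))
    (x₀ : B) (hx₀ : algebraMap B F x₀ = x)
    (hW : ∀ w : W, algebraMap W F w ∈ O)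
    (hWk : ∀ w : W, ∃ c : k, red ⟨algebraMap W F w, hW w⟩ = algebraMap k κ c)
    (htr : Transcendental k (redOn O red hBO x₀)) :
    ¬ (centre O hBO).IsMaximal := by
  intro hmax
  have hxO : x ∈ O := hx₀ ▸ hBO x₀
  have hxbar : redOn O red hBO x₀ = red ⟨x, hxO⟩ := by
    rw [redOn_apply]
    exact congrArg red (Subtype.ext hx₀)
  have hx0 : redOn O red hBO x₀ ≠ 0 := by
    intro h0
    rw [h0] at htr
    exact htr isAlgebraic_zero
  have hxc : x₀ ∉ centre O hBO := fun h => hx0 ((redOn_eq_zero_iff O red hred hBO x₀).2 h)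
  obtain ⟨y, i, hi, hyi⟩ := hmax.exists_inv hxc
  have hyx : redOn O red hBO y * redOn O red hBO x₀ = 1 := by
    have h1 := congrArg (redOn O red hBO) hyi
    rw [map_add, map_mul, (redOn_eq_zero_iff O red hred hBO i).2 hi, add_zero, map_one] at h1
    exact h1
  -- integrality of `y`
  obtain ⟨p, hp, hpy⟩ := hint y
  let incl : Algebra.adjoin W {x} →+* O :=
    (algebraMap (Algebra.adjoin W {x}) F).codRestrict O.toSubring
      (fun r => adjoin_le O hW hxO r.2)
  have hev : p.eval₂ (red.comp incl) (redOn O red hBO y) = 0 := by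
    have h1 : p.eval₂ incl ⟨algebraMap B F y, hBO y⟩ = 0 := by
      apply Subtype.ext
      have h2 := Polynomial.hom_eval₂ p incl O.subtype ⟨algebraMap B F y, hBO y⟩
      exact h2.trans hpy
    have h3 := Polynomial.hom_eval₂ p incl red ⟨algebraMap B F y, hBO y⟩
    rw [h1, map_zero] at h3
    exact h3.symm
  -- the coefficients as polynomials in the reduction of `x`
  have hcoef : ∀ j : ℕ, ∃ P : k[X], (red.comp incl) (p.coeff j) =
      aeval (redOn O red hBO x₀) P := by
    intro j
    obtain ⟨P, hP⟩ := exists_aeval_eq_red O red hW hxO hWk (p.coeff j).2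
    exact ⟨P, by rw [hxbar, ← hP]; rfl⟩
  choose P hP using hcoef
  rw [Polynomial.eval₂_eq_sum_range, Finset.sum_range_succ, hp.coeff_natDegree, map_one,
    one_mul] at hev
  set n := p.natDegree with hn
  set xb := redOn O red hBO x₀ with hxb
  set yb := redOn O red hBO y with hyb
  have hxy : ∀ j : ℕ, xb ^ j * yb ^ j = 1 := fun j => by
    rw [← mul_pow, mul_comm, hyx, one_pow]
  have key : aeval xb (∑ j ∈ Finset.range n, P j * X ^ (n - j) + 1) = 0 := by
    have h4 : xb ^ n * (∑ j ∈ Finset.range n, (red.comp incl) (p.coeff j) * yb ^ j + yb ^ n)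
        = 0 := by rw [hev, mul_zero]
    rw [mul_add, Finset.mul_sum, hxy n] at h4
    rw [map_add, map_sum, map_one, ← h4]
    congr 1
    refine Finset.sum_congr rfl fun j hj => ?_
    rw [Finset.mem_range] at hj
    have e1 : xb ^ n = xb ^ (n - j) * xb ^ j := by
      rw [← pow_add]
      congr 1
      omega
    rw [map_mul, map_pow, aeval_X, ← hP j, e1]
    calc (red.comp incl) (p.coeff j) * xb ^ (n - j)
        = (red.comp incl) (p.coeff j) * xb ^ (n - j) * (xb ^ j * yb ^ j) := by
          rw [hxy j, mul_one]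
      _ = xb ^ (n - j) * xb ^ j * ((red.comp incl) (p.coeff j) * yb ^ j) := by ring
  have hQ := transcendental_iff.1 htr _ key
  have h0 := congrArg (Polynomial.eval 0) hQ
  rw [Polynomial.eval_add, Polynomial.eval_finsetSum, Polynomial.eval_one,
    Polynomial.eval_zero] at h0
  have h5 : ∑ j ∈ Finset.range n, Polynomial.eval 0 (P j * X ^ (n - j)) = 0 := by
    refine Finset.sum_eq_zero fun j hj => ?_
    rw [Finset.mem_range] at hj
    rw [Polynomial.eval_mul, Polynomial.eval_pow, Polynomial.eval_X,
      zero_pow (by omega : n - j ≠ 0), mul_zero]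
  rw [h5, zero_add] at h0
  exact one_ne_zero h0

end NotMax

section Residue

universe u v

variable {k : Type v} {κ : Type u} [Field k] [Field κ] [Algebra k κ]

/-- A non-zero constant is a unit of a valuation subring containing the constants. -/
theorem valuation_algebraMap_eq_one (Vs : ValuationSubring κ)
    (hk : ∀ c : k, algebraMap k κ c ∈ Vs) {c : k} (hc : c ≠ 0) :
    Vs.valuation (algebraMap k κ c) = 1 := by
  refine le_antisymm ((Vs.valuation_le_one_iff _).2 (hk c)) ?_
  have h1 : Vs.valuation (algebraMap k κ c⁻¹) ≤ 1 := (Vs.valuation_le_one_iff _).2 (hk c⁻¹)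
  have h2 : Vs.valuation (algebraMap k κ c) * Vs.valuation (algebraMap k κ c⁻¹) = 1 := by
    rw [← map_mul, ← map_mul, mul_inv_cancel₀ hc, map_one, map_one]
  calc (1 : _) = Vs.valuation (algebraMap k κ c) * Vs.valuation (algebraMap k κ c⁻¹) := h2.symm
    _ ≤ Vs.valuation (algebraMap k κ c) * 1 := by gcongr
    _ = Vs.valuation (algebraMap k κ c) := mul_one _

/-- If `v - c` is a unit of `Vs` for every constant `c`, then so is `Q(v)` for every non-zero
polynomial `Q` over the algebraically closed field `k`. -/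
theorem valuation_aeval_eq_one [IsAlgClosed k] (Vs : ValuationSubring κ)
    (hk : ∀ c : k, algebraMap k κ c ∈ Vs) {v : κ} (hv : v ∈ Vs)
    (hunit : ∀ c : k, v - algebraMap k κ c ∉ Vs.nonunits) {Q : k[X]} (hQ : Q ≠ 0) :
    Vs.valuation (aeval v Q) = 1 := by
  have hlin : ∀ c : k, Vs.valuation (v - algebraMap k κ c) = 1 := by
    intro c
    refine le_antisymm ((Vs.valuation_le_one_iff _).2 (sub_mem hv (hk c))) ?_
    have h1 := hunit c
    rw [ValuationSubring.mem_nonunits_iff, not_lt] at h1
    exact h1
  have hprod : ∀ s : Multiset k,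
      Vs.valuation (aeval v (s.map fun a => X - C a).prod) = 1 := by
    intro s
    induction s using Multiset.induction with
    | empty => simp
    | cons a s ih =>
      rw [Multiset.map_cons, Multiset.prod_cons, map_mul, map_mul, ih, mul_one, map_sub, aeval_X,
        aeval_C]
      exact hlin a
  rw [(IsAlgClosed.splits Q).eq_prod_roots, map_mul, map_mul, hprod, mul_one, aeval_C]
  exact valuation_algebraMap_eq_one Vs hk (leadingCoeff_ne_zero.2 hQ)

/-- **(`res`)** Let `k` be algebraically closed, `κ ⊇ k` a field algebraic over `k[x]`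
(a function field of one variable), and `Vs ≠ ⊤` a valuation subring of `κ` containing `k`.
Then the residue field of `Vs` is `k`: every `v ∈ Vs` is congruent to a constant modulo the
maximal ideal. -/
theorem exists_sub_algebraMap_mem_nonunits [IsAlgClosed k] (Vs : ValuationSubring κ)
    (hk : ∀ c : k, algebraMap k κ c ∈ Vs) (htop : Vs ≠ ⊤) (x : κ)
    [Algebra.IsAlgebraic (Algebra.adjoin k {x}) κ] {v : κ} (hv : v ∈ Vs) :
    ∃ c : k, v - algebraMap k κ c ∈ Vs.nonunits := by
  by_contra hcon
  push Not at hcon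
  have hval : ∀ Q : k[X], Q ≠ 0 → Vs.valuation (aeval v Q) = 1 := fun Q hQ =>
    valuation_aeval_eq_one Vs hk hv hcon hQ
  -- `v` is transcendental over `k`
  have htr : Transcendental k v := by
    rw [transcendental_iff]
    intro Q hQ
    by_contra hne
    have h1 := hval Q hne
    rw [hQ, map_zero] at h1
    exact zero_ne_one h1
  -- `κ` is algebraic over `k[v]`
  have hle : Algebra.trdeg k κ ≤ 1 := by
    have h1 := Algebra.IsAlgebraic.trdeg_le_cardinalMk k ({x} : Set κ)
    rwa [Cardinal.mk_singleton] at h1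
  have hbasis : IsTranscendenceBasis k (fun _ : PUnit.{u + 1} => v) := by
    refine AlgebraicIndependent.isTranscendenceBasis_of_trdeg_le_of_finite ?_ ?_
    · rw [algebraicIndependent_unique_type_iff]
      exact htr
    · rw [Cardinal.mk_punit]
      exact hle
  have halg := hbasis.isAlgebraic
  -- a non-zero non-unit `t`
  obtain ⟨t, ht0, htm⟩ : ∃ t : κ, t ≠ 0 ∧ t ∈ Vs.nonunits := by
    have h1 : ∃ y : κ, y ∉ Vs := by
      by_contra h2
      push Not at h2
      exact htop (SetLike.ext fun y => ⟨fun _ => ValuationSubring.mem_top y, fun _ => h2 y⟩)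
    obtain ⟨y, hy⟩ := h1
    have hy0 : y ≠ 0 := fun h0 => hy (h0 ▸ Vs.zero_mem)
    refine ⟨y⁻¹, inv_ne_zero hy0, ?_⟩
    rw [ValuationSubring.mem_nonunits_iff_or, inv_inv]
    exact Or.inr hy
  have hνt : Vs.valuation t < 1 := (ValuationSubring.mem_nonunits_iff Vs).1 htm
  have hνt0 : 0 < Vs.valuation t := zero_lt_iff.2 ((Vs.valuation.ne_zero_iff).2 ht0)
  obtain ⟨p, hp0, hpt⟩ := halg.isAlgebraic t
  -- the non-zero coefficients are units of `Vs`
  have hcoef' : ∀ y : κ, y ∈ Algebra.adjoin k (Set.range fun _ : PUnit.{u + 1} => v) → y ≠ 0 →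
      Vs.valuation y = 1 := by
    intro y hy hy0
    rw [Set.range_const, Algebra.adjoin_singleton_eq_range_aeval] at hy
    obtain ⟨Q, hQ⟩ := hy
    have hQ0 : Q ≠ 0 := by
      rintro rfl
      apply hy0
      rw [← hQ]
      simp
    have h2 : y = aeval v Q := hQ.symm
    rw [h2]
    exact hval Q hQ0
  have hcoef : ∀ s : Algebra.adjoin k (Set.range fun _ : PUnit.{u + 1} => v), s ≠ 0 →
      Vs.valuation (s : κ) = 1 := fun s hs =>
    hcoef' s s.2 (fun h0 => hs (Subtype.ext h0))
  -- the lowest term dominates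
  have hj₀ := Polynomial.natTrailingDegree_mem_support_of_nonzero hp0
  set j₀ := p.natTrailingDegree with hj₀def
  have hsum : aeval t p = ∑ j ∈ p.support, ((p.coeff j : κ) * t ^ j) := by
    rw [Polynomial.aeval_def, Polynomial.eval₂_eq_sum, Polynomial.sum_def]
    rfl
  rw [hsum, ← Finset.add_sum_erase p.support _ hj₀] at hpt
  have hterm : ∀ j ∈ p.support, Vs.valuation ((p.coeff j : κ) * t ^ j) = Vs.valuation t ^ j := by
    intro j hj
    rw [map_mul, hcoef _ (Polynomial.mem_support_iff.1 hj), one_mul, map_pow]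
  have hrest : Vs.valuation (∑ j ∈ p.support.erase j₀, ((p.coeff j : κ) * t ^ j)) <
      Vs.valuation t ^ j₀ := by
    refine Valuation.map_sum_lt _ (pow_ne_zero _ hνt0.ne') ?_
    intro j hj
    rw [Finset.mem_erase] at hj
    rw [hterm j hj.2]
    have hle' : j₀ ≤ j := Polynomial.natTrailingDegree_le_of_ne_zero
      (Polynomial.mem_support_iff.1 hj.2)
    exact pow_lt_pow_right_of_lt_one₀ hνt0 hνt (lt_of_le_of_ne hle' (Ne.symm hj.1))
  have h3 := Valuation.map_add_eq_of_lt_left Vs.valuation
    (x := (p.coeff j₀ : κ) * t ^ j₀) (y := ∑ j ∈ p.support.erase j₀, ((p.coeff j : κ) * t ^ j))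
    (by rw [hterm j₀ hj₀]; exact hrest)
  rw [hpt, map_zero, hterm j₀ hj₀] at h3
  exact pow_ne_zero _ hνt0.ne' h3.symm

/-- The hypothesis of `exists_sub_algebraMap_mem_nonunits` from algebraicity over the
intermediate field `k(x)` (e.g. from `FiniteDimensional k⟮x⟯ κ`). -/
theorem isAlgebraic_adjoin_of_intermediateField (x : κ)
    [Algebra.IsAlgebraic (IntermediateField.adjoin k ({x} : Set κ)) κ] :
    Algebra.IsAlgebraic (Algebra.adjoin k ({x} : Set κ)) κ :=
  IntermediateField.isAlgebraic_adjoin_iff_top.1 inferInstance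

/-- **(`res`), contract form.**  `red' : B' → κ` a ring homomorphism whose image contains the
constants `k` (algebraically closed), `κ` algebraic over `k[x]`, `Vs ≠ ⊤` a valuation subring
of `κ` containing `red' B'`.  Then every `v ∈ Vs` is congruent modulo the maximal ideal to the
reduction of an element of `B'`. -/
theorem exists_red_sub_mem_nonunits [IsAlgClosed k] {B' : Type*} [CommRing B'] (red' : B' →+* κ)
    (hconst : ∀ c : k, ∃ a : B', red' a = algebraMap k κ c) (x : κ)
    [Algebra.IsAlgebraic (Algebra.adjoin k {x}) κ] (Vs : ValuationSubring κ) (htop : Vs ≠ ⊤)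
    (hB' : ∀ y : B', red' y ∈ Vs) {v : κ} (hv : v ∈ Vs) :
    ∃ a : B', red' a - v ∈ Vs.nonunits := by
  have hk : ∀ c : k, algebraMap k κ c ∈ Vs := by
    intro c
    obtain ⟨a, ha⟩ := hconst c
    rw [← ha]
    exact hB' a
  obtain ⟨c, hc⟩ := exists_sub_algebraMap_mem_nonunits Vs hk htop x hv
  obtain ⟨a, ha⟩ := hconst c
  refine ⟨a, ?_⟩
  rw [ValuationSubring.mem_nonunits_iff] at hc ⊢
  rw [ha, ← neg_sub, Valuation.map_neg]
  exact hc

end Residue

end Fermat.Agent.CAR.Local.Inst.ChartFields
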