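import Mathlib
import Fermat.Agent.CAR.Local.Meeting

/-!
# CAR-17 (P-4): the meeting locus of the components of the special fibre

Abstract setting: `A` a Noetherian domain (a chart ring of the normal model), a family
`O i ⊇ A` (`i : ι`) of valuation subrings of `F` with residue maps `ρ i : O i → κ` into ONE field
`κ` (the components of the special fibre), the centres of the `O i` being the only primes of `A`
minimal over `(q)`.

* `centre_le_pointIdeal_of_mul_eq` : if `a ∣ q ^ N`, `a` vanishes only on the component `i₀`, and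
  the reduction of `a` on the component `j` vanishes at the place `s`, then the component `i₀`
  passes through the point `(j, s)`.
* `pointIdeal_eq_of_mem_nonunits` : **triple points.**  Three components `i, m, z`; `a` vanishing
  only on `i`, `u₁` vanishing only on `z`, both dividing a power of `q`, both with reduction on `m`
  vanishing at `s`; common lifts between `m` and `i`, and between `m` and `z`.  Then
  `(i, s) = (m, s) = (z, s)`.
* `not_centre_le_pointIdeal_of_notMem`, `not_centre_le_pointIdeal_mid`,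
  `not_centre_le_pointIdeal_of_common_lift` : where these reductions do not vanish the components
  do not meet.
* `centre_le_of_two` : a maximal ideal containing the centres of two of the three components
  contains the third; `exists_unique_centre_le` : a maximal ideal containing `q` but not the centre
  of `m` lies on exactly one component.
-/

set_option autoImplicit false

namespace Fermat.Agent.CAR.Local.Inst.Meet

open IsLocalRing

/-- A prime minimal over `(q ^ N)`, `N ≠ 0`, is minimal over `(q)`. -/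
theorem mem_minimalPrimes_of_pow {R : Type*} [CommRing R] {q : R} {N : ℕ} (hN : N ≠ 0)
    {𝔮 : Ideal R} (h : 𝔮 ∈ (Ideal.span {q ^ N}).minimalPrimes) :
    𝔮 ∈ (Ideal.span {q}).minimalPrimes := by
  obtain ⟨⟨hp, hle⟩, hmin⟩ := h
  have hq : q ∈ 𝔮 := hp.mem_of_pow_mem N (hle (Ideal.mem_span_singleton_self _))
  refine ⟨⟨hp, (Ideal.span_singleton_le_iff_mem 𝔮).2 hq⟩, ?_⟩
  rintro 𝔮' ⟨hp', hle'⟩ h'
  refine hmin ⟨hp', (Ideal.span_singleton_le_iff_mem 𝔮').2 ?_⟩ h'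
  exact Ideal.pow_mem_of_mem _ ((Ideal.span_singleton_le_iff_mem 𝔮').1 hle') N
    (Nat.pos_of_ne_zero hN)

variable {A F κ : Type*} [CommRing A] [Field F] [Algebra A F] [Field κ] {ι : Type*}
  (O : ι → ValuationSubring F) (ρ : ∀ i, O i →+* κ)
  (hρ : ∀ i, ∀ x : O i, ρ i x = 0 ↔ x ∈ maximalIdeal (O i))
  (hAO : ∀ i, ∀ a : A, algebraMap A F a ∈ O i)

/-- **A component through a point.**  If `a` divides a power of `q`, vanishes on no component
other than `i₀`, and its reduction on the component `j` vanishes at `s`, then the component `i₀`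
passes through the point `(j, s)`. -/
theorem centre_le_pointIdeal_of_mul_eq [IsDomain A] [IsNoetherianRing A] {q a c : A} {N : ℕ}
    (hq0 : q ≠ 0)
    (hmin : ∀ 𝔮 ∈ (Ideal.span {q}).minimalPrimes, ∃ i, 𝔮 = centre (O i) (hAO i))
    (hac : a * c = q ^ N) (i₀ : ι) (ha : ∀ i, i ≠ i₀ → redOn (O i) (ρ i) (hAO i) a ≠ 0)
    (j : ι) (Vs : ValuationSubring κ)
    (hA : ∀ x : A, algebraMap A F x ∈ compositeSubring (O j) (ρ j) (hρ j) Vs)
    (has : redOn (O j) (ρ j) (hAO j) a ∈ Vs.nonunits) :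
    centre (O i₀) (hAO i₀) ≤ pointIdeal (O j) (ρ j) (hρ j) Vs hA := by
  have haP : a ∈ pointIdeal (O j) (ρ j) (hρ j) Vs hA :=
    (mem_pointIdeal_iff_redOn (O j) (ρ j) (hρ j) (hAO j) Vs hA a).2 has
  have h1 : (1 : A) ∉ pointIdeal (O j) (ρ j) (hρ j) Vs hA :=
    (Ideal.ne_top_iff_one _).1 (pointIdeal_isPrime (O j) (ρ j) (hρ j) Vs hA).ne_top
  have hN : N ≠ 0 := by
    rintro rfl
    apply h1
    have h2 : a * c = 1 := by rw [hac, pow_zero]
    rw [← h2]
    exact Ideal.mul_mem_right _ _ haP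
  obtain ⟨𝔮, h𝔮, hle, ha𝔮⟩ :=
    exists_minimalPrimes_mem_of_mul_eq (pointIdeal (O j) (ρ j) (hρ j) Vs hA) (q := q ^ N)
      (a := a) (c := c) (s := 1) (pow_ne_zero N hq0) haP h1 (by rw [one_mul, hac])
  obtain ⟨i, hi⟩ := hmin 𝔮 (mem_minimalPrimes_of_pow hN h𝔮)
  have hii : i = i₀ := by
    by_contra hne
    apply ha i hne
    rw [redOn_eq_zero_iff (O i) (ρ i) (hρ i) (hAO i) a, ← hi]
    exact ha𝔮
  subst hii
  rw [← hi]
  exact hle

/-- If `b` vanishes on the component `i` and its reduction on the component `j` does not vanish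
at `s`, the component `i` does not pass through the point `(j, s)`. -/
theorem not_centre_le_pointIdeal_of_notMem (i j : ι) (Vs : ValuationSubring κ)
    (hA : ∀ x : A, algebraMap A F x ∈ compositeSubring (O j) (ρ j) (hρ j) Vs) {b : A}
    (hb : redOn (O i) (ρ i) (hAO i) b = 0) (hbs : redOn (O j) (ρ j) (hAO j) b ∉ Vs.nonunits) :
    ¬ centre (O i) (hAO i) ≤ pointIdeal (O j) (ρ j) (hρ j) Vs hA := by
  intro h
  apply hbs
  exact (mem_pointIdeal_iff_redOn (O j) (ρ j) (hρ j) (hAO j) Vs hA b).1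
    (h ((redOn_eq_zero_iff (O i) (ρ i) (hρ i) (hAO i) b).1 hb))

/-- If the components `j`, `j'` have a common lift at `s`, the point `(j', s)` is maximal, and
some `b` vanishing on `j` has reduction on `j'` not vanishing at `s`, then the component `j'` does
not pass through the point `(j, s)`. -/
theorem not_centre_le_pointIdeal_of_common_lift (j j' : ι) (Vs : ValuationSubring κ)
    (hA : ∀ x : A, algebraMap A F x ∈ compositeSubring (O j) (ρ j) (hρ j) Vs)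
    (hA' : ∀ x : A, algebraMap A F x ∈ compositeSubring (O j') (ρ j') (hρ j') Vs)
    (hlift : ∀ c ∈ Vs, ∃ a b : A,
      redOn (O j) (ρ j) (hAO j) a = redOn (O j') (ρ j') (hAO j') a ∧
      redOn (O j) (ρ j) (hAO j) b = redOn (O j') (ρ j') (hAO j') b ∧
      redOn (O j) (ρ j) (hAO j) b ∉ Vs.nonunits ∧
      redOn (O j) (ρ j) (hAO j) a = c * redOn (O j) (ρ j) (hAO j) b)
    (hmax : (pointIdeal (O j') (ρ j') (hρ j') Vs hA').IsMaximal) {b : A}
    (hb : redOn (O j) (ρ j) (hAO j) b = 0)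
    (hbs : redOn (O j') (ρ j') (hAO j') b ∉ Vs.nonunits) :
    ¬ centre (O j') (hAO j') ≤ pointIdeal (O j) (ρ j) (hρ j) Vs hA := by
  intro hle
  have heq := pointIdeal_eq_pointIdeal_of_common_lift (O j) (O j') (ρ j) (ρ j') (hρ j) (hρ j')
    (hAO j) (hAO j') Vs hA hA' hlift hle hmax
  apply hbs
  rw [← mem_pointIdeal_iff_redOn (O j') (ρ j') (hρ j') (hAO j') Vs hA' b, heq]
  exact centre_le_pointIdeal (O j) (ρ j) (hρ j) (hAO j) Vs hA
    ((redOn_eq_zero_iff (O j) (ρ j) (hρ j) (hAO j) b).1 hb)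

/-- **Triple points.**  Components `i, m, z`; `a ∣ q ^ N` vanishing on no component other than
`i`, `u₁ ∣ q ^ N₁` vanishing on no component other than `z`; the reductions of `a` and `u₁` on `m`
vanish at `s`; common lifts at `s` between `m` and `i` and between `m` and `z`; the points
`(i, s)`, `(z, s)` maximal.  Then `(i, s) = (m, s) = (z, s)`. -/
theorem pointIdeal_eq_of_mem_nonunits [IsDomain A] [IsNoetherianRing A] (i m z : ι)
    {q a c u₁ c₁ : A} {N N₁ : ℕ} (hq0 : q ≠ 0)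
    (hmin : ∀ 𝔮 ∈ (Ideal.span {q}).minimalPrimes, ∃ i, 𝔮 = centre (O i) (hAO i))
    (hac : a * c = q ^ N) (ha : ∀ j, j ≠ i → redOn (O j) (ρ j) (hAO j) a ≠ 0)
    (hu : u₁ * c₁ = q ^ N₁) (hu₁ : ∀ j, j ≠ z → redOn (O j) (ρ j) (hAO j) u₁ ≠ 0)
    (Vs : ValuationSubring κ)
    (hAi : ∀ x : A, algebraMap A F x ∈ compositeSubring (O i) (ρ i) (hρ i) Vs)
    (hAm : ∀ x : A, algebraMap A F x ∈ compositeSubring (O m) (ρ m) (hρ m) Vs)
    (hAz : ∀ x : A, algebraMap A F x ∈ compositeSubring (O z) (ρ z) (hρ z) Vs)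
    (has : redOn (O m) (ρ m) (hAO m) a ∈ Vs.nonunits)
    (hus : redOn (O m) (ρ m) (hAO m) u₁ ∈ Vs.nonunits)
    (hliftI : ∀ c ∈ Vs, ∃ a b : A,
      redOn (O m) (ρ m) (hAO m) a = redOn (O i) (ρ i) (hAO i) a ∧
      redOn (O m) (ρ m) (hAO m) b = redOn (O i) (ρ i) (hAO i) b ∧
      redOn (O m) (ρ m) (hAO m) b ∉ Vs.nonunits ∧
      redOn (O m) (ρ m) (hAO m) a = c * redOn (O m) (ρ m) (hAO m) b)
    (hliftZ : ∀ c ∈ Vs, ∃ a b : A,
      redOn (O m) (ρ m) (hAO m) a = redOn (O z) (ρ z) (hAO z) a ∧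
      redOn (O m) (ρ m) (hAO m) b = redOn (O z) (ρ z) (hAO z) b ∧
      redOn (O m) (ρ m) (hAO m) b ∉ Vs.nonunits ∧
      redOn (O m) (ρ m) (hAO m) a = c * redOn (O m) (ρ m) (hAO m) b)
    (hmaxI : (pointIdeal (O i) (ρ i) (hρ i) Vs hAi).IsMaximal)
    (hmaxZ : (pointIdeal (O z) (ρ z) (hρ z) Vs hAz).IsMaximal) :
    pointIdeal (O i) (ρ i) (hρ i) Vs hAi = pointIdeal (O m) (ρ m) (hρ m) Vs hAm ∧
      pointIdeal (O z) (ρ z) (hρ z) Vs hAz = pointIdeal (O m) (ρ m) (hρ m) Vs hAm :=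
  ⟨pointIdeal_eq_pointIdeal_of_common_lift (O m) (O i) (ρ m) (ρ i) (hρ m) (hρ i) (hAO m) (hAO i)
      Vs hAm hAi hliftI
      (centre_le_pointIdeal_of_mul_eq O ρ hρ hAO hq0 hmin hac i ha m Vs hAm has) hmaxI,
    pointIdeal_eq_pointIdeal_of_common_lift (O m) (O z) (ρ m) (ρ z) (hρ m) (hρ z) (hAO m) (hAO z)
      Vs hAm hAz hliftZ
      (centre_le_pointIdeal_of_mul_eq O ρ hρ hAO hq0 hmin hu z hu₁ m Vs hAm hus) hmaxZ⟩

/-- **Away from the zeros of the reductions the middle component meets no other component.** -/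
theorem not_centre_le_pointIdeal_mid (i m z : ι) (hι : ∀ j, j = i ∨ j = m ∨ j = z) {a u₁ : A}
    (hai : redOn (O i) (ρ i) (hAO i) a = 0) (huz : redOn (O z) (ρ z) (hAO z) u₁ = 0)
    (Vs : ValuationSubring κ)
    (hAm : ∀ x : A, algebraMap A F x ∈ compositeSubring (O m) (ρ m) (hρ m) Vs)
    (has : redOn (O m) (ρ m) (hAO m) a ∉ Vs.nonunits)
    (hus : redOn (O m) (ρ m) (hAO m) u₁ ∉ Vs.nonunits) :
    ∀ j, j ≠ m → ¬ centre (O j) (hAO j) ≤ pointIdeal (O m) (ρ m) (hρ m) Vs hAm := by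
  intro j hj
  rcases hι j with rfl | rfl | rfl
  · exact not_centre_le_pointIdeal_of_notMem O ρ hρ hAO j m Vs hAm hai has
  · exact absurd rfl hj
  · exact not_centre_le_pointIdeal_of_notMem O ρ hρ hAO j m Vs hAm huz hus

/-- **Two components through a closed point ⟹ all three.**  `Pl` is the class of places of `κ`
that occur (e.g. the finite places); every maximal ideal on a component is a point `(j, s)` with
`Pl s` (exhaustion), all these points are maximal, and the common lifts exist at every such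
place. -/
theorem centre_le_of_two [IsDomain A] [IsNoetherianRing A] (i m z : ι)
    (hι : ∀ j, j = i ∨ j = m ∨ j = z) {q a c u₁ c₁ : A} {N N₁ : ℕ} (hq0 : q ≠ 0)
    (hmin : ∀ 𝔮 ∈ (Ideal.span {q}).minimalPrimes, ∃ i, 𝔮 = centre (O i) (hAO i))
    (hac : a * c = q ^ N) (ha : ∀ j, j ≠ i → redOn (O j) (ρ j) (hAO j) a ≠ 0)
    (hu : u₁ * c₁ = q ^ N₁) (hu₁ : ∀ j, j ≠ z → redOn (O j) (ρ j) (hAO j) u₁ ≠ 0)
    (hai : redOn (O i) (ρ i) (hAO i) a = 0) (huz : redOn (O z) (ρ z) (hAO z) u₁ = 0)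
    (hD₁ : redOn (O i) (ρ i) (hAO i) u₁ = redOn (O m) (ρ m) (hAO m) u₁)
    (hD₂ : redOn (O m) (ρ m) (hAO m) a = redOn (O m) (ρ m) (hAO m) u₁)
    (Pl : ValuationSubring κ → Prop)
    (hA : ∀ j Vs, Pl Vs → ∀ x : A, algebraMap A F x ∈ compositeSubring (O j) (ρ j) (hρ j) Vs)
    (hex : ∀ j (P : Ideal A), P.IsMaximal → centre (O j) (hAO j) ≤ P →
      ∃ Vs, ∃ h : Pl Vs, pointIdeal (O j) (ρ j) (hρ j) Vs (hA j Vs h) = P)
    (hmax : ∀ j Vs (h : Pl Vs), (pointIdeal (O j) (ρ j) (hρ j) Vs (hA j Vs h)).IsMaximal)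
    (hliftI : ∀ Vs, Pl Vs → ∀ c ∈ Vs, ∃ a b : A,
      redOn (O m) (ρ m) (hAO m) a = redOn (O i) (ρ i) (hAO i) a ∧
      redOn (O m) (ρ m) (hAO m) b = redOn (O i) (ρ i) (hAO i) b ∧
      redOn (O m) (ρ m) (hAO m) b ∉ Vs.nonunits ∧
      redOn (O m) (ρ m) (hAO m) a = c * redOn (O m) (ρ m) (hAO m) b)
    (hliftZ : ∀ Vs, Pl Vs → ∀ c ∈ Vs, ∃ a b : A,
      redOn (O m) (ρ m) (hAO m) a = redOn (O z) (ρ z) (hAO z) a ∧
      redOn (O m) (ρ m) (hAO m) b = redOn (O z) (ρ z) (hAO z) b ∧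
      redOn (O m) (ρ m) (hAO m) b ∉ Vs.nonunits ∧
      redOn (O m) (ρ m) (hAO m) a = c * redOn (O m) (ρ m) (hAO m) b)
    (P : Ideal A) [hP : P.IsMaximal] (j j' : ι) (hjj' : j ≠ j')
    (hj : centre (O j) (hAO j) ≤ P) (hj' : centre (O j') (hAO j') ≤ P) :
    ∀ j'', centre (O j'') (hAO j'') ≤ P := by
  -- at a place where the reduction of `u₁` on `m` vanishes the three points coincide
  have key : ∀ Vs (h : Pl Vs), redOn (O m) (ρ m) (hAO m) u₁ ∈ Vs.nonunits →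
      pointIdeal (O i) (ρ i) (hρ i) Vs (hA i Vs h) = pointIdeal (O m) (ρ m) (hρ m) Vs (hA m Vs h) ∧
      pointIdeal (O z) (ρ z) (hρ z) Vs (hA z Vs h) =
        pointIdeal (O m) (ρ m) (hρ m) Vs (hA m Vs h) := by
    intro Vs h hus
    exact pointIdeal_eq_of_mem_nonunits O ρ hρ hAO i m z hq0 hmin hac ha hu hu₁ Vs (hA i Vs h)
      (hA m Vs h) (hA z Vs h) (hD₂ ▸ hus) hus (hliftI Vs h) (hliftZ Vs h) (hmax i Vs h)
      (hmax z Vs h)
  -- all three centres are contained in the common point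
  have all : ∀ Vs (h : Pl Vs), redOn (O m) (ρ m) (hAO m) u₁ ∈ Vs.nonunits →
      (pointIdeal (O i) (ρ i) (hρ i) Vs (hA i Vs h) = P ∨
        pointIdeal (O m) (ρ m) (hρ m) Vs (hA m Vs h) = P ∨
        pointIdeal (O z) (ρ z) (hρ z) Vs (hA z Vs h) = P) →
      ∀ j'', centre (O j'') (hAO j'') ≤ P := by
    intro Vs h hus hP' j''
    obtain ⟨h1, h2⟩ := key Vs h hus
    have hPm : pointIdeal (O m) (ρ m) (hρ m) Vs (hA m Vs h) = P := by
      rcases hP' with h3 | h3 | h3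
      · rw [← h1]; exact h3
      · exact h3
      · rw [← h2]; exact h3
    rcases hι j'' with rfl | rfl | rfl
    · rw [← hPm, ← h1]
      exact centre_le_pointIdeal (O j'') (ρ j'') (hρ j'') (hAO j'') Vs (hA j'' Vs h)
    · rw [← hPm]
      exact centre_le_pointIdeal (O j'') (ρ j'') (hρ j'') (hAO j'') Vs (hA j'' Vs h)
    · rw [← hPm, ← h2]
      exact centre_le_pointIdeal (O j'') (ρ j'') (hρ j'') (hAO j'') Vs (hA j'' Vs h)
  -- `m` and `i`
  have caseMI : centre (O m) (hAO m) ≤ P → centre (O i) (hAO i) ≤ P →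
      ∀ j'', centre (O j'') (hAO j'') ≤ P := by
    intro hm hi
    obtain ⟨Vs, h, hPm⟩ := hex m P hP hm
    refine all Vs h ?_ (Or.inr (Or.inl hPm))
    rw [← hD₂, ← mem_pointIdeal_iff_redOn (O m) (ρ m) (hρ m) (hAO m) Vs (hA m Vs h) a, hPm]
    exact hi ((redOn_eq_zero_iff (O i) (ρ i) (hρ i) (hAO i) a).1 hai)
  -- `m` and `z`
  have caseMZ : centre (O m) (hAO m) ≤ P → centre (O z) (hAO z) ≤ P →
      ∀ j'', centre (O j'') (hAO j'') ≤ P := by
    intro hm hz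
    obtain ⟨Vs, h, hPm⟩ := hex m P hP hm
    refine all Vs h ?_ (Or.inr (Or.inl hPm))
    rw [← mem_pointIdeal_iff_redOn (O m) (ρ m) (hρ m) (hAO m) Vs (hA m Vs h) u₁, hPm]
    exact hz ((redOn_eq_zero_iff (O z) (ρ z) (hρ z) (hAO z) u₁).1 huz)
  -- `i` and `z`
  have caseIZ : centre (O i) (hAO i) ≤ P → centre (O z) (hAO z) ≤ P →
      ∀ j'', centre (O j'') (hAO j'') ≤ P := by
    intro hi hz
    obtain ⟨Vs, h, hPi⟩ := hex i P hP hi
    refine all Vs h ?_ (Or.inl hPi)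
    rw [← hD₁, ← mem_pointIdeal_iff_redOn (O i) (ρ i) (hρ i) (hAO i) Vs (hA i Vs h) u₁, hPi]
    exact hz ((redOn_eq_zero_iff (O z) (ρ z) (hρ z) (hAO z) u₁).1 huz)
  rcases hι j with rfl | rfl | rfl <;> rcases hι j' with rfl | rfl | rfl
  · exact absurd rfl hjj'
  · exact caseMI hj' hj
  · exact caseIZ hj hj'
  · exact caseMI hj hj'
  · exact absurd rfl hjj'
  · exact caseMZ hj hj'
  · exact caseIZ hj' hj
  · exact caseMZ hj' hj
  · exact absurd rfl hjj'

/-- **A closed point of the special fibre off the middle component lies on exactly one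
component.** -/
theorem exists_unique_centre_le [IsDomain A] [IsNoetherianRing A] (i m z : ι)
    (hι : ∀ j, j = i ∨ j = m ∨ j = z) {q a c u₁ c₁ : A} {N N₁ : ℕ} (hq0 : q ≠ 0)
    (hmin : ∀ 𝔮 ∈ (Ideal.span {q}).minimalPrimes, ∃ i, 𝔮 = centre (O i) (hAO i))
    (hac : a * c = q ^ N) (ha : ∀ j, j ≠ i → redOn (O j) (ρ j) (hAO j) a ≠ 0)
    (hu : u₁ * c₁ = q ^ N₁) (hu₁ : ∀ j, j ≠ z → redOn (O j) (ρ j) (hAO j) u₁ ≠ 0)
    (hai : redOn (O i) (ρ i) (hAO i) a = 0) (huz : redOn (O z) (ρ z) (hAO z) u₁ = 0)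
    (hD₁ : redOn (O i) (ρ i) (hAO i) u₁ = redOn (O m) (ρ m) (hAO m) u₁)
    (hD₂ : redOn (O m) (ρ m) (hAO m) a = redOn (O m) (ρ m) (hAO m) u₁)
    (Pl : ValuationSubring κ → Prop)
    (hA : ∀ j Vs, Pl Vs → ∀ x : A, algebraMap A F x ∈ compositeSubring (O j) (ρ j) (hρ j) Vs)
    (hex : ∀ j (P : Ideal A), P.IsMaximal → centre (O j) (hAO j) ≤ P →
      ∃ Vs, ∃ h : Pl Vs, pointIdeal (O j) (ρ j) (hρ j) Vs (hA j Vs h) = P)
    (hmax : ∀ j Vs (h : Pl Vs), (pointIdeal (O j) (ρ j) (hρ j) Vs (hA j Vs h)).IsMaximal)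
    (hliftI : ∀ Vs, Pl Vs → ∀ c ∈ Vs, ∃ a b : A,
      redOn (O m) (ρ m) (hAO m) a = redOn (O i) (ρ i) (hAO i) a ∧
      redOn (O m) (ρ m) (hAO m) b = redOn (O i) (ρ i) (hAO i) b ∧
      redOn (O m) (ρ m) (hAO m) b ∉ Vs.nonunits ∧
      redOn (O m) (ρ m) (hAO m) a = c * redOn (O m) (ρ m) (hAO m) b)
    (hliftZ : ∀ Vs, Pl Vs → ∀ c ∈ Vs, ∃ a b : A,
      redOn (O m) (ρ m) (hAO m) a = redOn (O z) (ρ z) (hAO z) a ∧
      redOn (O m) (ρ m) (hAO m) b = redOn (O z) (ρ z) (hAO z) b ∧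
      redOn (O m) (ρ m) (hAO m) b ∉ Vs.nonunits ∧
      redOn (O m) (ρ m) (hAO m) a = c * redOn (O m) (ρ m) (hAO m) b)
    (P : Ideal A) [hP : P.IsMaximal] (hqP : q ∈ P) (hm : ¬ centre (O m) (hAO m) ≤ P) :
    ∃ j₀, centre (O j₀) (hAO j₀) ≤ P ∧ ∀ j, j ≠ j₀ → ¬ centre (O j) (hAO j) ≤ P := by
  obtain ⟨j₀, hj₀⟩ := exists_centre_le_of_mem O hAO q hmin P hqP
  refine ⟨j₀, hj₀, fun j hj hle => hm ?_⟩
  exact centre_le_of_two O ρ hρ hAO i m z hι hq0 hmin hac ha hu hu₁ hai huz hD₁ hD₂ Pl hA hex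
    hmax hliftI hliftZ P j j₀ hj hle hj₀ m

end Fermat.Agent.CAR.Local.Inst.Meet
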