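import Mathlib
import Fermat.Agent.CAR.Local.LocalThm
import Fermat.Agent.CAR.Formal.DiscVal

/-!
# CAR-17 (P-2): closed points of the special fibre lying on one reduced component only

Abstract setting of `CAR/Local/LocalThm.lean`: `A` a Noetherian integrally closed domain with
fraction field `F` (a chart ring), a family `O i` of valuation subrings of `F` containing `A`
whose centres are the only primes minimal over `(q)` (`hmin`), a distinguished component `i₀` on
which `q` is a uniformiser (`Formal.IsUnif (O i₀) q`), a reduction map `red : O i₀ → κ` and a place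
`Vs` of `κ` which is a discrete valuation ring (`Formal.IsUnif Vs τ`).

If no other component passes through the point `𝔫 = (i₀, s)` (`hne`) and the functions regular at
`s` lift to quotients of elements of `A` (`hlift`), then the local ring `A_𝔫` is regular of
dimension two with maximal ideal `(q, t)`, `t ∈ A` any element whose reduction is a uniformiser
at `s`; in particular it is factorial.

* `div_mem_of_isUnif`, `exists_eq_mul_of_isUnif`, `exists_lift_unif` : small bridges from
  `Formal.IsUnif` to the hypothesis shapes of `LThm`;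
* `regular_off_mid` : the statement for a given `t`;
* `exists_regular_off_mid` : the statement with `t` produced from `hlift`.
-/

set_option autoImplicit false

namespace Fermat.Agent.CAR.Local.Inst.OffMid

open IsLocalRing Fermat.Agent.CAR.Local Fermat.Agent.CAR.Formal

section Unif

variable {K : Type*} [Field K] {V : ValuationSubring K} {π : K}

/-- A uniformiser divides every non-unit. -/
theorem div_mem_of_isUnif (h : IsUnif V π) : ∀ z ∈ V.nonunits, z / π ∈ V := by
  intro z hz
  by_cases hz0 : z = 0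
  · rw [hz0, zero_div]
    exact V.zero_mem
  · have h1 : 0 < h.ord z := (h.ord_pos_iff hz0).2 hz
    have h2 : z / π ≠ 0 := div_ne_zero hz0 h.ne_zero
    rw [← h.ord_nonneg_iff h2, h.ord_div hz0 h.ne_zero, h.ord_self]
    omega

/-- Every non-unit is a multiple of any element of order one. -/
theorem exists_eq_mul_of_isUnif (h : IsUnif V π) {t : K} (ht0 : t ≠ 0) (ht : h.ord t = 1) :
    ∀ c ∈ V.nonunits, ∃ c' ∈ V, c = c' * t := by
  intro c hc
  by_cases hc0 : c = 0
  · exact ⟨0, V.zero_mem, by rw [hc0, zero_mul]⟩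
  · have h1 : 0 < h.ord c := (h.ord_pos_iff hc0).2 hc
    have h2 : c / t ≠ 0 := div_ne_zero hc0 ht0
    refine ⟨c / t, ?_, by field_simp⟩
    rw [← h.ord_nonneg_iff h2, h.ord_div hc0 ht0, ht]
    omega

/-- An element of order one is a nonzero non-unit. -/
theorem mem_nonunits_of_ord_eq_one (h : IsUnif V π) {t : K} (ht : h.ord t = 1) :
    t ≠ 0 ∧ t ∈ V.nonunits := by
  have ht0 : t ≠ 0 := by
    rintro rfl
    simp at ht
  exact ⟨ht0, (h.ord_pos_iff ht0).1 (by omega)⟩

/-- If the elements regular at the place lift to quotients of elements of a ring `A` mapping into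
`V`, some element of `A` reduces to an element of order one. -/
theorem exists_lift_unif {A : Type*} [CommRing A] (ρ : A →+* K) (h : IsUnif V π)
    (hρ : ∀ a, ρ a ∈ V)
    (hlift : ∀ c ∈ V, ∃ a b : A, ρ b ∉ V.nonunits ∧ ρ a = c * ρ b) :
    ∃ t : A, h.ord (ρ t) = 1 := by
  obtain ⟨a, b, hb, hab⟩ := hlift π h.mem
  rw [ValuationSubring.mem_nonunits_iff_or] at hb
  push Not at hb
  obtain ⟨hb0, hbi⟩ := hb
  refine ⟨a, ?_⟩
  rw [hab, h.ord_mul h.ne_zero hb0, h.ord_self, h.ord_unit (hρ b) hbi hb0, add_zero]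

end Unif

section OffMid

variable {A F κ : Type*} [CommRing A] [IsDomain A] [IsNoetherianRing A] [IsIntegrallyClosed A]
  [Field F] [Algebra A F] [IsFractionRing A F] [Field κ]
  {ι : Type*} (O : ι → ValuationSubring F) (hAO : ∀ i a, algebraMap A F a ∈ O i)

/-- **(P-2), abstract form.**  At a point `𝔫 = (i₀, s)` of the special fibre through which no
other component passes, with `q` a uniformiser of the component `i₀`, the local ring `A_𝔫` is
regular with maximal ideal `(q, t)` and factorial; `q` is a prime element of `A_𝔫` generating the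
centre of `O i₀`. -/
theorem regular_off_mid {q : A} (hq0 : q ≠ 0)
    (hmin : ∀ 𝔮 ∈ (Ideal.span {q}).minimalPrimes, ∃ i, 𝔮 = centre (O i) (hAO i))
    (i₀ : ι) (red : O i₀ →+* κ) (hred : ∀ x : O i₀, red x = 0 ↔ x ∈ maximalIdeal (O i₀))
    (Vs : ValuationSubring κ)
    (hA : ∀ a : A, algebraMap A F a ∈ compositeSubring (O i₀) red hred Vs)
    (hne : ∀ i, i ≠ i₀ → ¬ centre (O i) (hAO i) ≤ pointIdeal (O i₀) red hred Vs hA)
    (hq : IsUnif (O i₀) (algebraMap A F q))
    {τ : κ} (hτ : IsUnif Vs τ)
    (hlift : ∀ c ∈ Vs, ∃ a b : A, redOn (O i₀) red (hAO i₀) b ∉ Vs.nonunits ∧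
      redOn (O i₀) red (hAO i₀) a = c * redOn (O i₀) red (hAO i₀) b)
    {t : A} (ht : hτ.ord (redOn (O i₀) red (hAO i₀) t) = 1) :
    maximalIdeal (pointRing F (pointIdeal (O i₀) red hred Vs hA)) =
        Ideal.span {algebraMap A (pointRing F (pointIdeal (O i₀) red hred Vs hA)) q,
          algebraMap A (pointRing F (pointIdeal (O i₀) red hred Vs hA)) t} ∧
      2 ≤ (maximalIdeal (pointRing F (pointIdeal (O i₀) red hred Vs hA))).height ∧
      UniqueFactorizationMonoid (pointRing F (pointIdeal (O i₀) red hred Vs hA)) ∧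
      (∀ p : Ideal (pointRing F (pointIdeal (O i₀) red hred Vs hA)), p.IsPrime →
        p ≠ maximalIdeal (pointRing F (pointIdeal (O i₀) red hred Vs hA)) → p.IsPrincipal) ∧
      Prime (algebraMap A (pointRing F (pointIdeal (O i₀) red hred Vs hA)) q) ∧
      (∀ r : pointRing F (pointIdeal (O i₀) red hred Vs hA), (r : F) ∈ (O i₀).nonunits ↔
        r ∈ Ideal.span {algebraMap A (pointRing F (pointIdeal (O i₀) red hred Vs hA)) q}) := by
  have h𝔫 : centre (O i₀) (hAO i₀) ≤ pointIdeal (O i₀) red hred Vs hA :=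
    centre_le_pointIdeal (O i₀) red hred (hAO i₀) Vs hA
  have hdO : ∀ r : pointRing F (pointIdeal (O i₀) red hred Vs hA), (r : F) ∈ (O i₀).nonunits ↔
      r ∈ Ideal.span {algebraMap A (pointRing F (pointIdeal (O i₀) red hred Vs hA)) q} :=
    LThm.mem_nonunits_iff_mem_span_of_minimalPrimes (pointIdeal (O i₀) red hred Vs hA) (O i₀)
      (hAO i₀) h𝔫 hq.mem_nonunits (div_mem_of_isUnif hq)
      (LThm.minimalPrimes_le_eq_centre_of_not_le O hAO (pointIdeal (O i₀) red hred Vs hA) hmin
        i₀ hne)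
  obtain ⟨ht0, htm⟩ := mem_nonunits_of_ord_eq_one hτ ht
  obtain ⟨h1, h2, h3, h4, h5⟩ := LThm.regular_of_generates (O i₀) red hred (hAO i₀) Vs hA hq0
    hdO htm ht0 (exists_eq_mul_of_isUnif hτ ht0 ht) hlift
  exact ⟨h1, h2, h3, h4, h5, hdO⟩

/-- **(P-2), abstract form, existence of the second parameter.** -/
theorem exists_regular_off_mid {q : A} (hq0 : q ≠ 0)
    (hmin : ∀ 𝔮 ∈ (Ideal.span {q}).minimalPrimes, ∃ i, 𝔮 = centre (O i) (hAO i))
    (i₀ : ι) (red : O i₀ →+* κ) (hred : ∀ x : O i₀, red x = 0 ↔ x ∈ maximalIdeal (O i₀))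
    (Vs : ValuationSubring κ)
    (hA : ∀ a : A, algebraMap A F a ∈ compositeSubring (O i₀) red hred Vs)
    (hne : ∀ i, i ≠ i₀ → ¬ centre (O i) (hAO i) ≤ pointIdeal (O i₀) red hred Vs hA)
    (hq : IsUnif (O i₀) (algebraMap A F q))
    {τ : κ} (hτ : IsUnif Vs τ)
    (hlift : ∀ c ∈ Vs, ∃ a b : A, redOn (O i₀) red (hAO i₀) b ∉ Vs.nonunits ∧
      redOn (O i₀) red (hAO i₀) a = c * redOn (O i₀) red (hAO i₀) b) :
    ∃ t : A, hτ.ord (redOn (O i₀) red (hAO i₀) t) = 1 ∧
      maximalIdeal (pointRing F (pointIdeal (O i₀) red hred Vs hA)) =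
        Ideal.span {algebraMap A (pointRing F (pointIdeal (O i₀) red hred Vs hA)) q,
          algebraMap A (pointRing F (pointIdeal (O i₀) red hred Vs hA)) t} ∧
      2 ≤ (maximalIdeal (pointRing F (pointIdeal (O i₀) red hred Vs hA))).height ∧
      UniqueFactorizationMonoid (pointRing F (pointIdeal (O i₀) red hred Vs hA)) ∧
      (∀ p : Ideal (pointRing F (pointIdeal (O i₀) red hred Vs hA)), p.IsPrime →
        p ≠ maximalIdeal (pointRing F (pointIdeal (O i₀) red hred Vs hA)) → p.IsPrincipal) ∧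
      Prime (algebraMap A (pointRing F (pointIdeal (O i₀) red hred Vs hA)) q) ∧
      (∀ r : pointRing F (pointIdeal (O i₀) red hred Vs hA), (r : F) ∈ (O i₀).nonunits ↔
        r ∈ Ideal.span {algebraMap A (pointRing F (pointIdeal (O i₀) red hred Vs hA)) q}) := by
  have hρ : ∀ a : A, redOn (O i₀) red (hAO i₀) a ∈ Vs := fun a =>
    (algebraMap_mem_compositeSubring_iff (O i₀) red hred (hAO i₀) Vs a).1 (hA a)
  obtain ⟨t, ht⟩ := exists_lift_unif (redOn (O i₀) red (hAO i₀)) hτ hρ hlift
  exact ⟨t, ht, regular_off_mid O hAO hq0 hmin i₀ red hred Vs hA hne hq hτ hlift ht⟩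

end OffMid

end Fermat.Agent.CAR.Local.Inst.OffMid
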