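import Mathlib
import Fermat.Agent.CAR.Formal.DiscVal
import Fermat.Agent.S24.PlaceBasic
import Fermat.Agent.Lib.FF.Holo

/-!
# CAR-17: bridge between Prelude places and the point model of `CAR/Local`

The point model of `CAR/Local/{Centre, Exhaust, LocalThm}` describes a closed point of a
component by an arbitrary valuation subring `Vs` of the residue function field `κ`, and the local
computations (`EllOrder`, `Inst/OffMid`, `Inst/Ell`) use `Formal.IsUnif Vs τ` and its order
function.  The function-field layer (`Lift`, the reduction theory, the branch orders) speaks about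
`AlgebraicCurve.Place k κ` and `Place.ord`.  This file identifies the two:

* `ord_eq_zero_of_unit`, `ord_isUnif` : a uniformiser in the sense of `IsUnif` has `Place.ord` one;
* `isUnif_ord_eq` : **`hτ.ord y = Q.ord y`** for every `IsUnif Q.toValuationSubring τ`;
* `isUnif_of_irreducible`, `exists_isUnif` : every place has such a `τ`;
* `mem_nonunits_iff`, `notMem_nonunits_iff`, `notMem_nonunits_of_ord_eq_zero`,
  `mem_nonunits_of_ord_pos` : non-units of the valuation ring of a place in terms of `Place.ord`;
* `exists_place_eq`, `exists_place_isUnif` : a valuation subring `Vs ≠ ⊤` of a function field of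
  one variable containing the constants is the valuation ring of a place (Stichtenoth 1.1.6, via
  `Holo.placeOfValuationSubring`), hence carries an `IsUnif`.
-/

set_option autoImplicit false

namespace Fermat.Agent.CAR.Local.Inst.PlaceBridge

open AlgebraicCurve Fermat.Agent.CAR.Formal IntermediateField

variable {K F : Type*} [Field K] [Field F] [Algebra K F]

/-- A unit of the valuation ring of a place has order zero. -/
theorem ord_eq_zero_of_unit (Q : Place K F) {u : F} (hu : u ∈ Q.toValuationSubring)
    (hui : u⁻¹ ∈ Q.toValuationSubring) : Q.ord u = 0 := by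
  have h1 := Fermat.Agent.S24.ord_nonneg_of_mem Q hu
  have h2 := Fermat.Agent.S24.ord_nonneg_of_mem Q hui
  rw [Q.ord_inv] at h2
  omega

/-- Non-units of the valuation ring of a place. -/
theorem mem_nonunits_iff (Q : Place K F) {y : F} (hy : y ≠ 0) :
    y ∈ Q.toValuationSubring.nonunits ↔ 0 < Q.ord y := by
  rw [ValuationSubring.mem_nonunits_iff_or, Fermat.Agent.S24.ord_pos_iff]
  constructor
  · rintro (h | h)
    · exact absurd h hy
    · exact h
  · exact fun h => Or.inr h

theorem mem_nonunits_of_ord_pos (Q : Place K F) {y : F} (hy : 0 < Q.ord y) :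
    y ∈ Q.toValuationSubring.nonunits := by
  rw [ValuationSubring.mem_nonunits_iff_or]
  exact Or.inr ((Fermat.Agent.S24.ord_pos_iff Q).1 hy)

theorem notMem_nonunits_iff (Q : Place K F) {y : F} :
    y ∉ Q.toValuationSubring.nonunits ↔ y ≠ 0 ∧ Q.ord y ≤ 0 := by
  rw [ValuationSubring.mem_nonunits_iff_or]
  push Not
  refine and_congr Iff.rfl ?_
  rw [← not_lt, Fermat.Agent.S24.ord_pos_iff, not_not]

theorem notMem_nonunits_of_ord_eq_zero (Q : Place K F) {y : F} (hy0 : y ≠ 0)
    (hy : Q.ord y = 0) : y ∉ Q.toValuationSubring.nonunits :=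
  (notMem_nonunits_iff Q).2 ⟨hy0, hy.le⟩

/-- A uniformiser in the sense of `IsUnif` has order one. -/
theorem ord_isUnif (Q : Place K F) {τ : F} (hτ : IsUnif Q.toValuationSubring τ) :
    Q.ord τ = 1 := by
  obtain ⟨π, hπ⟩ := IsDiscreteValuationRing.exists_irreducible Q.toValuationSubring
  have hπ1 : Q.ord (π : F) = 1 := Q.ord_coe_irreducible hπ
  have hπ0 : (π : F) ≠ 0 := by
    intro h
    rw [h, Q.ord_zero] at hπ1
    exact zero_ne_one hπ1
  obtain ⟨n, u, hu, hui, hx⟩ := hτ.exists_zpow (π : F) hπ0
  have hu0 : u ≠ 0 := by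
    rintro rfl
    rw [mul_zero] at hx
    exact hπ0 hx
  have h1 : Q.ord (π : F) = n * Q.ord τ := by
    rw [hx, Q.ord_mul (zpow_ne_zero n hτ.ne_zero) hu0, Q.ord_zpow,
      ord_eq_zero_of_unit Q hu hui, add_zero]
  have h2 : 0 < Q.ord τ := (Fermat.Agent.S24.ord_pos_iff Q).2 hτ.inv_notMem
  rw [hπ1] at h1
  have h3 : Q.ord τ ∣ 1 := Dvd.intro_left n h1.symm
  exact Int.eq_one_of_dvd_one h2.le h3

/-- **The two order functions agree.** -/
theorem isUnif_ord_eq (Q : Place K F) {τ : F} (hτ : IsUnif Q.toValuationSubring τ) (y : F) :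
    hτ.ord y = Q.ord y := by
  by_cases hy : y = 0
  · rw [hy, hτ.ord_zero, Q.ord_zero]
  · obtain ⟨u, hu, hui, hu0, hx⟩ := hτ.exists_unit_eq hy
    conv_rhs => rw [hx]
    rw [Q.ord_mul (zpow_ne_zero _ hτ.ne_zero) hu0, Q.ord_zpow, ord_isUnif Q hτ,
      ord_eq_zero_of_unit Q hu hui, mul_one, add_zero]

/-- An irreducible element of the valuation ring of a place is a uniformiser in the sense of
`IsUnif`. -/
theorem isUnif_of_irreducible (Q : Place K F) {π : Q.toValuationSubring} (hπ : Irreducible π) :
    IsUnif Q.toValuationSubring (π : F) where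
  mem := π.2
  inv_notMem := (Fermat.Agent.S24.ord_pos_iff Q).1 (by rw [Q.ord_coe_irreducible hπ]; exact one_pos)
  exists_zpow := by
    intro x hx
    obtain ⟨u, hu⟩ := Q.exists_unit_mul_zpow hx hπ
    refine ⟨Q.ord x, ((u : Q.toValuationSubring) : F), (u : Q.toValuationSubring).2, ?_, ?_⟩
    · have h1 : (((u⁻¹ : Q.toValuationSubringˣ) : Q.toValuationSubring) : F) =
          ((u : Q.toValuationSubring) : F)⁻¹ := by
        have h2 : ((u : Q.toValuationSubring) : F) *
            (((u⁻¹ : Q.toValuationSubringˣ) : Q.toValuationSubring) : F) = 1 := by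
          have h3 : (u : Q.toValuationSubring) * ((u⁻¹ : Q.toValuationSubringˣ) :
              Q.toValuationSubring) = 1 := by
            rw [← Units.val_mul, mul_inv_cancel, Units.val_one]
          exact congrArg Subtype.val h3
        exact eq_inv_of_mul_eq_one_right h2
      rw [← h1]
      exact ((u⁻¹ : Q.toValuationSubringˣ) : Q.toValuationSubring).2
    · rw [mul_comm]
      exact hu

/-- Every place carries a uniformiser in the sense of `IsUnif`. -/
theorem exists_isUnif (Q : Place K F) : ∃ τ : F, IsUnif Q.toValuationSubring τ := by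
  obtain ⟨π, hπ⟩ := IsDiscreteValuationRing.exists_irreducible Q.toValuationSubring
  exact ⟨(π : F), isUnif_of_irreducible Q hπ⟩

/-- A proper valuation subring of a function field of one variable containing the constants is the
valuation ring of a place. -/
theorem exists_place_eq (x : F) [FiniteDimensional K⟮x⟯ F] (Vs : ValuationSubring F)
    (hK : ∀ a : K, algebraMap K F a ∈ Vs) (hVs : Vs ≠ ⊤) :
    ∃ Q : Place K F, Q.toValuationSubring = Vs :=
  ⟨Fermat.Agent.Lib.FF.Holo.placeOfValuationSubring x Vs hK hVs, rfl⟩

/-- A proper valuation subring of a function field of one variable containing the constants is a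
discrete valuation ring in the sense of `IsUnif`. -/
theorem exists_place_isUnif (x : F) [FiniteDimensional K⟮x⟯ F] (Vs : ValuationSubring F)
    (hK : ∀ a : K, algebraMap K F a ∈ Vs) (hVs : Vs ≠ ⊤) : ∃ τ : F, IsUnif Vs τ :=
  exists_isUnif (Fermat.Agent.Lib.FF.Holo.placeOfValuationSubring x Vs hK hVs)

end Fermat.Agent.CAR.Local.Inst.PlaceBridge
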