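import Mathlib
import Fermat.Agent.CAR.Lift
import Fermat.Agent.CAR.K0
import Fermat.Agent.CAR.Local.Exhaust
import Fermat.Agent.CAR.Local.Inst.PlaceBridge
import Fermat.Agent.CAR.V3.Zero
import Fermat.Agent.CAR.V3.MidPull
import Fermat.Agent.Lib.FF.CharP.ModLInst

/-!
# CAR row 389 (b): (LIFT) at the cusp places of the chart at infinity

Generic setting of the RED layer: `(L, A, π, k)`, a level `N` with `(N : k) ≠ 0`, a base function
`B : BaseFn.Data A π N` (`x = B.x`, `x̄ = B.xt`), the Gauss valuation ring `Ow` of `F' = L·F_N`,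
its residue map `redF : Ow → κ = modularFunctionFieldFullC k N`, and the chart ring at infinity
`Lift.Binf B hNk` (Gauss-integral functions regular where `x ≠ 0`).

(LIFT) at infinity enters through `LiftFracInf B hπ hNk`, the literal conclusion shape of
`Lift.lift_frac_inf` (`liftFracInf_of_T3'` : it follows from `Lift.T3' B hπ hNk`).

`Bc` is any commutative ring with a map `ρ : Bc →+* κ` whose image contains the reduction of
`Lift.Binf B hNk` (`RedOntoInf B hπ hNk ρ`).  Then

* `cusp_lift` : for every valuation subring `Vs ⊇ ρ Bc` of `κ` at which `x̄⁻¹` vanishes, every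
  `c ∈ Vs` is `ρ a / ρ b` with `ρ b` a unit of `Vs` — the body of `V3BaseCusp.lift`;
* `redOntoInf_of_pull` : `RedOntoInf` for `ρ = redOn O red hBO` (`Bc` a subring-like algebra of a
  field `F3`, `O` a valuation subring of `F3` with residue map `red`) from a ring map
  `φ : F' → F3` with `φ (Binf) ⊆ Bc` and `red ∘ φ = redF`;
* `lift_of_pull`, `v3BaseCusp_lift` : the field `lift` of `InstCusp.V3BaseCusp` (all three
  components), with `yb := x̄⁻¹`;
* `redInf3_pull`, `redMid_pull`, `redZero3_pull` : the three compatibilities `red ∘ φ = redF` at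
  `(L, A, π) = (K0, W0, resW0)` for `O_inf` (`φ = π_0^*`), `O_mid` (`φ = π_0^*`) and `O_0`
  (`φ = π_2^*`);
* `v3BaseCusp_lift_K0` : the field `lift` for the three concrete valuation rings
  `OInf3`, `OMid`, `OZero3` of level `M' q²` over `K0`.
-/

set_option autoImplicit false
set_option synthInstance.maxHeartbeats 200000

namespace Fermat.Agent.CAR.Local.Inst.LiftCuspK0

open HahnSeries ModularCurve Polynomial AlgebraicCurve Fermat.Agent.S28 IntermediateField
  Fermat.Agent.Lib.FF Fermat.Agent.Lib.Red Fermat.Agent.S24 Fermat.Agent.CAR.Lift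
  Fermat.Agent.CAR.Local

section Generic

variable {L : Type*} [Field L] [Algebra ℚ L] {A : ValuationSubring L} {k : Type} [Field k]
  {π : A →+* k} {N : ℕ} [NeZero N] (B : BaseFn.Data A π N)
  (hπ : ∀ a : A, ¬ IsUnit a → π a = 0) (hsurj : Function.Surjective π) (hNk : (N : k) ≠ 0)

/-- **(LIFT_s) at infinity**, in the literal conclusion shape of `Lift.lift_frac_inf`. -/
def LiftFracInf : Prop :=
  ∀ Q : Place k ↥(modularFunctionFieldFullC k N), Q.ord (B.xt hπ hNk) ≤ 0 →
    ∀ c : ↥(modularFunctionFieldFullC k N), 0 ≤ Q.ord c →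
      ∃ a b : Ow A π N hNk,
        (a : ↥(laurentBaseChange L (modularFunctionFieldFull N))) ∈ Binf B hNk ∧
        (b : ↥(laurentBaseChange L (modularFunctionFieldFull N))) ∈ Binf B hNk ∧
        Q.ord (redF A π N hπ hNk b) = 0 ∧ redF A π N hπ hNk b ≠ 0 ∧
        redF A π N hπ hNk a = c * redF A π N hπ hNk b

include hsurj in
/-- (LIFT_s) at infinity from (T3'). -/
theorem liftFracInf_of_T3' [IsAlgClosed k] (h : T3' B hπ hNk) : LiftFracInf B hπ hNk :=
  fun Q hQ _ hc => lift_frac_inf B hπ hsurj hNk h Q hQ hc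

/-- The constants of `A` lie in the chart ring at infinity. -/
theorem algebraMap_mem_Binf (a : A) :
    algebraMap L ↥(laurentBaseChange L (modularFunctionFieldFull N)) (a : L) ∈ Binf B hNk := by
  refine ⟨?_, fun P _ => ?_⟩
  · have h := B.aeval_map_mem_Ow hNk (Polynomial.C a)
    rw [Polynomial.map_C, Polynomial.aeval_C] at h
    exact h
  · rw [Fermat.Agent.S24.ord_algebraMap]

include B in
/-- The reduction of a constant is the constant. -/
theorem redF_algebraMap (a : A)
    (h : algebraMap L ↥(laurentBaseChange L (modularFunctionFieldFull N)) (a : L) ∈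
      Ow A π N hNk) :
    redF A π N hπ hNk ⟨_, h⟩ = algebraMap k ↥(modularFunctionFieldFullC k N) (π a) := by
  have h1 := B.redF_aeval_map hπ hNk (Polynomial.C a)
  have h2 : Polynomial.aeval (B.xt hπ hNk) ((Polynomial.C a).map π) =
      algebraMap k ↥(modularFunctionFieldFullC k N) (π a) := by
    rw [Polynomial.map_C, Polynomial.aeval_C]
  rw [← h2, ← h1]
  congr 1
  apply Subtype.ext
  show algebraMap L ↥(laurentBaseChange L (modularFunctionFieldFull N)) (a : L) =
    Polynomial.aeval B.x ((Polynomial.C a).map A.subtype)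
  rw [Polynomial.map_C, Polynomial.aeval_C]
  rfl

section Ring

variable {Bc : Type*} [CommRing Bc] (ρ : Bc →+* ↥(modularFunctionFieldFullC k N))

/-- `ρ Bc` contains the reduction of the chart ring at infinity `Lift.Binf B hNk`. -/
def RedOntoInf : Prop :=
  ∀ y : Ow A π N hNk,
    (y : ↥(laurentBaseChange L (modularFunctionFieldFull N))) ∈ Binf B hNk →
      ∃ b : Bc, ρ b = redF A π N hπ hNk y

variable {B hπ hNk ρ}

include hsurj in
/-- The constants are reductions of elements of `Bc`. -/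
theorem RedOntoInf.exists_const (H : RedOntoInf B hπ hNk ρ) (c : k) :
    ∃ a : Bc, ρ a = algebraMap k ↥(modularFunctionFieldFullC k N) c := by
  obtain ⟨a, rfl⟩ := hsurj c
  have ha := algebraMap_mem_Binf B hNk a
  obtain ⟨b, hb⟩ := H ⟨_, ha.1⟩ ha
  exact ⟨b, hb.trans (redF_algebraMap B hπ hNk a ha.1)⟩

include hsurj in
/-- **A cusp place is a place of `κ` at which `x̄` has a pole.** -/
theorem RedOntoInf.exists_place (H : RedOntoInf B hπ hNk ρ)
    (Vs : ValuationSubring ↥(modularFunctionFieldFullC k N)) (hVs : ∀ b : Bc, ρ b ∈ Vs)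
    (hy : (B.xt hπ hNk)⁻¹ ∈ Vs.nonunits) :
    ∃ Q : Place k ↥(modularFunctionFieldFullC k N),
      Q.toValuationSubring = Vs ∧ Q.ord (B.xt hπ hNk) < 0 := by
  have : FiniteDimensional ↥(k⟮B.xt hπ hNk⟯) ↥(modularFunctionFieldFullC k N) :=
    B.finite_k hπ hsurj hNk
  have hx0 : B.xt hπ hNk ≠ 0 := by
    intro h0
    exact (B.transcendental_xt hπ hNk) (h0 ▸ isAlgebraic_zero)
  have hk : ∀ c : k, algebraMap k ↥(modularFunctionFieldFullC k N) c ∈ Vs := by
    intro c
    obtain ⟨a, ha⟩ := H.exists_const hsurj c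
    rw [← ha]
    exact hVs a
  have htop : Vs ≠ ⊤ := by
    rintro rfl
    rw [ValuationSubring.mem_nonunits_iff_or] at hy
    rcases hy with hy | hy
    · exact inv_ne_zero hx0 hy
    · exact hy (ValuationSubring.mem_top _)
  obtain ⟨Q, hQ⟩ := PlaceBridge.exists_place_eq (B.xt hπ hNk) Vs hk htop
  refine ⟨Q, hQ, ?_⟩
  rw [← hQ] at hy
  have h1 := (PlaceBridge.mem_nonunits_iff Q (inv_ne_zero hx0)).1 hy
  rw [Q.ord_inv] at h1
  omega

include hsurj in
/-- **(LIFT) at the cusp places**: the body of `V3BaseCusp.lift` for a ring `Bc` whose reduction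
contains the reduction of `Lift.Binf`. -/
theorem cusp_lift (H : RedOntoInf B hπ hNk ρ) (hfrac : LiftFracInf B hπ hNk)
    (Vs : ValuationSubring ↥(modularFunctionFieldFullC k N)) (hVs : ∀ b : Bc, ρ b ∈ Vs)
    (hy : (B.xt hπ hNk)⁻¹ ∈ Vs.nonunits) :
    ∀ c ∈ Vs, ∃ a b : Bc, ρ b ∉ Vs.nonunits ∧ ρ a = c * ρ b := by
  intro c hc
  obtain ⟨Q, rfl, hQ⟩ := H.exists_place hsurj Vs hVs hy
  obtain ⟨a, b, ha, hb, hQb, hb0, hab⟩ := hfrac Q hQ.le c (ord_nonneg_of_mem Q hc)
  obtain ⟨a', ha'⟩ := H a ha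
  obtain ⟨b', hb'⟩ := H b hb
  refine ⟨a', b', ?_, ?_⟩
  · rw [hb']
    exact PlaceBridge.notMem_nonunits_of_ord_eq_zero Q hb0 hQb
  · rw [ha', hb']
    exact hab

end Ring

/-! ### Pull-back to a chart ring of a bigger field -/

section Pull

variable {F3 : Type*} [Field F3] {Bc : Type*} [CommRing Bc] [Algebra Bc F3]

variable {B hπ hNk}

/-- `RedOntoInf` for the reduction `redOn O red hBO` of a chart ring `Bc ⊆ O ⊆ F3`, from a map
`φ : F' → F3` with `φ (Binf) ⊆ Bc` and `red ∘ φ = redF`. -/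
theorem redOntoInf_of_pull (O : ValuationSubring F3)
    (red : O →+* ↥(modularFunctionFieldFullC k N)) (hBO : ∀ b : Bc, algebraMap Bc F3 b ∈ O)
    (φ : ↥(laurentBaseChange L (modularFunctionFieldFull N)) → F3)
    (hφ : ∀ y : ↥(laurentBaseChange L (modularFunctionFieldFull N)), y ∈ Binf B hNk →
      ∃ b : Bc, algebraMap Bc F3 b = φ y)
    (hred : ∀ (y : ↥(laurentBaseChange L (modularFunctionFieldFull N)))
      (hy : y ∈ Ow A π N hNk) (h : φ y ∈ O), red ⟨φ y, h⟩ = redF A π N hπ hNk ⟨y, hy⟩) :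
    RedOntoInf B hπ hNk (redOn O red hBO) := by
  intro y hy
  obtain ⟨b, hb⟩ := hφ y hy
  refine ⟨b, ?_⟩
  rw [redOn_apply]
  have h : φ (y : ↥(laurentBaseChange L (modularFunctionFieldFull N))) ∈ O := hb ▸ hBO b
  rw [← hred y y.2 h]
  congr 1
  exact Subtype.ext hb

include hsurj in
/-- **The field `lift` of `V3BaseCusp` on one component.** -/
theorem lift_of_pull (O : ValuationSubring F3)
    (red : O →+* ↥(modularFunctionFieldFullC k N)) (hBO : ∀ b : Bc, algebraMap Bc F3 b ∈ O)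
    (φ : ↥(laurentBaseChange L (modularFunctionFieldFull N)) → F3)
    (hφ : ∀ y : ↥(laurentBaseChange L (modularFunctionFieldFull N)), y ∈ Binf B hNk →
      ∃ b : Bc, algebraMap Bc F3 b = φ y)
    (hred : ∀ (y : ↥(laurentBaseChange L (modularFunctionFieldFull N)))
      (hy : y ∈ Ow A π N hNk) (h : φ y ∈ O), red ⟨φ y, h⟩ = redF A π N hπ hNk ⟨y, hy⟩)
    (hfrac : LiftFracInf B hπ hNk) :
    ∀ Vs : ValuationSubring ↥(modularFunctionFieldFullC k N),
      (∀ b : Bc, redOn O red hBO b ∈ Vs) → (B.xt hπ hNk)⁻¹ ∈ Vs.nonunits →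
      ∀ c ∈ Vs, ∃ a b : Bc, redOn O red hBO b ∉ Vs.nonunits ∧
        redOn O red hBO a = c * redOn O red hBO b :=
  fun Vs hVs hy =>
    cusp_lift hsurj (redOntoInf_of_pull O red hBO φ hφ hred) hfrac Vs hVs hy

include hsurj in
/-- **The field `lift` of `InstCusp.V3BaseCusp`** (three components, `yb := x̄⁻¹`), from three
pull-back maps `φ i : F' → F3` with `φ i (Binf) ⊆ Bc` and `red i ∘ φ i = redF`. -/
theorem v3BaseCusp_lift (O : Fin 3 → ValuationSubring F3)
    (red : ∀ i, O i →+* ↥(modularFunctionFieldFullC k N))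
    (hBO : ∀ i, ∀ b : Bc, algebraMap Bc F3 b ∈ O i)
    (φ : Fin 3 → ↥(laurentBaseChange L (modularFunctionFieldFull N)) → F3)
    (hφ : ∀ i, ∀ y : ↥(laurentBaseChange L (modularFunctionFieldFull N)), y ∈ Binf B hNk →
      ∃ b : Bc, algebraMap Bc F3 b = φ i y)
    (hred : ∀ i, ∀ (y : ↥(laurentBaseChange L (modularFunctionFieldFull N)))
      (hy : y ∈ Ow A π N hNk) (h : φ i y ∈ O i), red i ⟨φ i y, h⟩ = redF A π N hπ hNk ⟨y, hy⟩)
    (hfrac : LiftFracInf B hπ hNk) :
    ∀ i, ∀ Vs : ValuationSubring ↥(modularFunctionFieldFullC k N),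
      (∀ b : Bc, redOn (O i) (red i) (hBO i) b ∈ Vs) → (B.xt hπ hNk)⁻¹ ∈ Vs.nonunits →
      ∀ c ∈ Vs, ∃ a b : Bc, redOn (O i) (red i) (hBO i) b ∉ Vs.nonunits ∧
        redOn (O i) (red i) (hBO i) a = c * redOn (O i) (red i) (hBO i) b :=
  fun i => lift_of_pull hsurj (O i) (red i) (hBO i) (φ i) (hφ i) (hred i) hfrac

end Pull

end Generic

/-! ### The instance `(L, A, π) = (K0, W0, resW0)`, level `M' q²` -/

section K0Inst

open Fermat.Agent.CAR.K0 Fermat.Agent.CAR.V3 Fermat.Agent.CAR.V3.MidRing Fermat.Agent.BAD.TwoVal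

local notation "Qb" => AlgebraicClosure ℚ

variable {q : ℕ} (hq : q.Prime) (A : ValuationSubring Qb) (hA : A.LiesOverPrime q)
  {ζ : Qb} (hζ : IsPrimitiveRoot ζ q) (M' : ℕ) [NeZero M'] [NeZero q] (hqM : ¬ q ∣ M')

omit [NeZero q] in
include hq hA in
/-- (LIFT_s) at infinity over `(K0, W0, resW0)` from (T3') over `(K0, W0, resW0)`. -/
theorem liftFracInf_K0_of_T3' {hM' : (M' : IsLocalRing.ResidueField A) ≠ 0}
    {B : BaseFn.Data (W0 A) (resW0 A) M'}
    (h : T3' B (resW0_eq_zero_of_not_isUnit A) hM') :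
    LiftFracInf B (resW0_eq_zero_of_not_isUnit A) hM' := by
  have := CharP.isAlgClosed_residueField A
  exact liftFracInf_of_T3' B _ (resW0_surjective hq hA) hM' h

/-- `red_inf ∘ π_0^* = red` in the shape of `lift_of_pull` (any base with a `BadSetup`). -/
theorem redInf3_pull {L : Type} [Field L] [Algebra ℚ L] {A : ValuationSubring L} {k : Type}
    [Field k] {π : A →+* k} {M' q : ℕ} [NeZero M'] [NeZero q] (h : BadSetup A π M' q)
    (y : ↥(laurentBaseChange L (modularFunctionFieldFull M'))) (hy : y ∈ Ow A π M' h.hMk)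
    (hy' : piStar0 L M' q y ∈ OInf3 h) :
    redInf3 h ⟨piStar0 L M' q y, hy'⟩ = redF A π M' h.hπ h.hMk ⟨y, hy⟩ :=
  redInf3_piStar0 h y hy hy'

/-- `red_0 ∘ π_2^* = red` in the shape of `lift_of_pull` (any base with a `BadSetup`). -/
theorem redZero3_pull {L : Type} [Field L] [Algebra ℚ L] {A : ValuationSubring L} {k : Type}
    [Field k] {π : A →+* k} {M' q : ℕ} [NeZero M'] [NeZero q] (h : BadSetup A π M' q)
    {w : laurentBaseChange L (modularFunctionFieldFull (M' * q * q)) ≃ₐ[L]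
      laurentBaseChange L (modularFunctionFieldFull (M' * q * q))} (hw : IsAL3 M' q w)
    (y : ↥(laurentBaseChange L (modularFunctionFieldFull M'))) (hy : y ∈ Ow A π M' h.hMk)
    (hy' : piStar2 L M' q y ∈ OZero3 h w) :
    redZero3 h w ⟨piStar2 L M' q y, hy'⟩ = redF A π M' h.hπ h.hMk ⟨y, hy⟩ :=
  redZero3_piStar2 h hw y hy hy'

/-- `red_mid ∘ π_0^* = red` in the shape of `lift_of_pull`, for ANY ring map `redK : O_mid → κ`
whose underlying series is `redMid`. -/
theorem redMid_pull (hMk : (M' : IsLocalRing.ResidueField A) ≠ 0)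
    (redK : OMid hq A hA hζ M' hqM (IsLocalRing.residue A) →+*
      ↥(modularFunctionFieldFullC (IsLocalRing.ResidueField A) M'))
    (hcoe : ∀ f : OMid hq A hA hζ M' hqM (IsLocalRing.residue A),
      ((redK f : ↥(modularFunctionFieldFullC (IsLocalRing.ResidueField A) M')) :
        LaurentSeries (IsLocalRing.ResidueField A)) =
        redMid hq A hA hζ M' hqM (IsLocalRing.residue A) f)
    (y : ↥(laurentBaseChange ↥(inertiaField A) (modularFunctionFieldFull M')))
    (hy : y ∈ Ow (W0 A) (resW0 A) M' hMk)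
    (hy' : piStar0 (inertiaField A) M' q y ∈ OMid hq A hA hζ M' hqM (IsLocalRing.residue A)) :
    redK ⟨piStar0 (inertiaField A) M' q y, hy'⟩ =
      redF (W0 A) (resW0 A) M' (resW0_eq_zero_of_not_isUnit A) hMk ⟨y, hy⟩ :=
  Subtype.ext ((hcoe _).trans (redMid_piStar0 hq A hA hζ M' hqM hMk y hy hy'))

include hq hA in
/-- **The field `lift` of `InstCusp.V3BaseCusp` for the chart at infinity of level `M' q²` over
`K0`** (cusp places: `x̄⁻¹ ∈ 𝔪_s`).  `Bc` is the chart ring (any commutative ring mapping into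
the three valuation rings `O i` and receiving `π_0^*`, `π_2^*` of `Lift.Binf B`); the residue maps
`red i` are identified with `redInf3`, `redMid`, `redZero3` pointwise (no casts). -/
theorem v3BaseCusp_lift_K0 (h : BadSetup (W0 A) (resW0 A) M' q)
    {w : laurentBaseChange ↥(inertiaField A) (modularFunctionFieldFull (M' * q * q)) ≃ₐ[↥(inertiaField A)]
      laurentBaseChange ↥(inertiaField A) (modularFunctionFieldFull (M' * q * q))}
    (hw : IsAL3 M' q w)
    {Bc : Type*} [CommRing Bc]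
    [Algebra Bc ↥(laurentBaseChange ↥(inertiaField A) (modularFunctionFieldFull (M' * q * q)))]
    (B : BaseFn.Data (W0 A) (resW0 A) M')
    (O : Fin 3 → ValuationSubring
      ↥(laurentBaseChange ↥(inertiaField A) (modularFunctionFieldFull (M' * q * q))))
    (red : ∀ i, O i →+* ↥(modularFunctionFieldFullC (IsLocalRing.ResidueField A) M'))
    (hBO : ∀ i, ∀ b : Bc, algebraMap Bc
      ↥(laurentBaseChange ↥(inertiaField A) (modularFunctionFieldFull (M' * q * q))) b ∈ O i)
    (hr0 : ∀ (f : ↥(laurentBaseChange ↥(inertiaField A) (modularFunctionFieldFull (M' * q * q))))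
      (hf : f ∈ O 0) (hf' : f ∈ OInf3 h), red 0 ⟨f, hf⟩ = redInf3 h ⟨f, hf'⟩)
    (hr1 : ∀ (f : ↥(laurentBaseChange ↥(inertiaField A) (modularFunctionFieldFull (M' * q * q))))
      (hf : f ∈ O 1) (hf' : f ∈ OMid hq A hA hζ M' hqM (IsLocalRing.residue A)),
      ((red 1 ⟨f, hf⟩ : ↥(modularFunctionFieldFullC (IsLocalRing.ResidueField A) M')) :
        LaurentSeries (IsLocalRing.ResidueField A)) =
        redMid hq A hA hζ M' hqM (IsLocalRing.residue A) ⟨f, hf'⟩)
    (hr2 : ∀ (f : ↥(laurentBaseChange ↥(inertiaField A) (modularFunctionFieldFull (M' * q * q))))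
      (hf : f ∈ O 2) (hf' : f ∈ OZero3 h w), red 2 ⟨f, hf⟩ = redZero3 h w ⟨f, hf'⟩)
    (hπ0 : ∀ y : ↥(laurentBaseChange ↥(inertiaField A) (modularFunctionFieldFull M')),
      y ∈ Binf B h.hMk → ∃ b : Bc, algebraMap Bc
        ↥(laurentBaseChange ↥(inertiaField A) (modularFunctionFieldFull (M' * q * q))) b =
          piStar0 (inertiaField A) M' q y)
    (hπ2 : ∀ y : ↥(laurentBaseChange ↥(inertiaField A) (modularFunctionFieldFull M')),
      y ∈ Binf B h.hMk → ∃ b : Bc, algebraMap Bc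
        ↥(laurentBaseChange ↥(inertiaField A) (modularFunctionFieldFull (M' * q * q))) b =
          piStar2 (inertiaField A) M' q y)
    (hfrac : LiftFracInf B (resW0_eq_zero_of_not_isUnit A) h.hMk) :
    ∀ i, ∀ Vs : ValuationSubring ↥(modularFunctionFieldFullC (IsLocalRing.ResidueField A) M'),
      (∀ b : Bc, redOn (O i) (red i) (hBO i) b ∈ Vs) →
      (B.xt (resW0_eq_zero_of_not_isUnit A) h.hMk)⁻¹ ∈ Vs.nonunits →
      ∀ c ∈ Vs, ∃ a b : Bc, redOn (O i) (red i) (hBO i) b ∉ Vs.nonunits ∧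
        redOn (O i) (red i) (hBO i) a = c * redOn (O i) (red i) (hBO i) b := by
  have hsurj := resW0_surjective hq hA
  intro i
  fin_cases i
  · refine lift_of_pull hsurj (O 0) (red 0) (hBO 0) (fun y => piStar0 (inertiaField A) M' q y)
      hπ0 (fun y hy h' => ?_) hfrac
    exact (hr0 _ h' ((piStar0_mem_OInf3_iff h y).mpr hy)).trans (redInf3_piStar0 h y hy _)
  · refine lift_of_pull hsurj (O 1) (red 1) (hBO 1) (fun y => piStar0 (inertiaField A) M' q y)
      hπ0 (fun y hy h' => ?_) hfrac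
    exact Subtype.ext ((hr1 _ h' (piStar0_mem_OMid hq A hA hζ M' hqM h.hMk y hy)).trans
      (redMid_piStar0 hq A hA hζ M' hqM h.hMk y hy _))
  · refine lift_of_pull hsurj (O 2) (red 2) (hBO 2) (fun y => piStar2 (inertiaField A) M' q y)
      hπ2 (fun y hy h' => ?_) hfrac
    exact (hr2 _ h' ((piStar2_mem_OZero3_iff h hw y).mpr hy)).trans
      (redZero3_piStar2 h hw y hy _)

include hq hA in
/-- **`V3BaseCusp.lift` for the trunk base function `x = J(q^{M'})`**, with
`yb := (xk k M')⁻¹ = 1/x̄_B` (helper12's literal field; convention (B) of CAR ruling #6). -/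
theorem v3BaseCusp_lift_ofJ_K0 (h : BadSetup (W0 A) (resW0 A) M' q)
    {w : laurentBaseChange ↥(inertiaField A) (modularFunctionFieldFull (M' * q * q)) ≃ₐ[↥(inertiaField A)]
      laurentBaseChange ↥(inertiaField A) (modularFunctionFieldFull (M' * q * q))}
    (hw : IsAL3 M' q w)
    {Bc : Type*} [CommRing Bc]
    [Algebra Bc ↥(laurentBaseChange ↥(inertiaField A) (modularFunctionFieldFull (M' * q * q)))]
    (O : Fin 3 → ValuationSubring
      ↥(laurentBaseChange ↥(inertiaField A) (modularFunctionFieldFull (M' * q * q))))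
    (red : ∀ i, O i →+* ↥(modularFunctionFieldFullC (IsLocalRing.ResidueField A) M'))
    (hBO : ∀ i, ∀ b : Bc, algebraMap Bc
      ↥(laurentBaseChange ↥(inertiaField A) (modularFunctionFieldFull (M' * q * q))) b ∈ O i)
    (hr0 : ∀ (f : ↥(laurentBaseChange ↥(inertiaField A) (modularFunctionFieldFull (M' * q * q))))
      (hf : f ∈ O 0) (hf' : f ∈ OInf3 h), red 0 ⟨f, hf⟩ = redInf3 h ⟨f, hf'⟩)
    (hr1 : ∀ (f : ↥(laurentBaseChange ↥(inertiaField A) (modularFunctionFieldFull (M' * q * q))))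
      (hf : f ∈ O 1) (hf' : f ∈ OMid hq A hA hζ M' hqM (IsLocalRing.residue A)),
      ((red 1 ⟨f, hf⟩ : ↥(modularFunctionFieldFullC (IsLocalRing.ResidueField A) M')) :
        LaurentSeries (IsLocalRing.ResidueField A)) =
        redMid hq A hA hζ M' hqM (IsLocalRing.residue A) ⟨f, hf'⟩)
    (hr2 : ∀ (f : ↥(laurentBaseChange ↥(inertiaField A) (modularFunctionFieldFull (M' * q * q))))
      (hf : f ∈ O 2) (hf' : f ∈ OZero3 h w), red 2 ⟨f, hf⟩ = redZero3 h w ⟨f, hf'⟩)
    (hπ0 : ∀ y : ↥(laurentBaseChange ↥(inertiaField A) (modularFunctionFieldFull M')),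
      y ∈ Binf (BaseFn.Data.ofJ (W0 A) (resW0 A) M') h.hMk → ∃ b : Bc, algebraMap Bc
        ↥(laurentBaseChange ↥(inertiaField A) (modularFunctionFieldFull (M' * q * q))) b =
          piStar0 (inertiaField A) M' q y)
    (hπ2 : ∀ y : ↥(laurentBaseChange ↥(inertiaField A) (modularFunctionFieldFull M')),
      y ∈ Binf (BaseFn.Data.ofJ (W0 A) (resW0 A) M') h.hMk → ∃ b : Bc, algebraMap Bc
        ↥(laurentBaseChange ↥(inertiaField A) (modularFunctionFieldFull (M' * q * q))) b =
          piStar2 (inertiaField A) M' q y)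
    (hfrac : LiftFracInf (BaseFn.Data.ofJ (W0 A) (resW0 A) M')
      (resW0_eq_zero_of_not_isUnit A) h.hMk) :
    ∀ i, ∀ Vs : ValuationSubring ↥(modularFunctionFieldFullC (IsLocalRing.ResidueField A) M'),
      (∀ b : Bc, redOn (O i) (red i) (hBO i) b ∈ Vs) →
      (xk (IsLocalRing.ResidueField A) M')⁻¹ ∈ Vs.nonunits →
      ∀ c ∈ Vs, ∃ a b : Bc, redOn (O i) (red i) (hBO i) b ∉ Vs.nonunits ∧
        redOn (O i) (red i) (hBO i) a = c * redOn (O i) (red i) (hBO i) b := by
  intro i Vs hVs hy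
  refine v3BaseCusp_lift_K0 hq A hA hζ M' hqM h hw (BaseFn.Data.ofJ (W0 A) (resW0 A) M') O red
    hBO hr0 hr1 hr2 hπ0 hπ2 hfrac i Vs hVs ?_
  rw [BaseFn.Data.ofJ_xt]
  exact hy

end K0Inst

end Fermat.Agent.CAR.Local.Inst.LiftCuspK0
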