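import Mathlib
import Fermat.Agent.CAR.Local.Inst.LiftCuspK0
import Fermat.Agent.CAR.LiftK0.T3K0Closed
import Fermat.Agent.CAR.Inst.LiftRel
import Fermat.Agent.CAR.Inst.BPrimeWebInf

/-!
# CAR row 389 (b), closed form: (LIFT) at the cusp places of `B_∞ = chart W0 (J_0 J_2)⁻¹`

`LiftCuspK0.lean` reduces the field `lift` of `InstCusp.V3BaseCusp` for the chart at infinity of
level `M' q²` over `K0` to (LIFT_s) at infinity for the trunk base function `x = J(q^{M'})` of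
level `M'` (`LiftFracInf (ofJ …)`) and to the two inclusions `π_0^*(B'_∞), π_2^*(B'_∞) ⊆ B_∞`.
Here both are discharged:

* `liftFracInf_ofJ_K0_of_1728`, `liftFracInf_ofJ_K0_of_two_mul`, `liftFracInf_ofJ_K0_of_three_mul`,
  `liftFracInf_ofJ_K0` : `LiftFracInf (ofJ (W0 A) (resW0 A) M')` for residue characteristic
  `q ≥ 5` (`T3'` for `J`), `q = 3` with `2 ∣ M'` and `q = 2` with `3 ∣ M'` (the Hauptmodul
  charts and the chart change of `Inst/LiftRel.lean`);
* `hlift_chart_K0` : the LITERAL binder `hlift` of `Inst.Cusp.v3BaseCusp_chart` for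
  `K = K0`, `W = W0`, `N = M' q²`, `x = CuspQuot.J0 * CuspQuot.J2`, `yb = (xk k M')⁻¹`; the only
  hypotheses left are the pointwise identifications of the three residue maps with
  `redInf3`, `redMid`, `redZero3`.
-/

set_option autoImplicit false
set_option synthInstance.maxHeartbeats 400000

namespace Fermat.Agent.CAR.Local.Inst.LiftCuspK0

open HahnSeries ModularCurve Polynomial AlgebraicCurve Fermat.Agent.S28 IntermediateField
  Fermat.Agent.Lib.FF Fermat.Agent.Lib.Red Fermat.Agent.S24 Fermat.Agent.CAR.Lift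
  Fermat.Agent.CAR.Local Fermat.Agent.CAR.K0 Fermat.Agent.CAR.V3 Fermat.Agent.CAR.V3.MidRing
  Fermat.Agent.BAD.TwoVal Fermat.Agent.CAR.Glob

local notation "Qb" => AlgebraicClosure ℚ

section Closed

variable {q : ℕ} (hq : q.Prime) (A : ValuationSubring Qb) (hA : A.LiesOverPrime q)
  (M' : ℕ) [NeZero M']

include hq hA in
/-- (LIFT_s) at infinity for `x = J(q^{M'})` over `(K0, W0, resW0)`, residue characteristic
`≥ 5`. -/
theorem liftFracInf_ofJ_K0_of_1728 (hMk : (M' : IsLocalRing.ResidueField A) ≠ 0)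
    (h1728 : (1728 : IsLocalRing.ResidueField A) ≠ 0) :
    LiftFracInf (BaseFn.Data.ofJ (W0 A) (resW0 A) M') (resW0_eq_zero_of_not_isUnit A) hMk := by
  have := CharP.isAlgClosed_residueField A
  exact liftFracInf_of_T3' _ _ (resW0_surjective hq hA) hMk
    (Fermat.Agent.CAR.LiftK0.Closed.T3'_ofJ_K0 hq hA M' hMk h1728)

include hq hA in
/-- (LIFT_s) at infinity for `x = J(q^{M'})` over `(K0, W0, resW0)`, residue characteristic
`≠ 2` and `M' = m * 2` (through the Hauptmodul of level 2). -/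
theorem liftFracInf_ofJ_K0_of_two_mul {m : ℕ} [NeZero m] (hM : M' = m * 2)
    (hMk : (M' : IsLocalRing.ResidueField A) ≠ 0)
    (h2 : (2 : IsLocalRing.ResidueField A) ≠ 0) :
    LiftFracInf (BaseFn.Data.ofJ (W0 A) (resW0 A) M') (resW0_eq_zero_of_not_isUnit A) hMk := by
  have := CharP.isAlgClosed_residueField A
  intro Q hQ c hc
  exact Fermat.Agent.CAR.Inst.LiftRel.lift_frac_inf_ofJ_of_haupt2
    (resW0_eq_zero_of_not_isUnit A) (resW0_surjective hq hA) M' m hMk hM h2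
    (Fermat.Agent.CAR.LiftK0.Closed.T3_ofHaupt2_K0 hq hA hM hMk h2)
    (Fermat.Agent.CAR.LiftK0.Closed.T3'_ofHaupt2_K0 hq hA hM hMk h2) Q hQ hc

include hq hA in
/-- (LIFT_s) at infinity for `x = J(q^{M'})` over `(K0, W0, resW0)`, residue characteristic
`≠ 3` and `M' = m * 3` (through the Hauptmodul of level 3). -/
theorem liftFracInf_ofJ_K0_of_three_mul {m : ℕ} [NeZero m] (hM : M' = m * 3)
    (hMk : (M' : IsLocalRing.ResidueField A) ≠ 0)
    (h3 : (3 : IsLocalRing.ResidueField A) ≠ 0) :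
    LiftFracInf (BaseFn.Data.ofJ (W0 A) (resW0 A) M') (resW0_eq_zero_of_not_isUnit A) hMk := by
  have := CharP.isAlgClosed_residueField A
  intro Q hQ c hc
  exact Fermat.Agent.CAR.Inst.LiftRel.lift_frac_inf_ofJ_of_haupt3
    (resW0_eq_zero_of_not_isUnit A) (resW0_surjective hq hA) M' m hMk hM h3
    (Fermat.Agent.CAR.LiftK0.Closed.T3_ofHaupt3_K0 hq hA hM hMk h3)
    (Fermat.Agent.CAR.LiftK0.Closed.T3'_ofHaupt3_K0 hq hA hM hMk h3) Q hQ hc

/-- In characteristic `q`, a natural number not divisible by `q` is nonzero. -/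
theorem natCast_ne_zero_of_not_dvd {k : Type*} [Field k] (q : ℕ) [CharP k q] {n : ℕ}
    (h : ¬ q ∣ n) : (n : k) ≠ 0 := fun h0 => h ((CharP.cast_eq_zero_iff k q n).mp h0)

include hq hA in
/-- **(LIFT_s) at infinity for `x = J(q^{M'})` over `(K0, W0, resW0)`, every admissible `q`**:
`q ≥ 5`, or `q = 3` and `2 ∣ M'`, or `q = 2` and `3 ∣ M'`. -/
theorem liftFracInf_ofJ_K0 (h : BadSetup (W0 A) (resW0 A) M' q)
    (h2 : q = 2 → 3 ∣ M') (h3 : q = 3 → 2 ∣ M') :
    LiftFracInf (BaseFn.Data.ofJ (W0 A) (resW0 A) M') (resW0_eq_zero_of_not_isUnit A) h.hMk := by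
  have hchar : CharP (IsLocalRing.ResidueField A) q := h.charP
  by_cases hq2 : q = 2
  · -- `q = 2`, `3 ∣ M'`
    obtain ⟨m, hm⟩ := h2 hq2
    have hM : M' = m * 3 := by rw [hm, mul_comm]
    have : NeZero m := ⟨by rintro rfl; exact NeZero.ne M' (by rw [hM, zero_mul])⟩
    have h3' : (3 : IsLocalRing.ResidueField A) ≠ 0 := by
      have := natCast_ne_zero_of_not_dvd (k := IsLocalRing.ResidueField A) q (n := 3)
        (by rw [hq2]; norm_num)
      exact_mod_cast this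
    exact liftFracInf_ofJ_K0_of_three_mul hq A hA M' hM h.hMk h3'
  by_cases hq3 : q = 3
  · -- `q = 3`, `2 ∣ M'`
    obtain ⟨m, hm⟩ := h3 hq3
    have hM : M' = m * 2 := by rw [hm, mul_comm]
    have : NeZero m := ⟨by rintro rfl; exact NeZero.ne M' (by rw [hM, zero_mul])⟩
    have h2' : (2 : IsLocalRing.ResidueField A) ≠ 0 := by
      have := natCast_ne_zero_of_not_dvd (k := IsLocalRing.ResidueField A) q (n := 2)
        (by rw [hq3]; norm_num)
      exact_mod_cast this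
    exact liftFracInf_ofJ_K0_of_two_mul hq A hA M' hM h.hMk h2'
  · -- `q ≥ 5`
    have h1728 : (1728 : IsLocalRing.ResidueField A) ≠ 0 := by
      have hnd : ¬ q ∣ 1728 := by
        intro hd
        have h1 : (1728 : ℕ) = 2 ^ 6 * 3 ^ 3 := by norm_num
        rw [h1] at hd
        rcases (Nat.Prime.dvd_mul hq).mp hd with hd | hd
        · exact hq2 ((Nat.prime_dvd_prime_iff_eq hq Nat.prime_two).mp (hq.dvd_of_dvd_pow hd))
        · exact hq3 ((Nat.prime_dvd_prime_iff_eq hq Nat.prime_three).mp (hq.dvd_of_dvd_pow hd))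
      have := natCast_ne_zero_of_not_dvd (k := IsLocalRing.ResidueField A) q (n := 1728) hnd
      exact_mod_cast this
    exact liftFracInf_ofJ_K0_of_1728 hq A hA M' h.hMk h1728

variable [NeZero q] {ζ : Qb} (hζ : IsPrimitiveRoot ζ q) (hqM : ¬ q ∣ M')

set_option maxHeartbeats 1000000 in
include hq hA in
/-- **The binder `hlift` of `Inst.Cusp.v3BaseCusp_chart`** for `K = K0`, `W = W0`, `N = M' q²`,
`x = CuspQuot.J0 * CuspQuot.J2` (trunk convention), `yb = (xk k M')⁻¹`: (LIFT) at the cusp places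
of the chart at infinity on the three components `O_inf`, `O_mid`, `O_0`.  The residue maps
`red i` are identified with `redInf3`, `redMid`, `redZero3` pointwise.  (Apply with
`hBO := fun i a => hR'V i a a.2`.) -/
theorem hlift_chart_K0 (h : BadSetup (W0 A) (resW0 A) M' q)
    {w : laurentBaseChange ↥(K0 A) (modularFunctionFieldFull (M' * q * q)) ≃ₐ[↥(K0 A)]
      laurentBaseChange ↥(K0 A) (modularFunctionFieldFull (M' * q * q))}
    (hw : IsAL3 M' q w) (h2 : q = 2 → 3 ∣ M') (h3 : q = 3 → 2 ∣ M')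
    [Algebra ↥(W0 A) ↥(laurentBaseChange ↥(K0 A) (modularFunctionFieldFull (M' * q * q)))]
    [IsScalarTower ↥(W0 A) ↥(K0 A)
      ↥(laurentBaseChange ↥(K0 A) (modularFunctionFieldFull (M' * q * q)))]
    (V : Fin 3 → ValuationSubring
      ↥(laurentBaseChange ↥(K0 A) (modularFunctionFieldFull (M' * q * q))))
    (red : ∀ i, V i →+* ↥(modularFunctionFieldFullC (IsLocalRing.ResidueField A) M'))
    (hBO : ∀ i, ∀ a : Charts.chart ↥(W0 A)
        (CuspQuot.J0 (q := q) ↥(K0 A) M' * CuspQuot.J2 ↥(K0 A) M')⁻¹,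
      algebraMap (Charts.chart ↥(W0 A)
        (CuspQuot.J0 (q := q) ↥(K0 A) M' * CuspQuot.J2 ↥(K0 A) M')⁻¹)
        ↥(laurentBaseChange ↥(K0 A) (modularFunctionFieldFull (M' * q * q))) a ∈ V i)
    (hr0 : ∀ (f : ↥(laurentBaseChange ↥(K0 A) (modularFunctionFieldFull (M' * q * q))))
      (hf : f ∈ V 0) (hf' : f ∈ OInf3 h), red 0 ⟨f, hf⟩ = redInf3 h ⟨f, hf'⟩)
    (hr1 : ∀ (f : ↥(laurentBaseChange ↥(K0 A) (modularFunctionFieldFull (M' * q * q))))
      (hf : f ∈ V 1) (hf' : f ∈ OMid hq A hA hζ M' hqM (IsLocalRing.residue A)),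
      ((red 1 ⟨f, hf⟩ : ↥(modularFunctionFieldFullC (IsLocalRing.ResidueField A) M')) :
        LaurentSeries (IsLocalRing.ResidueField A)) =
        redMid hq A hA hζ M' hqM (IsLocalRing.residue A) ⟨f, hf'⟩)
    (hr2 : ∀ (f : ↥(laurentBaseChange ↥(K0 A) (modularFunctionFieldFull (M' * q * q))))
      (hf : f ∈ V 2) (hf' : f ∈ OZero3 h w), red 2 ⟨f, hf⟩ = redZero3 h w ⟨f, hf'⟩) :
    ∀ i, ∀ Vs : ValuationSubring ↥(modularFunctionFieldFullC (IsLocalRing.ResidueField A) M'),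
      (∀ b : Charts.chart ↥(W0 A)
          (CuspQuot.J0 (q := q) ↥(K0 A) M' * CuspQuot.J2 ↥(K0 A) M')⁻¹,
        redOn (V i) (red i) (hBO i) b ∈ Vs) →
      (xk (IsLocalRing.ResidueField A) M')⁻¹ ∈ Vs.nonunits →
      ∀ c ∈ Vs, ∃ a b : Charts.chart ↥(W0 A)
          (CuspQuot.J0 (q := q) ↥(K0 A) M' * CuspQuot.J2 ↥(K0 A) M')⁻¹,
        redOn (V i) (red i) (hBO i) b ∉ Vs.nonunits ∧
        redOn (V i) (red i) (hBO i) a = c * redOn (V i) (red i) (hBO i) b := by
  have hπ0 : ∀ y : ↥(laurentBaseChange ↥(inertiaField A) (modularFunctionFieldFull M')),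
      y ∈ Binf (BaseFn.Data.ofJ (W0 A) (resW0 A) M') h.hMk →
      ∃ b : Charts.chart ↥(W0 A) (CuspQuot.J0 (q := q) ↥(K0 A) M' * CuspQuot.J2 ↥(K0 A) M')⁻¹,
        algebraMap (Charts.chart ↥(W0 A)
          (CuspQuot.J0 (q := q) ↥(K0 A) M' * CuspQuot.J2 ↥(K0 A) M')⁻¹)
          ↥(laurentBaseChange ↥(inertiaField A) (modularFunctionFieldFull (M' * q * q))) b =
          piStar0 (inertiaField A) M' q y :=
    fun y hy =>
      ⟨⟨_, Fermat.Agent.CAR.Inst.BPrimeWebInf.piStar0_mem_Binf_W0 hq hA M' h.hMk hy⟩, rfl⟩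
  have hπ2 : ∀ y : ↥(laurentBaseChange ↥(inertiaField A) (modularFunctionFieldFull M')),
      y ∈ Binf (BaseFn.Data.ofJ (W0 A) (resW0 A) M') h.hMk →
      ∃ b : Charts.chart ↥(W0 A) (CuspQuot.J0 (q := q) ↥(K0 A) M' * CuspQuot.J2 ↥(K0 A) M')⁻¹,
        algebraMap (Charts.chart ↥(W0 A)
          (CuspQuot.J0 (q := q) ↥(K0 A) M' * CuspQuot.J2 ↥(K0 A) M')⁻¹)
          ↥(laurentBaseChange ↥(inertiaField A) (modularFunctionFieldFull (M' * q * q))) b =
          piStar2 (inertiaField A) M' q y :=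
    fun y hy =>
      ⟨⟨_, Fermat.Agent.CAR.Inst.BPrimeWebInf.piStar2_mem_Binf_W0 hq hA M' h.hMk hy⟩, rfl⟩
  exact v3BaseCusp_lift_ofJ_K0 hq A hA hζ M' hqM h hw
    (Bc := Charts.chart ↥(W0 A) (CuspQuot.J0 (q := q) ↥(K0 A) M' * CuspQuot.J2 ↥(K0 A) M')⁻¹)
    V red hBO hr0 hr1 hr2 hπ0 hπ2 (liftFracInf_ofJ_K0 hq A hA M' h h2 h3)

end Closed

end Fermat.Agent.CAR.Local.Inst.LiftCuspK0
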