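import Mathlib
import Fermat.Agent.CAR.Local.ThetaChain
import Fermat.Agent.CAR.Local.EllOrder

/-!
# CAR-17 (P-3): the derivations `d/dJ̄` and `d/dx̄` of the mod-`q` modular function field

`κ = modularFunctionFieldFullC k N ⊆ k((q))`, `θ = q d/dq` (`ThetaJ.thetaL`).  By the chain rule
`ThetaJ.exists_thetaL_eq_mul_modular` every `y ∈ κ` has `θ y = c · θ J̄` with a unique `c ∈ κ`.

* `dJ k N y` : this `c`, i.e. `dy/dJ̄`; `thetaL_eq_dJ_mul`, `isDeriv_dJ` (an `EllOrder.IsDeriv`),
  `dJ_Jbar = 1`, `dJ_algebraMap = 0`, `dJ_eq_zero_iff : dJ y = 0 ↔ θ y = 0`;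
* `dX k N x y := dJ y / dJ x` : `dy/dx̄` for a base function `x` with `dJ x ≠ 0`;
  `thetaL_eq_dX_mul`, `isDeriv_dX`, `dX_self = 1`, `dX_algebraMap = 0`,
  `dX_eq_zero_iff : dX x y = 0 ↔ θ y = 0`;
* `thetaL_pow_twelve_eq` : if `G · Δ² = (θ x̄)^12` then `(θ ȳ)^12 = ((dX x y)^12 · G) · Δ²` — the
  translation of the series identity `red_mid (d_y^{12(q-1)} / u) = ((θ ȳ)^12 / Δ²)^{q-1}` into the
  `hcert` hypothesis of `Inst/Ell.regular_of_ell`;
* `GJ k N := J̄^8 (J̄ - 1728)^6` and `GJ_mul_delta_sq : GJ · Δ² = (θ J̄)^12`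
  (from `ThetaJ.theta_jq_pow_six`), `GJ_ne_zero`.
-/

set_option autoImplicit false

namespace Fermat.Agent.CAR.Local.Inst.Deriv

open ModularCurve Fermat.Agent.CAR.Local.ThetaJ Fermat.Agent.CAR.Local.EllOrder
open Fermat.Agent.Lib.FF.ModL

variable (k : Type*) [Field k] [IsAlgClosed k] (N : ℕ) [NeZero N]

/-- `dy/dJ̄` on the mod-`q` modular function field: the coefficient `c` with `θ y = c · θ J̄`. -/
noncomputable def dJ (y : modularFunctionFieldFullC k N) : modularFunctionFieldFullC k N :=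
  Classical.choose (exists_thetaL_eq_mul_modular k N y)

theorem thetaL_eq_dJ_mul (y : modularFunctionFieldFullC k N) :
    thetaL k (y : LaurentSeries k) = (dJ k N y : LaurentSeries k) * thetaL k (jqModC k) :=
  Classical.choose_spec (exists_thetaL_eq_mul_modular k N y)

/-- `d/dJ̄` is additive and satisfies the Leibniz rule. -/
theorem isDeriv_dJ : IsDeriv (dJ k N) := by
  refine isDeriv_of_theta (Λ := LaurentSeries k) (modularFunctionFieldFullC k N).val.toRingHom
    Subtype.val_injective (fun f => thetaL k f) (fun a b => map_add (thetaL k) a b) ?_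
    (thetaL k (jqModC k)) (thetaL_jq_ne_zero k) (dJ k N) (fun y => thetaL_eq_dJ_mul k N y)
  intro a b
  rw [Derivation.leibniz, smul_eq_mul, smul_eq_mul, mul_comm b]

theorem dJ_eq_zero_iff (y : modularFunctionFieldFullC k N) :
    dJ k N y = 0 ↔ thetaL k (y : LaurentSeries k) = 0 := by
  rw [thetaL_eq_dJ_mul k N y]
  constructor
  · intro h
    rw [h]
    simp
  · intro h
    rcases mul_eq_zero.1 h with h | h
    · exact Subtype.ext h
    · exact absurd h (thetaL_jq_ne_zero k)

theorem dJ_Jbar : dJ k N (Jbar k N) = 1 := by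
  have h := thetaL_eq_dJ_mul k N (Jbar k N)
  rw [coe_Jbar] at h
  apply Subtype.ext
  have h1 : ((dJ k N (Jbar k N) : modularFunctionFieldFullC k N) : LaurentSeries k) *
      thetaL k (jqModC k) = 1 * thetaL k (jqModC k) := by
    rw [one_mul]
    exact h.symm
  exact mul_right_cancel₀ (thetaL_jq_ne_zero k) h1

theorem dJ_algebraMap (c : k) : dJ k N (algebraMap k (modularFunctionFieldFullC k N) c) = 0 := by
  rw [dJ_eq_zero_iff]
  have h1 : ((algebraMap k (modularFunctionFieldFullC k N) c : modularFunctionFieldFullC k N) :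
      LaurentSeries k) = algebraMap k (LaurentSeries k) c := rfl
  rw [h1]
  exact (thetaL k).map_algebraMap c

/-- `dy/dx̄ := (dy/dJ̄) / (dx̄/dJ̄)`. -/
noncomputable def dX (x y : modularFunctionFieldFullC k N) : modularFunctionFieldFullC k N :=
  dJ k N y / dJ k N x

theorem dX_def (x y : modularFunctionFieldFullC k N) : dX k N x y = dJ k N y / dJ k N x := rfl

theorem isDeriv_dX (x : modularFunctionFieldFullC k N) : IsDeriv (dX k N x) := by
  have h := isDeriv_dJ k N
  constructor
  · intro a b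
    rw [dX_def, dX_def, dX_def, h.add, add_div]
  · intro a b
    rw [dX_def, dX_def, dX_def, h.mul, add_div, mul_div_assoc, div_mul_eq_mul_div]

theorem dX_self {x : modularFunctionFieldFullC k N} (hx : dJ k N x ≠ 0) : dX k N x x = 1 := by
  rw [dX_def, div_self hx]

theorem dX_algebraMap (x : modularFunctionFieldFullC k N) (c : k) :
    dX k N x (algebraMap k (modularFunctionFieldFullC k N) c) = 0 := by
  rw [dX_def, dJ_algebraMap, zero_div]

theorem dX_Jbar (y : modularFunctionFieldFullC k N) : dX k N (Jbar k N) y = dJ k N y := by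
  rw [dX_def, dJ_Jbar, div_one]

theorem dX_eq_zero_iff {x : modularFunctionFieldFullC k N} (hx : dJ k N x ≠ 0)
    (y : modularFunctionFieldFullC k N) :
    dX k N x y = 0 ↔ thetaL k (y : LaurentSeries k) = 0 := by
  rw [dX_def, div_eq_zero_iff, ← dJ_eq_zero_iff]
  constructor
  · rintro (h | h)
    · exact h
    · exact absurd h hx
  · exact fun h => Or.inl h

/-- **Chain rule for `x̄`**: `θ y = (dy/dx̄) · θ x̄`. -/
theorem thetaL_eq_dX_mul {x : modularFunctionFieldFullC k N} (hx : dJ k N x ≠ 0)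
    (y : modularFunctionFieldFullC k N) :
    thetaL k (y : LaurentSeries k) = (dX k N x y : LaurentSeries k) * thetaL k (x : LaurentSeries k) := by
  rw [thetaL_eq_dJ_mul k N y, thetaL_eq_dJ_mul k N x, ← mul_assoc]
  congr 1
  have h1 : dJ k N y = dX k N x y * dJ k N x := by
    rw [dX_def, div_mul_cancel₀ _ hx]
  conv_lhs => rw [h1]
  rfl

/-- If `G · Δ² = (θ x̄)^12` then `(θ ȳ)^12 = ((dy/dx̄)^12 · G) · Δ²`. -/
theorem thetaL_pow_twelve_eq {x : modularFunctionFieldFullC k N} (hx : dJ k N x ≠ 0)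
    (G : modularFunctionFieldFullC k N)
    (hG : (G : LaurentSeries k) * deltaL k ^ 2 = thetaL k (x : LaurentSeries k) ^ 12)
    (y : modularFunctionFieldFullC k N) :
    thetaL k (y : LaurentSeries k) ^ 12 =
      ((dX k N x y ^ 12 * G : modularFunctionFieldFullC k N) : LaurentSeries k) * deltaL k ^ 2 := by
  rw [thetaL_eq_dX_mul k N hx y, mul_pow, ← hG]
  have h1 : ((dX k N x y ^ 12 * G : modularFunctionFieldFullC k N) : LaurentSeries k) =
      (dX k N x y : LaurentSeries k) ^ 12 * (G : LaurentSeries k) := rfl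
  rw [h1]
  ring

/-- The certificate function for the base function `J̄`: `J̄^8 (J̄ - 1728)^6`. -/
noncomputable def GJ : modularFunctionFieldFullC k N :=
  Jbar k N ^ 8 * (Jbar k N - 1728) ^ 6

omit [IsAlgClosed k] [NeZero N] in
theorem coe_GJ : ((GJ k N : modularFunctionFieldFullC k N) : LaurentSeries k) =
    jqModC k ^ 8 * (jqModC k - 1728) ^ 6 := by
  have h1 : ((1728 : modularFunctionFieldFullC k N) : LaurentSeries k) = 1728 := by
    norm_cast
  show (jqModC k) ^ 8 * ((jqModC k) - ((1728 : modularFunctionFieldFullC k N) : LaurentSeries k)) ^ 6 = _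
  rw [h1]

/-- `J̄^8 (J̄ - 1728)^6 · Δ² = (θ J̄)^12`. -/
theorem GJ_mul_delta_sq :
    (GJ k N : LaurentSeries k) * deltaL k ^ 2 = thetaL k (jqModC k) ^ 12 := by
  have h := theta_jq_pow_six k
  rw [coe_GJ]
  have h2 : thetaL k (jqModC k) ^ 12 = (thetaL k (jqModC k) ^ 6) ^ 2 := by ring
  rw [h2, h]
  ring

theorem GJ_ne_zero : GJ k N ≠ 0 := by
  intro h0
  have h := GJ_mul_delta_sq k N
  rw [h0] at h
  have h1 : ((0 : modularFunctionFieldFullC k N) : LaurentSeries k) = 0 := rfl
  rw [h1, zero_mul] at h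
  exact pow_ne_zero 12 (thetaL_jq_ne_zero k) h.symm

/-- `dJ̄/dJ̄ = 1 ≠ 0`: `J̄` is an admissible base function. -/
theorem dJ_Jbar_ne_zero : dJ k N (Jbar k N) ≠ 0 := by
  rw [dJ_Jbar]
  exact one_ne_zero

end Fermat.Agent.CAR.Local.Inst.Deriv
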