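import Mathlib
import Fermat.Agent.CAR.Local.LocalThm
import Fermat.Agent.CAR.Local.EllOrder
import Fermat.Agent.CAR.Local.Inst.OffMid

/-!
# CAR-17 (P-3): finite points of the middle component, elliptic points included

Abstract wiring of `EllOrder.le_and_unit_certificate` (steps (E-c), (E-d) of the wall (ELL)) and of
the divisibility `e₀ ∣ ord_s (x̄ - z̄)` (steps (E-a), (E-b)) into `LThm.regular_of_certificate`.

Setting.  `A` is the chart ring (a Noetherian integrally closed domain with fraction field `F`),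
`O` the valuation ring of the middle component with reduction `red : O → κ`, `Vs` the discrete
valuation ring of a place `s` of `κ` and `𝔫 = pointIdeal O red hred Vs hA` the point `(mid, s)`.
The level-`M'` ring of integral functions is an abstract ring `R'` with two ring homomorphisms
`φ₀, φ₂ : R' → A` (the pull-backs `π_0^*`, `π_2^*`) and a reduction `ρ' : R' → κ` such that
`redOn ∘ φ₀ = ρ' = redOn ∘ φ₂`.  For `y : R'` put `d_y := φ₂ y - φ₀ y`.  `D = d/dx̄` is a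
derivation of `κ` and `u ∈ A` a function whose only zero through `𝔫` is the middle component, such
that (`hcert`) `d_y ^ n / u ∈ O` has reduction `((D ȳ) ^ 12 * G) ^ m` and (`hunif`) `d_y` is a
uniformiser of `O` as soon as `D ȳ ≠ 0`.

* `bound_of_cert` : **(E-c)** — `12 ord_s (D ȳ) + ord_s G ≥ 0` for every `y : R'`;
* `ord_eq_of_dvd` : `ord_s (x̄ - z̄) = e₀` from `e₀ ∣ ord_s (x̄ - z̄)`;
* `regular_of_ell` : for every `t : R'` whose reduction is a uniformiser at `s`, the local ring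
  `A_𝔫` is regular with maximal ideal `(d_t, φ₀ t)`, factorial, and `d_t` generates the centre of
  the middle component.  The case `e₀ = 1` (`G` a unit at `s`) is the case of a non-elliptic
  point;
* `exists_regular_of_ell` : the same with `t` produced from the lifting property;
* `ord_eq_mul_of_eq_pow_mul` : the hypothesis `hG` from a factorisation `G = (x̄ - z̄) ^ a * v`.
-/

set_option autoImplicit false

namespace Fermat.Agent.CAR.Local.Inst.Ell

open IsLocalRing Fermat.Agent.CAR.Local Fermat.Agent.CAR.Formal Fermat.Agent.CAR.Local.EllOrder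
open Fermat.Agent.CAR.Local.Inst.OffMid

section Val

variable {K : Type*} [Field K] (V : ValuationSubring K)

/-- A valuation ring contains the roots of its elements. -/
theorem mem_of_pow_mem {w : K} {m : ℕ} (hm : m ≠ 0) (h : w ^ m ∈ V) : w ∈ V := by
  by_contra hw
  have h1 : 1 < V.valuation w := by
    rw [← not_le, V.valuation_le_one_iff]
    exact hw
  have h2 : 1 < V.valuation (w ^ m) := by
    rw [map_pow]
    exact one_lt_pow₀ h1 hm
  rw [← not_le, V.valuation_le_one_iff] at h2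
  exact h2 h

/-- A nonzero element with inverse in `V` is not a non-unit. -/
theorem notMem_nonunits_of_inv_mem {w : K} (h0 : w ≠ 0) (h : w⁻¹ ∈ V) : w ∉ V.nonunits := by
  rw [ValuationSubring.mem_nonunits_iff_or]
  push Not
  exact ⟨h0, h⟩

/-- An element of `V` which is not a non-unit is nonzero with inverse in `V`. -/
theorem ne_zero_and_inv_mem_of_notMem_nonunits {w : K} (h : w ∉ V.nonunits) :
    w ≠ 0 ∧ w⁻¹ ∈ V := by
  rw [ValuationSubring.mem_nonunits_iff_or] at h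
  push Not at h
  exact h

end Val

section Ord

variable {κ : Type*} [Field κ] {Vs : ValuationSubring κ} {τ : κ}

/-- `ord_s (x - z) = e₀` from `0 < ord ≤ e₀` and `e₀ ∣ ord`. -/
theorem ord_eq_of_dvd (hτ : IsUnif Vs τ) {w : κ} {e₀ : ℕ} (hw0 : w ≠ 0)
    (hw : w ∈ Vs.nonunits) (hle : hτ.ord w ≤ e₀) (hdvd : (e₀ : ℤ) ∣ hτ.ord w) :
    hτ.ord w = e₀ := by
  have hpos : 0 < hτ.ord w := (hτ.ord_pos_iff hw0).2 hw
  exact le_antisymm hle (Int.le_of_dvd hpos hdvd)

/-- The hypothesis `hG` of `EllOrder.le_and_unit_certificate` from a factorisation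
`G = (x - z) ^ a * v` with `v` a unit at `s` and `e₀ * a = 12 * (e₀ - 1)`. -/
theorem ord_eq_mul_of_eq_pow_mul (hτ : IsUnif Vs τ) {G w v : κ} {a e₀ : ℕ} (hw0 : w ≠ 0)
    (hv0 : v ≠ 0) (hv : v ∈ Vs) (hvi : v⁻¹ ∈ Vs) (hG : G = w ^ a * v)
    (ha : (e₀ : ℤ) * a = 12 * ((e₀ : ℤ) - 1)) :
    (e₀ : ℤ) * hτ.ord G = 12 * ((e₀ : ℤ) - 1) * hτ.ord w := by
  rw [hG, hτ.ord_mul (pow_ne_zero a hw0) hv0, hτ.ord_pow, hτ.ord_unit hv hvi hv0, add_zero,
    ← mul_assoc, ha]

end Ord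

section Cert

variable {A F κ : Type*} [CommRing A] [IsDomain A] [IsNoetherianRing A] [IsIntegrallyClosed A]
  [Field F] [Algebra A F] [IsFractionRing A F] [Field κ]
  (O : ValuationSubring F) (red : O →+* κ) (hred : ∀ x : O, red x = 0 ↔ x ∈ maximalIdeal O)
  (hAO : ∀ a : A, algebraMap A F a ∈ O) (Vs : ValuationSubring κ)
  (hA : ∀ a : A, algebraMap A F a ∈ compositeSubring O red hred Vs)

omit [IsNoetherianRing A] [IsIntegrallyClosed A] [IsDomain A] [IsFractionRing A F] in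
/-- Congruence for the reduction map. -/
theorem red_congr {a b : F} (hab : a = b) (ha : a ∈ O) (hb : b ∈ O) :
    red ⟨a, ha⟩ = red ⟨b, hb⟩ := by
  subst hab
  rfl

omit [IsNoetherianRing A] [IsIntegrallyClosed A] [IsDomain A] in
/-- If `h * u = s * x` in `A` and `x / u ∈ O`, then `redOn h = redOn s * red (x / u)`. -/
theorem redOn_eq_mul_red_div {h u s x : A} (hu0 : u ≠ 0) (hrel : h * u = s * x)
    (hval : algebraMap A F x / algebraMap A F u ∈ O) :
    redOn O red hAO h = redOn O red hAO s * red ⟨_, hval⟩ := by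
  have hu0' : algebraMap A F u ≠ 0 := fun h0 =>
    hu0 ((IsFractionRing.injective A F) (by rw [h0, map_zero]))
  have h1 : algebraMap A F h = algebraMap A F s * (algebraMap A F x / algebraMap A F u) := by
    have h2 : algebraMap A F h * algebraMap A F u = algebraMap A F s * algebraMap A F x := by
      rw [← map_mul, ← map_mul, hrel]
    field_simp
    exact h2
  have h3 : (⟨algebraMap A F h, hAO h⟩ : O) =
      ⟨algebraMap A F s, hAO s⟩ * ⟨algebraMap A F x / algebraMap A F u, hval⟩ :=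
    Subtype.ext h1
  rw [redOn_apply, redOn_apply, h3, map_mul]

omit [IsNoetherianRing A] [IsIntegrallyClosed A] [IsDomain A] [IsFractionRing A F] in
include hred hA in
/-- The reduction of an element of `A` lies in `Vs`. -/
theorem redOn_mem (a : A) : redOn O red hAO a ∈ Vs :=
  (algebraMap_mem_compositeSubring_iff O red hred hAO Vs a).1 (hA a)

omit [IsNoetherianRing A] [IsIntegrallyClosed A] [IsDomain A] [IsFractionRing A F] in
/-- An element of `A` outside the point reduces to a unit of `Vs`. -/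
theorem redOn_ne_zero_and_inv_mem {s : A} (hs : s ∉ pointIdeal O red hred Vs hA) :
    redOn O red hAO s ≠ 0 ∧ (redOn O red hAO s)⁻¹ ∈ Vs := by
  rw [mem_pointIdeal_iff_redOn O red hred hAO Vs hA] at hs
  exact ne_zero_and_inv_mem_of_notMem_nonunits Vs hs

/-- **Integrality of the certificate quotient.**  If every prime `𝔮 ⊆ 𝔫` minimal over `(u)` is the
centre of `O` and `x / u ∈ O`, then the reduction of `x / u` is regular at `s`. -/
theorem red_div_mem {u x : A} (hu0 : u ≠ 0)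
    (hu : ∀ 𝔮 ∈ (Ideal.span {u}).minimalPrimes, 𝔮 ≤ pointIdeal O red hred Vs hA →
      𝔮 = centre O hAO)
    (hval : algebraMap A F x / algebraMap A F u ∈ O) : red ⟨_, hval⟩ ∈ Vs := by
  obtain ⟨h, s, hs, hrel⟩ := LThm.exists_mul_eq_mul_of_div_mem (pointIdeal O red hred Vs hA) O
    hAO hu0 hu hval
  have h1 := redOn_eq_mul_red_div O red hAO hu0 hrel hval
  obtain ⟨hs0, hsi⟩ := redOn_ne_zero_and_inv_mem O red hred hAO Vs hA hs
  have h2 : red ⟨_, hval⟩ = (redOn O red hAO s)⁻¹ * redOn O red hAO h := by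
    rw [h1, ← mul_assoc, inv_mul_cancel₀ hs0, one_mul]
  rw [h2]
  exact Vs.mul_mem _ _ hsi (redOn_mem O red hred hAO Vs hA h)

variable {R' : Type*} [CommRing R'] (φ₀ φ₂ : R' →+* A) (ρ' : R' →+* κ)

/-- **(E-c).**  Integrality of `d_y ^ n / u` at the point gives the bound
`12 ord_s (D ȳ) + ord_s G ≥ 0`. -/
theorem bound_of_cert {u : A} (hu0 : u ≠ 0)
    (hu : ∀ 𝔮 ∈ (Ideal.span {u}).minimalPrimes, 𝔮 ≤ pointIdeal O red hred Vs hA →
      𝔮 = centre O hAO)
    {D : κ → κ} {G : κ} (hG0 : G ≠ 0) {n m : ℕ} (hm : m ≠ 0)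
    (hcert : ∀ y : R', ∃ hmem : algebraMap A F (φ₂ y - φ₀ y) ^ n / algebraMap A F u ∈ O,
      red ⟨_, hmem⟩ = ((D (ρ' y)) ^ 12 * G) ^ m)
    {τ : κ} (hτ : IsUnif Vs τ) (y : R') :
    D (ρ' y) = 0 ∨ 0 ≤ 12 * hτ.ord (D (ρ' y)) + hτ.ord G := by
  by_cases hD0 : D (ρ' y) = 0
  · exact Or.inl hD0
  · right
    obtain ⟨hmem, hr⟩ := hcert y
    have hval : algebraMap A F ((φ₂ y - φ₀ y) ^ n) / algebraMap A F u ∈ O := by
      rw [map_pow]
      exact hmem
    have h1 : red ⟨_, hval⟩ ∈ Vs := red_div_mem O red hred hAO Vs hA hu0 hu hval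
    rw [red_congr O red (by rw [map_pow]) hval hmem, hr] at h1
    have h3 : (D (ρ' y)) ^ 12 * G ∈ Vs := mem_of_pow_mem Vs hm h1
    have h4 : (D (ρ' y)) ^ 12 * G ≠ 0 := mul_ne_zero (pow_ne_zero _ hD0) hG0
    have h5 := (hτ.ord_nonneg_iff h4).2 h3
    rw [hτ.ord_mul (pow_ne_zero _ hD0) hG0, hτ.ord_pow] at h5
    exact_mod_cast h5

/-- **Regularity at the finite points of the middle component (elliptic points included).** -/
theorem regular_of_ell {u : A} (hu0 : u ≠ 0)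
    (hu : ∀ 𝔮 ∈ (Ideal.span {u}).minimalPrimes, 𝔮 ≤ pointIdeal O red hred Vs hA →
      𝔮 = centre O hAO)
    (h₀ : ∀ y, redOn O red hAO (φ₀ y) = ρ' y) (h₂ : ∀ y, redOn O red hAO (φ₂ y) = ρ' y)
    (hlift : ∀ c ∈ Vs, ∃ a b : R', ρ' b ∉ Vs.nonunits ∧ ρ' a = c * ρ' b)
    {D : κ → κ} (hD : IsDeriv D) {G : κ} (hG0 : G ≠ 0) {n m : ℕ} (hn : n ≠ 0) (hm : m ≠ 0)
    (hunif : ∀ y : R', D (ρ' y) ≠ 0 →
      ∀ z ∈ O.nonunits, z / algebraMap A F (φ₂ y - φ₀ y) ∈ O)
    (hcert : ∀ y : R', ∃ hmem : algebraMap A F (φ₂ y - φ₀ y) ^ n / algebraMap A F u ∈ O,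
      red ⟨_, hmem⟩ = ((D (ρ' y)) ^ 12 * G) ^ m)
    {τ : κ} (hτ : IsUnif Vs τ) {x z : κ} {e₀ : ℕ} (hx : D x = 1) (hz : D z = 0)
    (hxz0 : x - z ≠ 0) (hxz : x - z ∈ Vs.nonunits)
    (hG : (e₀ : ℤ) * hτ.ord G = 12 * ((e₀ : ℤ) - 1) * hτ.ord (x - z))
    (hdvd : (e₀ : ℤ) ∣ hτ.ord (x - z))
    (t : R') (ht : hτ.ord (ρ' t) = 1) :
    hτ.ord (x - z) = e₀ ∧ ((e₀ : ℕ) : κ) ≠ 0 ∧ D (ρ' t) ≠ 0 ∧
      maximalIdeal (pointRing F (pointIdeal O red hred Vs hA)) =
        Ideal.span {algebraMap A (pointRing F (pointIdeal O red hred Vs hA)) (φ₂ t - φ₀ t),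
          algebraMap A (pointRing F (pointIdeal O red hred Vs hA)) (φ₀ t)} ∧
      2 ≤ (maximalIdeal (pointRing F (pointIdeal O red hred Vs hA))).height ∧
      UniqueFactorizationMonoid (pointRing F (pointIdeal O red hred Vs hA)) ∧
      (∀ p : Ideal (pointRing F (pointIdeal O red hred Vs hA)), p.IsPrime →
        p ≠ maximalIdeal (pointRing F (pointIdeal O red hred Vs hA)) → p.IsPrincipal) ∧
      Prime (algebraMap A (pointRing F (pointIdeal O red hred Vs hA)) (φ₂ t - φ₀ t)) ∧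
      (∀ r : pointRing F (pointIdeal O red hred Vs hA), (r : F) ∈ O.nonunits ↔
        r ∈ Ideal.span
          {algebraMap A (pointRing F (pointIdeal O red hred Vs hA)) (φ₂ t - φ₀ t)}) := by
  -- the ring of reductions
  have hS : ∀ y ∈ ρ'.range, y ∈ Vs := by
    rintro _ ⟨y, rfl⟩
    rw [← h₀ y]
    exact redOn_mem O red hred hAO Vs hA (φ₀ y)
  have hliftS : ∀ c ∈ Vs, ∃ a ∈ ρ'.range, ∃ b ∈ ρ'.range, b ∉ Vs.nonunits ∧ a = c * b := by
    intro c hc
    obtain ⟨a, b, hb, hab⟩ := hlift c hc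
    exact ⟨ρ' a, ⟨a, rfl⟩, ρ' b, ⟨b, rfl⟩, hb, hab⟩
  have hbd : ∀ y ∈ ρ'.range, D y = 0 ∨ 0 ≤ 12 * hτ.ord (D y) + hτ.ord G := by
    rintro _ ⟨y, rfl⟩
    exact bound_of_cert O red hred hAO Vs hA φ₀ φ₂ ρ' hu0 hu hG0 hm hcert hτ y
  obtain ⟨hle, hchar, hE⟩ := le_and_unit_certificate hD hτ ρ'.range hS hliftS hx hz hxz0 hxz
    hG0 hG hbd
  have hord : hτ.ord (x - z) = e₀ := ord_eq_of_dvd hτ hxz0 hxz hle hdvd
  have hchar' : ((e₀ : ℕ) : κ) ≠ 0 := by
    rw [hord, Int.toNat_natCast] at hchar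
    exact hchar
  obtain ⟨hDt, hv, hvi⟩ := hE hord (ρ' t) ⟨t, rfl⟩ ht
  obtain ⟨ht0, htm⟩ := mem_nonunits_of_ord_eq_one hτ ht
  have hv0 : (D (ρ' t)) ^ 12 * G ≠ 0 := mul_ne_zero (pow_ne_zero _ hDt) hG0
  -- the vertical parameter
  obtain ⟨hmem, hr⟩ := hcert t
  have hd0 : φ₂ t - φ₀ t ≠ 0 := by
    intro h0
    have h1 : (⟨algebraMap A F (φ₂ t - φ₀ t) ^ n / algebraMap A F u, hmem⟩ : O) = 0 := by
      apply Subtype.ext
      show algebraMap A F (φ₂ t - φ₀ t) ^ n / algebraMap A F u = 0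
      rw [h0, map_zero, zero_pow hn, zero_div]
    rw [h1, map_zero] at hr
    exact pow_ne_zero m hv0 hr.symm
  have hdc : φ₂ t - φ₀ t ∈ centre O hAO := by
    rw [← redOn_eq_zero_iff O red hred hAO, map_sub, h₀, h₂, sub_self]
  have hd : algebraMap A F (φ₂ t - φ₀ t) ∈ O.nonunits := (mem_centre_iff O hAO _).1 hdc
  have hval : algebraMap A F ((φ₂ t - φ₀ t) ^ n) / algebraMap A F u ∈ O := by
    rw [map_pow]
    exact hmem
  obtain ⟨h, s, hs, hrel⟩ := LThm.exists_mul_eq_mul_of_div_mem (pointIdeal O red hred Vs hA) O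
    hAO hu0 hu hval
  have h1 := redOn_eq_mul_red_div O red hAO hu0 hrel hval
  rw [red_congr O red (by rw [map_pow]) hval hmem, hr] at h1
  obtain ⟨hs0, hsi⟩ := redOn_ne_zero_and_inv_mem O red hred hAO Vs hA hs
  have hh : redOn O red hAO h ∉ Vs.nonunits := by
    apply notMem_nonunits_of_inv_mem Vs
    · rw [h1]
      exact mul_ne_zero hs0 (pow_ne_zero m hv0)
    · rw [h1, mul_inv, ← inv_pow]
      exact Vs.mul_mem _ _ hsi (pow_mem hvi m)
  have htm' : redOn O red hAO (φ₀ t) ∈ Vs.nonunits := by rw [h₀]; exact htm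
  have ht0' : redOn O red hAO (φ₀ t) ≠ 0 := by rw [h₀]; exact ht0
  have ht' : ∀ c ∈ Vs.nonunits, ∃ c' ∈ Vs, c = c' * redOn O red hAO (φ₀ t) := by
    rw [h₀]
    exact exists_eq_mul_of_isUnif hτ ht0 ht
  have hliftA : ∀ c ∈ Vs, ∃ a b : A, redOn O red hAO b ∉ Vs.nonunits ∧
      redOn O red hAO a = c * redOn O red hAO b := by
    intro c hc
    obtain ⟨a, b, hb, hab⟩ := hlift c hc
    exact ⟨φ₀ a, φ₀ b, by rw [h₀]; exact hb, by rw [h₀, h₀]; exact hab⟩
  exact ⟨hord, hchar', hDt,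
    LThm.regular_of_certificate O red hred hAO Vs hA hn hd hd0 (hunif t hDt) hrel hh hu
      htm' ht0' ht' hliftA⟩

/-- **Regularity at the finite points of the middle component**, with the horizontal parameter
produced from the lifting property. -/
theorem exists_regular_of_ell {u : A} (hu0 : u ≠ 0)
    (hu : ∀ 𝔮 ∈ (Ideal.span {u}).minimalPrimes, 𝔮 ≤ pointIdeal O red hred Vs hA →
      𝔮 = centre O hAO)
    (h₀ : ∀ y, redOn O red hAO (φ₀ y) = ρ' y) (h₂ : ∀ y, redOn O red hAO (φ₂ y) = ρ' y)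
    (hlift : ∀ c ∈ Vs, ∃ a b : R', ρ' b ∉ Vs.nonunits ∧ ρ' a = c * ρ' b)
    {D : κ → κ} (hD : IsDeriv D) {G : κ} (hG0 : G ≠ 0) {n m : ℕ} (hn : n ≠ 0) (hm : m ≠ 0)
    (hunif : ∀ y : R', D (ρ' y) ≠ 0 →
      ∀ z ∈ O.nonunits, z / algebraMap A F (φ₂ y - φ₀ y) ∈ O)
    (hcert : ∀ y : R', ∃ hmem : algebraMap A F (φ₂ y - φ₀ y) ^ n / algebraMap A F u ∈ O,
      red ⟨_, hmem⟩ = ((D (ρ' y)) ^ 12 * G) ^ m)
    {τ : κ} (hτ : IsUnif Vs τ) {x z : κ} {e₀ : ℕ} (hx : D x = 1) (hz : D z = 0)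
    (hxz0 : x - z ≠ 0) (hxz : x - z ∈ Vs.nonunits)
    (hG : (e₀ : ℤ) * hτ.ord G = 12 * ((e₀ : ℤ) - 1) * hτ.ord (x - z))
    (hdvd : (e₀ : ℤ) ∣ hτ.ord (x - z)) :
    ∃ t : R', hτ.ord (ρ' t) = 1 ∧ D (ρ' t) ≠ 0 ∧
      maximalIdeal (pointRing F (pointIdeal O red hred Vs hA)) =
        Ideal.span {algebraMap A (pointRing F (pointIdeal O red hred Vs hA)) (φ₂ t - φ₀ t),
          algebraMap A (pointRing F (pointIdeal O red hred Vs hA)) (φ₀ t)} ∧
      2 ≤ (maximalIdeal (pointRing F (pointIdeal O red hred Vs hA))).height ∧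
      UniqueFactorizationMonoid (pointRing F (pointIdeal O red hred Vs hA)) ∧
      (∀ p : Ideal (pointRing F (pointIdeal O red hred Vs hA)), p.IsPrime →
        p ≠ maximalIdeal (pointRing F (pointIdeal O red hred Vs hA)) → p.IsPrincipal) ∧
      Prime (algebraMap A (pointRing F (pointIdeal O red hred Vs hA)) (φ₂ t - φ₀ t)) ∧
      (∀ r : pointRing F (pointIdeal O red hred Vs hA), (r : F) ∈ O.nonunits ↔
        r ∈ Ideal.span
          {algebraMap A (pointRing F (pointIdeal O red hred Vs hA)) (φ₂ t - φ₀ t)}) := by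
  have hρ : ∀ a : R', ρ' a ∈ Vs := fun a => by
    rw [← h₀ a]
    exact redOn_mem O red hred hAO Vs hA (φ₀ a)
  obtain ⟨t, ht⟩ := exists_lift_unif ρ' hτ hρ hlift
  obtain ⟨-, -, h3, h4⟩ := regular_of_ell O red hred hAO Vs hA φ₀ φ₂ ρ' hu0 hu h₀ h₂ hlift hD
    hG0 hn hm hunif hcert hτ hx hz hxz0 hxz hG hdvd t ht
  exact ⟨t, ht, h3, h4⟩

end Cert

end Fermat.Agent.CAR.Local.Inst.Ell
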