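import Mathlib
import Fermat.Agent.CAR.Local.Inst
import Fermat.Agent.CAR.Local.EllOrder

/-!
# CAR-17: the contract record of the points instance (finite chart)

`B` the chart ring (for CAR: `integralClosure W[x] F`, `x = J₀ J₂`, `F = K₀·F_{M' q²}`), `B'` the
`K₀`-rational integral ring of level `M'` with reduction `red' : B' → κ`, `π₀ π₂ : B' → B` the
pull-backs `y(z) ↦ y(z)`, `y(z) ↦ y(q² z)`, `D = d/dx̄` on `κ`, three components
`O 0 = O_inf`, `O 1 = O_mid`, `O 2 = O_0` with reductions `red i : O i → κ`.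

`Contract` is the complete list of what the valuation layer (CAR-2..5) and (LIFT) (CAR-11) must
deliver for the finite chart; everything in `CAR/Local/Inst.lean` (`V3Base`, `V3Meet`, `MidCert`)
is derived from it here.
-/

set_option autoImplicit false

namespace Fermat.Agent.CAR.Local.Inst

open IsLocalRing Fermat.Agent.CAR.Local

variable {B B' F κ : Type*} [CommRing B] [IsDomain B] [Field F] [Algebra B F]
  [IsFractionRing B F] [Field κ] [CommRing B']

/-- A **finite place** of the special fibre: a non-trivial valuation ring of `κ` containing the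
reductions of the level-`M'` integral functions. -/
def IsFinPlace (red' : B' →+* κ) (Vs : ValuationSubring κ) : Prop :=
  Vs ≠ ⊤ ∧ ∀ y : B', red' y ∈ Vs

/-- **The contract** of the finite chart.  For CAR at a good level `M'` (`q ∤ M'`):
* `q` the residue characteristic, `x'` the base function (`J`, or the Hauptmodul for `q = 2, 3`),
  `d = π₂ x' - π₀ x'` (`= J₂ - J₀`), `D = d/dx̄`;
* `u = Δ(qz)²/(Δ(z)Δ(q²z))`, `u₁ = Δ(z)/Δ(qz)`, `v₁ = q¹²Δ(q²z)/Δ(qz)`, `N = 12`, `e = q - 1`,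
  `Db = Δ̄^(1-q)`; valuation vectors `(0,12,0)`, `(0,0,12)`, `(12,0,0)`;
* `h = d ^ (12 e) / u`, `G = x̄⁸ (x̄ - 1728)⁶` (for `x' = J`). -/
structure Contract (O : Fin 3 → ValuationSubring F) (red : ∀ i, O i →+* κ)
    (hred : ∀ i, ∀ x : O i, red i x = 0 ↔ x ∈ maximalIdeal (O i))
    (hBO : ∀ i, ∀ b : B, algebraMap B F b ∈ O i)
    (red' : B' →+* κ) (π₀ π₂ : B' →+* B) (D : κ → κ)
    (q : B) (x' : B') (u u₁ v₁ h : B) (Db G : κ) (N e : ℕ) : Prop where
  /-- `q ≠ 0` in `B`. -/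
  q_ne : q ≠ 0
  /-- (CAR-4) "exactly three": the primes of `B` minimal over `(q)` are centres of components. -/
  hmin : ∀ 𝔮 ∈ (Ideal.span {q}).minimalPrimes, ∃ i, 𝔮 = centre (O i) (hBO i)
  /-- no component is a closed point (`B / 𝔭_i` is not a field). -/
  not_max : ∀ i, ¬ (centre (O i) (hBO i)).IsMaximal
  /-- `q` vanishes on every component. -/
  q_mem : ∀ i, algebraMap B F q ∈ (O i).nonunits
  /-- (CAR-2) `q` is a uniformiser of `O_inf`. -/
  unif_inf : ∀ z ∈ (O 0).nonunits, z / algebraMap B F q ∈ O 0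
  /-- (CAR-2) `q` is a uniformiser of `O_0`. -/
  unif_zero : ∀ z ∈ (O 2).nonunits, z / algebraMap B F q ∈ O 2
  /-- (CAR-2) `red_inf ∘ π₀^* = red'`. -/
  inf_π₀ : ∀ y : B', redOn (O 0) (red 0) (hBO 0) (π₀ y) = red' y
  /-- (CAR-3) `red_mid ∘ π₀^* = red'`. -/
  mid_π₀ : ∀ y : B', redOn (O 1) (red 1) (hBO 1) (π₀ y) = red' y
  /-- (CAR-3) `red_mid ∘ π₂^* = red'`. -/
  mid_π₂ : ∀ y : B', redOn (O 1) (red 1) (hBO 1) (π₂ y) = red' y
  /-- (CAR-2) `red_0 ∘ π₂^* = red'`. -/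
  zero_π₂ : ∀ y : B', redOn (O 2) (red 2) (hBO 2) (π₂ y) = red' y
  /-- the reductions of `B` are regular at every finite place (`B` is integral over `W[x]`). -/
  fin : ∀ i, ∀ Vs : ValuationSubring κ, IsFinPlace red' Vs →
    ∀ b : B, redOn (O i) (red i) (hBO i) b ∈ Vs
  /-- (CAR-11, LIFT, `K₀`-rational) every finite place is a localisation of `red' B'`. -/
  lift : ∀ Vs : ValuationSubring κ, IsFinPlace red' Vs →
    ∀ c ∈ Vs, ∃ a b : B', red' b ∉ Vs.nonunits ∧ red' a = c * red' b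
  /-- the residue field of every finite place is reached by `B'` (it is `k`: constants). -/
  res : ∀ Vs : ValuationSubring κ, IsFinPlace red' Vs →
    ∀ v ∈ Vs, ∃ a : B', red' a - v ∈ Vs.nonunits
  /-- `D` is a derivation of `κ` (`d/dx̄`, from `θ`). -/
  deriv : EllOrder.IsDeriv D
  /-- `D x̄ = 1`. -/
  deriv_x : D (red' x') = 1
  /-- (CAR-3, (C1)) `d = π₂ x' - π₀ x'` vanishes on `C_mid`. -/
  d_mem : algebraMap B F (π₂ x' - π₀ x') ∈ (O 1).nonunits
  /-- (CAR-3, (C1)) `d` is a uniformiser of `O_mid`. -/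
  unif_mid : ∀ z ∈ (O 1).nonunits, z / algebraMap B F (π₂ x' - π₀ x') ∈ O 1
  /-- (CAR-3, (C1) for all `y`) `d_y / d ∈ O_mid` reduces to `D ȳ = θȳ/θx̄`. -/
  cd : ∀ y : B', ∃ hz : algebraMap B F (π₂ y - π₀ y) / algebraMap B F (π₂ x' - π₀ x') ∈ O 1,
    red 1 ⟨_, hz⟩ = D (red' y)
  e_ne : e ≠ 0
  /-- (CAR-5) `u`, `u₁`, `v₁` are vertical: their product is a power of `q`. -/
  prod : u * u₁ * v₁ = q ^ N
  Db_ne : Db ≠ 0
  /-- (CAR-5) reductions of `u`: `(Db ^ e, 0, (red_0 v₁) ^ e)`. -/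
  u_inf : redOn (O 0) (red 0) (hBO 0) u = Db ^ e
  u_mid : redOn (O 1) (red 1) (hBO 1) u = 0
  u_zero : redOn (O 2) (red 2) (hBO 2) u = redOn (O 2) (red 2) (hBO 2) v₁ ^ e
  /-- (CAR-5) reductions of `u₁`: `(Db, Db, 0)`. -/
  u₁_inf : redOn (O 0) (red 0) (hBO 0) u₁ = Db
  u₁_mid : redOn (O 1) (red 1) (hBO 1) u₁ = Db
  u₁_zero : redOn (O 2) (red 2) (hBO 2) u₁ = 0
  /-- (CAR-5) reductions of `v₁`: `(0, Db, ≠ 0)` (in fact `red_0 v₁ = Db` too). -/
  v₁_inf : redOn (O 0) (red 0) (hBO 0) v₁ = 0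
  v₁_mid : redOn (O 1) (red 1) (hBO 1) v₁ = Db
  v₁_zero : redOn (O 2) (red 2) (hBO 2) v₁ ≠ 0
  /-- (CAR-5, (C1)–(C3)) the certificate `h = d ^ (12 e) / u`. -/
  cert : h * u = (π₂ x' - π₀ x') ^ (12 * e)
  /-- (CAR-5, (C1)–(C3)) `red_mid h = G ^ e`. -/
  red_h : redOn (O 1) (red 1) (hBO 1) h = G ^ e

namespace Contract

variable {O : Fin 3 → ValuationSubring F} {red : ∀ i, O i →+* κ}
  {hred : ∀ i, ∀ x : O i, red i x = 0 ↔ x ∈ maximalIdeal (O i)}
  {hBO : ∀ i, ∀ b : B, algebraMap B F b ∈ O i}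
  {red' : B' →+* κ} {π₀ π₂ : B' →+* B} {D : κ → κ}
  {q : B} {x' : B'} {u u₁ v₁ h : B} {Db G : κ} {N e : ℕ}

omit [IsDomain B] [IsFractionRing B F] in
/-- A valuation ring `≠ ⊤` of `κ` containing the reduction of `B` on a component is a finite
place. -/
theorem isFinPlace_of_forall (H : Contract O red hred hBO red' π₀ π₂ D q x' u u₁ v₁ h Db G N e)
    (i : Fin 3) (Vs : ValuationSubring κ) (htop : Vs ≠ ⊤)
    (hVs : ∀ b : B, redOn (O i) (red i) (hBO i) b ∈ Vs) : IsFinPlace red' Vs := by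
  refine ⟨htop, fun y => ?_⟩
  fin_cases i
  · rw [← H.inf_π₀ y]; exact hVs _
  · rw [← H.mid_π₀ y]; exact hVs _
  · rw [← H.zero_π₂ y]; exact hVs _

omit [IsDomain B] [IsFractionRing B F] in
/-- The pull-back through which the level-`M'` functions are seen on the component `i`:
`π₀` on `C_inf`, `C_mid`, and `π₂` on `C_0`. -/
theorem exists_pull (H : Contract O red hred hBO red' π₀ π₂ D q x' u u₁ v₁ h Db G N e)
    (i : Fin 3) : ∃ φ : B' →+* B, ∀ y : B', redOn (O i) (red i) (hBO i) (φ y) = red' y := by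
  fin_cases i
  · exact ⟨π₀, H.inf_π₀⟩
  · exact ⟨π₀, H.mid_π₀⟩
  · exact ⟨π₂, H.zero_π₂⟩

omit [IsDomain B] [IsFractionRing B F] in
/-- The contract gives the base record of `Inst.lean`. -/
theorem toV3Base (H : Contract O red hred hBO red' π₀ π₂ D q x' u u₁ v₁ h Db G N e) :
    V3Base O red hred hBO q where
  q_ne := H.q_ne
  hmin := H.hmin
  not_max := H.not_max
  q_mem := H.q_mem
  unif_inf := H.unif_inf
  unif_zero := H.unif_zero
  lift := by
    intro i Vs htop hVs c hc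
    obtain ⟨φ, hφ⟩ := H.exists_pull i
    obtain ⟨a, b, hb, hab⟩ := H.lift Vs (H.isFinPlace_of_forall i Vs htop hVs) c hc
    exact ⟨φ a, φ b, by rw [hφ]; exact hb, by rw [hφ, hφ]; exact hab⟩

omit [IsDomain B] [IsFractionRing B F] in
/-- The contract gives the meeting record of `Inst.lean`. -/
theorem toV3Meet (H : Contract O red hred hBO red' π₀ π₂ D q x' u u₁ v₁ h Db G N e) :
    V3Meet O red hBO q u u₁ v₁ N e where
  e_ne := H.e_ne
  prod := H.prod
  u_mid := H.u_mid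
  u_inf := by rw [H.u_inf, H.u₁_inf]
  u_zero := H.u_zero
  u₁_inf := by rw [H.u₁_inf]; exact H.Db_ne
  u₁_mid := by rw [H.u₁_mid]; exact H.Db_ne
  u₁_zero := H.u₁_zero
  v₁_inf := H.v₁_inf
  v₁_mid := by rw [H.v₁_mid]; exact H.Db_ne
  v₁_zero := H.v₁_zero

end Contract

end Fermat.Agent.CAR.Local.Inst
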