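import Mathlib
import Fermat.Agent.CAR.Local.Inst.Contract

/-!
# CAR-17 (P-1), (P-3): the points of the finite chart, from the contract

Everything here is derived from `Contract` (`CAR/Local/Inst/Contract.lean`).

* `Contract.exists_cert` : for every level-`M'` integral function `y`, the certificate
  `h_y = d_y ^ (12 e) / u` lies in `B` and reduces on `C_mid` to `((D ȳ) ^ 12 * G) ^ e` — this is
  (E-c).
* `Contract.midCert` : `d_y = π₂ y - π₀ y` with `D ȳ ≠ 0` is a uniformiser of `O_mid` and carries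
  a `MidCert` at every point where `h_y` does not vanish.
* (P-1) in finite-place form: `hA_of_isFinPlace`, `exists_finPlace` (exhaustion),
  `isMaximal_pointIdeal`, and the common lifts `common_lift_mid_inf`, `common_lift_mid_zero`.
* (P-3): `regular_mid_of_deriv`, `regular_mid` (certificate `d = π₂ x' - π₀ x'` where `G` is a
  unit), and the package `ufm_pointRing`.
-/

set_option autoImplicit false

namespace Fermat.Agent.CAR.Local.Inst

open IsLocalRing Fermat.Agent.CAR.Local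

variable {B B' F κ : Type*} [CommRing B] [IsDomain B] [Field F] [Algebra B F]
  [IsFractionRing B F] [Field κ] [CommRing B']

namespace Contract

variable {O : Fin 3 → ValuationSubring F} {red : ∀ i, O i →+* κ}
  {hred : ∀ i, ∀ x : O i, red i x = 0 ↔ x ∈ maximalIdeal (O i)}
  {hBO : ∀ i, ∀ b : B, algebraMap B F b ∈ O i}
  {red' : B' →+* κ} {π₀ π₂ : B' →+* B} {D : κ → κ}
  {q : B} {x' : B'} {u u₁ v₁ h : B} {Db G : κ} {N e : ℕ}

omit [IsDomain B] [IsFractionRing B F] in
/-- `d = π₂ x' - π₀ x'` is not zero. -/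
theorem d_ne (H : Contract O red hred hBO red' π₀ π₂ D q x' u u₁ v₁ h Db G N e) :
    π₂ x' - π₀ x' ≠ 0 := by
  intro h0
  obtain ⟨hz, hr⟩ := H.cd x'
  rw [H.deriv_x] at hr
  have h1 : (⟨algebraMap B F (π₂ x' - π₀ x') / algebraMap B F (π₂ x' - π₀ x'), hz⟩ : O 1) = 0 := by
    apply Subtype.ext
    show algebraMap B F (π₂ x' - π₀ x') / algebraMap B F (π₂ x' - π₀ x') = 0
    rw [h0, map_zero, div_zero]
  rw [h1, map_zero] at hr
  exact zero_ne_one hr

omit [IsDomain B] [IsFractionRing B F] in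
/-- `u ≠ 0`. -/
theorem u_ne (H : Contract O red hred hBO red' π₀ π₂ D q x' u u₁ v₁ h Db G N e) : u ≠ 0 := by
  intro h0
  have h1 := H.u_inf
  rw [h0, map_zero] at h1
  exact pow_ne_zero e H.Db_ne h1.symm

omit [IsDomain B] [IsFractionRing B F] in
/-- `d_y = π₂ y - π₀ y` vanishes on `C_mid`. -/
theorem dy_mem (H : Contract O red hred hBO red' π₀ π₂ D q x' u u₁ v₁ h Db G N e) (y : B') :
    algebraMap B F (π₂ y - π₀ y) ∈ (O 1).nonunits := by
  rw [← mem_centre_iff (O 1) (hBO 1), ← redOn_eq_zero_iff (O 1) (red 1) (hred 1) (hBO 1),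
    map_sub, H.mid_π₂, H.mid_π₀, sub_self]

/-- **(E-c): the certificate of `d_y`.**  For every `y : B'` the function
`h_y = d_y ^ (12 e) / u` lies in `B`, and its reduction on `C_mid` is `((D ȳ) ^ 12 * G) ^ e`. -/
theorem exists_cert [IsNoetherianRing B] [IsIntegrallyClosed B]
    (H : Contract O red hred hBO red' π₀ π₂ D q x' u u₁ v₁ h Db G N e) (y : B') :
    ∃ hy : B, hy * u = (π₂ y - π₀ y) ^ (12 * e) ∧
      redOn (O 1) (red 1) (hBO 1) hy = (D (red' y) ^ 12 * G) ^ e := by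
  have hinj : Function.Injective (algebraMap B F) := IsFractionRing.injective B F
  have hdF : algebraMap B F (π₂ x' - π₀ x') ≠ 0 := fun h0 =>
    H.d_ne (hinj (by rw [h0, map_zero]))
  have huF : algebraMap B F u ≠ 0 := fun h0 => H.u_ne (hinj (by rw [h0, map_zero]))
  obtain ⟨hc, hcr⟩ := H.cd y
  set c : F := algebraMap B F (π₂ y - π₀ y) / algebraMap B F (π₂ x' - π₀ x') with hcdef
  set z : F := c ^ (12 * e) * algebraMap B F h with hzdef
  have hz1 : z ∈ O 1 := (O 1).mul_mem _ _ (pow_mem hc _) (hBO 1 h)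
  have hhu : algebraMap B F h * algebraMap B F u = algebraMap B F (π₂ x' - π₀ x') ^ (12 * e) := by
    rw [← map_mul, H.cert, map_pow]
  have hzu : z * algebraMap B F u = algebraMap B F (π₂ y - π₀ y) ^ (12 * e) := by
    calc z * algebraMap B F u = c ^ (12 * e) * (algebraMap B F h * algebraMap B F u) := by
          rw [hzdef]; ring
      _ = (c * algebraMap B F (π₂ x' - π₀ x')) ^ (12 * e) := by rw [hhu, mul_pow]
      _ = algebraMap B F (π₂ y - π₀ y) ^ (12 * e) := by rw [hcdef, div_mul_cancel₀ _ hdF]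
  have hz_of : ∀ i, (algebraMap B F u)⁻¹ ∈ O i → z ∈ O i := by
    intro i hi
    have h1 : z = algebraMap B F (π₂ y - π₀ y) ^ (12 * e) * (algebraMap B F u)⁻¹ := by
      rw [← hzu, mul_assoc, mul_inv_cancel₀ huF, mul_one]
    rw [h1]
    exact (O i).mul_mem _ _ (pow_mem (hBO i _) _) hi
  have hu0 : (algebraMap B F u)⁻¹ ∈ O 0 := inv_mem_of_not_mem_nonunits (O 0) (fun hcon =>
    (H.toV3Meet.u_notMem_inf (hred := hred)) ((mem_centre_iff (O 0) (hBO 0) u).2 hcon))
  have hu2 : (algebraMap B F u)⁻¹ ∈ O 2 := inv_mem_of_not_mem_nonunits (O 2) (fun hcon =>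
    (H.toV3Meet.u_notMem_zero (hred := hred)) ((mem_centre_iff (O 2) (hBO 2) u).2 hcon))
  have hzall : ∀ i, z ∈ O i := by
    intro i
    fin_cases i
    · exact hz_of 0 hu0
    · exact hz1
    · exact hz_of 2 hu2
  have hqz : algebraMap B F ((π₂ y - π₀ y) ^ (12 * e) * u₁ * v₁) = algebraMap B F q ^ N * z := by
    rw [← map_pow, ← H.prod]
    simp only [map_mul, map_pow]
    rw [← hzu]
    ring
  obtain ⟨hy, hhy⟩ := H.toV3Base.mem_range_of_forall_mem z N _ hqz hzall
  have hhy' : algebraMap B F hy = z := hhy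
  refine ⟨hy, ?_, ?_⟩
  · apply hinj
    rw [map_mul, map_pow, hhy']
    exact hzu
  · rw [redOn_apply]
    have h1 : (⟨algebraMap B F hy, hBO 1 hy⟩ : O 1) =
        ⟨c, hc⟩ ^ (12 * e) * ⟨algebraMap B F h, hBO 1 h⟩ := Subtype.ext (by
      simp only [MulMemClass.coe_mul, SubmonoidClass.coe_pow]
      exact hhy')
    rw [h1, map_mul, map_pow, hcr, ← redOn_apply (O 1) (red 1) (hBO 1) h, H.red_h, mul_pow,
      ← pow_mul]

omit [IsDomain B] [IsFractionRing B F] in
/-- If `D ȳ ≠ 0`, then `d_y` is a uniformiser of `O_mid`. -/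
theorem dy_unif (H : Contract O red hred hBO red' π₀ π₂ D q x' u u₁ v₁ h Db G N e) (y : B')
    (hDy : D (red' y) ≠ 0) :
    ∀ z ∈ (O 1).nonunits, z / algebraMap B F (π₂ y - π₀ y) ∈ O 1 := by
  intro z hz
  obtain ⟨hc, hcr⟩ := H.cd y
  obtain ⟨hci, -⟩ := exists_red_inv (O 1) (red 1) (hred 1) _ hc (by rw [hcr]; exact hDy)
  have h1 : z / algebraMap B F (π₂ y - π₀ y) = z / algebraMap B F (π₂ x' - π₀ x') *
      (algebraMap B F (π₂ y - π₀ y) / algebraMap B F (π₂ x' - π₀ x'))⁻¹ := by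
    by_cases hd0 : algebraMap B F (π₂ x' - π₀ x') = 0
    · exfalso
      have h2 : (⟨algebraMap B F (π₂ y - π₀ y) / algebraMap B F (π₂ x' - π₀ x'), hc⟩ : O 1) = 0 :=
        Subtype.ext (by
          show algebraMap B F (π₂ y - π₀ y) / algebraMap B F (π₂ x' - π₀ x') = 0
          rw [hd0, div_zero])
      rw [h2, map_zero] at hcr
      exact hDy hcr.symm
    · by_cases hy0 : algebraMap B F (π₂ y - π₀ y) = 0
      · rw [hy0, div_zero, zero_div, inv_zero, mul_zero]
      · field_simp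
  rw [h1]
  exact (O 1).mul_mem _ _ (H.unif_mid z hz) hci

omit [IsDomain B] [IsFractionRing B F] in
/-- **The certificate of `d_y` at a point**: if `D ȳ ≠ 0` and `h_y ∉ 𝔪`. -/
theorem midCert (H : Contract O red hred hBO red' π₀ π₂ D q x' u u₁ v₁ h Db G N e) (y : B')
    (hDy : D (red' y) ≠ 0) {hy : B} (hcert : hy * u = (π₂ y - π₀ y) ^ (12 * e)) (𝔪 : Ideal B)
    (h𝔪 : 𝔪 ≠ ⊤) (hh : hy ∉ 𝔪) :
    MidCert O hBO q 𝔪 (π₂ y - π₀ y) hy 1 u (u₁ * v₁) 1 (12 * e) N :=
  H.toV3Meet.midCert (hred := hred) (Nat.mul_ne_zero (by norm_num) H.e_ne) (H.dy_mem y)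
    (H.dy_unif y hDy) hcert 𝔪 h𝔪 hh

/-! ### (P-1) in finite-place form -/

omit [IsDomain B] [IsFractionRing B F] in
/-- `B` is regular at every finite place, on every component. -/
theorem hA_of_isFinPlace (H : Contract O red hred hBO red' π₀ π₂ D q x' u u₁ v₁ h Db G N e)
    (i : Fin 3) (Vs : ValuationSubring κ) (hVs : IsFinPlace red' Vs) :
    ∀ b : B, algebraMap B F b ∈ compositeSubring (O i) (red i) (hred i) Vs := fun b =>
  (algebraMap_mem_compositeSubring_iff (O i) (red i) (hred i) (hBO i) Vs b).2 (H.fin i Vs hVs b)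

omit [IsDomain B] [IsFractionRing B F] in
/-- **(P-1), exhaustion**: a maximal ideal of `B` containing the centre of the component `i` is
the point `(O i, Vs)` of a finite place `Vs`. -/
theorem exists_finPlace (H : Contract O red hred hBO red' π₀ π₂ D q x' u u₁ v₁ h Db G N e)
    (i : Fin 3) (P : Ideal B) (hP : P.IsMaximal) (hle : centre (O i) (hBO i) ≤ P) :
    ∃ Vs : ValuationSubring κ, ∃ hVs : IsFinPlace red' Vs,
      pointIdeal (O i) (red i) (hred i) Vs (H.hA_of_isFinPlace i Vs hVs) = P := by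
  obtain ⟨Vs, hA, hPV⟩ :=
    exists_pointIdeal_eq_of_isMaximal (O i) (red i) (hred i) (hBO i) P hle
  have htop : Vs ≠ ⊤ := H.toV3Base.ne_top_of_isMaximal i Vs hA (hPV ▸ hP)
  have hVs : IsFinPlace red' Vs := H.isFinPlace_of_forall i Vs htop (fun b =>
    (algebraMap_mem_compositeSubring_iff (O i) (red i) (hred i) (hBO i) Vs b).1 (hA b))
  exact ⟨Vs, hVs, hPV⟩

omit [IsDomain B] [IsFractionRing B F] in
/-- **(P-1), exhaustion of the special fibre**: every maximal ideal of `B` containing `q` is a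
point `(O i, Vs)` with `Vs` a finite place. -/
theorem exists_point (H : Contract O red hred hBO red' π₀ π₂ D q x' u u₁ v₁ h Db G N e)
    (P : Ideal B) (hP : P.IsMaximal) (hq : q ∈ P) :
    ∃ (i : Fin 3) (Vs : ValuationSubring κ) (hVs : IsFinPlace red' Vs),
      centre (O i) (hBO i) ≤ P ∧
      pointIdeal (O i) (red i) (hred i) Vs (H.hA_of_isFinPlace i Vs hVs) = P := by
  obtain ⟨i, hi⟩ := exists_centre_le_of_mem O hBO q H.hmin P hq
  obtain ⟨Vs, hVs, hPV⟩ := H.exists_finPlace i P hP hi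
  exact ⟨i, Vs, hVs, hi, hPV⟩

omit [IsDomain B] [IsFractionRing B F] in
/-- **(P-1), maximality**: the point `(O i, Vs)` of a finite place is a maximal ideal. -/
theorem isMaximal_pointIdeal (H : Contract O red hred hBO red' π₀ π₂ D q x' u u₁ v₁ h Db G N e)
    (i : Fin 3) (Vs : ValuationSubring κ) (hVs : IsFinPlace red' Vs) :
    (pointIdeal (O i) (red i) (hred i) Vs (H.hA_of_isFinPlace i Vs hVs)).IsMaximal := by
  refine pointIdeal_isMaximal (O i) (red i) (hred i) (hBO i) Vs _ ?_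
  intro v hv
  obtain ⟨φ, hφ⟩ := H.exists_pull i
  obtain ⟨a, ha⟩ := H.res Vs hVs v hv
  exact ⟨φ a, by rw [hφ]; exact ha⟩

omit [IsDomain B] [IsFractionRing B F] in
/-- Common lift for `C_mid` and `C_inf` (through `π₀`). -/
theorem common_lift_mid_inf (H : Contract O red hred hBO red' π₀ π₂ D q x' u u₁ v₁ h Db G N e)
    (Vs : ValuationSubring κ) (hVs : IsFinPlace red' Vs) :
    ∀ c ∈ Vs, ∃ a b : B, redOn (O 1) (red 1) (hBO 1) a = redOn (O 0) (red 0) (hBO 0) a ∧
      redOn (O 1) (red 1) (hBO 1) b = redOn (O 0) (red 0) (hBO 0) b ∧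
      redOn (O 1) (red 1) (hBO 1) b ∉ Vs.nonunits ∧
      redOn (O 1) (red 1) (hBO 1) a = c * redOn (O 1) (red 1) (hBO 1) b := by
  intro c hc
  obtain ⟨a, b, hb, hab⟩ := H.lift Vs hVs c hc
  refine ⟨π₀ a, π₀ b, ?_, ?_, ?_, ?_⟩
  · rw [H.mid_π₀, H.inf_π₀]
  · rw [H.mid_π₀, H.inf_π₀]
  · rw [H.mid_π₀]; exact hb
  · rw [H.mid_π₀, H.mid_π₀]; exact hab

omit [IsDomain B] [IsFractionRing B F] in
/-- Common lift for `C_mid` and `C_0` (through `π₂`). -/
theorem common_lift_mid_zero (H : Contract O red hred hBO red' π₀ π₂ D q x' u u₁ v₁ h Db G N e)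
    (Vs : ValuationSubring κ) (hVs : IsFinPlace red' Vs) :
    ∀ c ∈ Vs, ∃ a b : B, redOn (O 1) (red 1) (hBO 1) a = redOn (O 2) (red 2) (hBO 2) a ∧
      redOn (O 1) (red 1) (hBO 1) b = redOn (O 2) (red 2) (hBO 2) b ∧
      redOn (O 1) (red 1) (hBO 1) b ∉ Vs.nonunits ∧
      redOn (O 1) (red 1) (hBO 1) a = c * redOn (O 1) (red 1) (hBO 1) b := by
  intro c hc
  obtain ⟨a, b, hb, hab⟩ := H.lift Vs hVs c hc
  refine ⟨π₂ a, π₂ b, ?_, ?_, ?_, ?_⟩
  · rw [H.mid_π₂, H.zero_π₂]
  · rw [H.mid_π₂, H.zero_π₂]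
  · rw [H.mid_π₂]; exact hb
  · rw [H.mid_π₂, H.mid_π₂]; exact hab

/-! ### (P-3): the points of `C_mid` -/

variable [IsNoetherianRing B] [IsIntegrallyClosed B]

/-- **(P-3)**: at the point `(mid, Vs)` of a finite place, if `y : B'` has `D ȳ ≠ 0` and
`(D ȳ) ^ 12 * G` is not a non-unit of `Vs`, then the vertical prime is `(d_y)`, the maximal ideal
is `(d_y, t)` and the local ring is factorial. -/
theorem regular_mid_of_deriv (H : Contract O red hred hBO red' π₀ π₂ D q x' u u₁ v₁ h Db G N e)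
    (Vs : ValuationSubring κ) (hVs : IsFinPlace red' Vs) (y : B') (hDy : D (red' y) ≠ 0)
    (hG : D (red' y) ^ 12 * G ∉ Vs.nonunits) :
    ∃ t : B, redOn (O 1) (red 1) (hBO 1) t ∈ Vs.nonunits ∧
      (∀ v ∈ Vs.nonunits, ∃ w ∈ Vs, v = redOn (O 1) (red 1) (hBO 1) t * w) ∧
      vertIdeal (O 1) (red 1) (hred 1) Vs (H.hA_of_isFinPlace 1 Vs hVs) =
        Ideal.span {algebraMap B (pointRing F (pointIdeal (O 1) (red 1) (hred 1) Vs
          (H.hA_of_isFinPlace 1 Vs hVs))) (π₂ y - π₀ y)} ∧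
      maximalIdeal (pointRing F (pointIdeal (O 1) (red 1) (hred 1) Vs
          (H.hA_of_isFinPlace 1 Vs hVs))) =
        Ideal.span {algebraMap B (pointRing F (pointIdeal (O 1) (red 1) (hred 1) Vs
            (H.hA_of_isFinPlace 1 Vs hVs))) (π₂ y - π₀ y),
          algebraMap B (pointRing F (pointIdeal (O 1) (red 1) (hred 1) Vs
            (H.hA_of_isFinPlace 1 Vs hVs))) t} ∧
      UniqueFactorizationMonoid (pointRing F (pointIdeal (O 1) (red 1) (hred 1) Vs
        (H.hA_of_isFinPlace 1 Vs hVs))) := by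
  have hmax := H.isMaximal_pointIdeal 1 Vs hVs
  obtain ⟨hy, hcert, hred_hy⟩ := H.exists_cert y
  have hh : hy ∉ pointIdeal (O 1) (red 1) (hred 1) Vs (H.hA_of_isFinPlace 1 Vs hVs) := by
    rw [mem_pointIdeal_iff_redOn (O 1) (red 1) (hred 1) (hBO 1) Vs, hred_hy,
      ValuationSubring.mem_nonunits_iff, map_pow]
    rw [ValuationSubring.mem_nonunits_iff] at hG
    exact not_lt.2 (one_le_pow₀ (not_lt.1 hG))
  exact H.toV3Base.regular_mid Vs _ hmax
    (H.midCert y hDy hcert _ hmax.ne_top hh)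

/-- **(P-3), generic points of `C_mid`**: at the point `(mid, Vs)` of a finite place where `G` is
a unit (`J̄(s) ∉ {0, 1728}`), the vertical prime is `(d)`, `d = π₂ x' - π₀ x'`, the maximal ideal
is `(d, t)` and the local ring is factorial — also at the triple points. -/
theorem regular_mid (H : Contract O red hred hBO red' π₀ π₂ D q x' u u₁ v₁ h Db G N e)
    (Vs : ValuationSubring κ) (hVs : IsFinPlace red' Vs) (hG : G ∉ Vs.nonunits) :
    ∃ t : B, redOn (O 1) (red 1) (hBO 1) t ∈ Vs.nonunits ∧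
      (∀ v ∈ Vs.nonunits, ∃ w ∈ Vs, v = redOn (O 1) (red 1) (hBO 1) t * w) ∧
      vertIdeal (O 1) (red 1) (hred 1) Vs (H.hA_of_isFinPlace 1 Vs hVs) =
        Ideal.span {algebraMap B (pointRing F (pointIdeal (O 1) (red 1) (hred 1) Vs
          (H.hA_of_isFinPlace 1 Vs hVs))) (π₂ x' - π₀ x')} ∧
      maximalIdeal (pointRing F (pointIdeal (O 1) (red 1) (hred 1) Vs
          (H.hA_of_isFinPlace 1 Vs hVs))) =
        Ideal.span {algebraMap B (pointRing F (pointIdeal (O 1) (red 1) (hred 1) Vs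
            (H.hA_of_isFinPlace 1 Vs hVs))) (π₂ x' - π₀ x'),
          algebraMap B (pointRing F (pointIdeal (O 1) (red 1) (hred 1) Vs
            (H.hA_of_isFinPlace 1 Vs hVs))) t} ∧
      UniqueFactorizationMonoid (pointRing F (pointIdeal (O 1) (red 1) (hred 1) Vs
        (H.hA_of_isFinPlace 1 Vs hVs))) :=
  H.regular_mid_of_deriv Vs hVs x' (by rw [H.deriv_x]; exact one_ne_zero)
    (by rw [H.deriv_x, one_pow, one_mul]; exact hG)

/-- **(P-6), finite chart**: if every finite place carries a function `y : B'` with `D ȳ ≠ 0`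
and `(D ȳ) ^ 12 * G` a unit at the place (at `J̄(s) ∉ {0, 1728}`: `y = x'`; at the elliptic
points of a good level: (ELL)), then the local ring of `B` at EVERY maximal ideal containing `q`
is factorial. -/
theorem ufm_pointRing (H : Contract O red hred hBO red' π₀ π₂ D q x' u u₁ v₁ h Db G N e)
    (hell : ∀ Vs : ValuationSubring κ, IsFinPlace red' Vs →
      ∃ y : B', D (red' y) ≠ 0 ∧ D (red' y) ^ 12 * G ∉ Vs.nonunits)
    (𝔪 : Ideal B) [h𝔪 : 𝔪.IsMaximal] (hq : q ∈ 𝔪) :
    UniqueFactorizationMonoid (pointRing F 𝔪) := by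
  by_cases h1 : centre (O 1) (hBO 1) ≤ 𝔪
  · obtain ⟨Vs, hVs, hP⟩ := H.exists_finPlace 1 𝔪 h𝔪 h1
    subst hP
    obtain ⟨y, hDy, hG⟩ := hell Vs hVs
    obtain ⟨t, -, -, -, -, hufm⟩ := H.regular_mid_of_deriv Vs hVs y hDy hG
    exact hufm
  · exact H.toV3Base.ufm_pointRing H.toV3Meet 𝔪 hq (fun h => absurd h h1)

end Contract

end Fermat.Agent.CAR.Local.Inst
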