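import Mathlib
import Fermat.Agent.CAR.Local.Inst.Points
import Fermat.Agent.CAR.Local.Inst.Ell

/-!
# CAR-17 (P-3), elliptic part: the hypothesis `hell` of `Contract.ufm_pointRing`

`Contract.ufm_pointRing` (`Inst/Points.lean`) proves that every closed point of the finite chart
is factorial as soon as, at every finite place `Vs` of the special fibre,

  `hell : ∃ y : B', D (red' y) ≠ 0 ∧ D (red' y) ^ 12 * G ∉ Vs.nonunits`.

At the places where the certificate function `G` is a unit, `y = x'` works.  At the zeros of `G`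
(the elliptic points) this file derives `hell` from `EllOrder.le_and_unit_certificate` and the
following *elliptic structure* of the place (`EllStruct`): there are a constant `z` (`D z = 0`),
a unit `v` at the place and integers `e₀`, `a` with

  `G = (x̄ - z) ^ a * v`,  `e₀ * a = 12 * (e₀ - 1)`,  `e₀ ∣ ord_s (x̄ - z)`

(for `x̄ = J̄`, `G = J̄^8 (J̄ - 1728)^6`: `(z, a, e₀) = (0, 8, 3)` or `(1728, 6, 2)`; the
divisibility is (E-a) + (E-b)).

* `EllStruct` : the elliptic structure at a place;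
* `bound` : (E-c) from `Contract.exists_cert`;
* `exists_unit_cert` : at a place with an elliptic structure, every `t : B'` whose reduction is a
  uniformiser has `D t̄ ≠ 0` and `(D t̄)^12 G` a unit;
* `hell_of_struct`, `ufm_pointRing_of_struct` : the package.
-/

set_option autoImplicit false

namespace Fermat.Agent.CAR.Local.Inst.EllC

open IsLocalRing Fermat.Agent.CAR.Local Fermat.Agent.CAR.Formal Fermat.Agent.CAR.Local.EllOrder
open Fermat.Agent.CAR.Local.Inst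

variable {B B' F κ : Type*} [CommRing B] [IsDomain B] [Field F] [Algebra B F]
  [IsFractionRing B F] [Field κ] [CommRing B']

/-- The **elliptic structure** of a place `Vs` of `κ` with respect to a derivation `D`, a base
function `x` and the certificate function `G`: `G = (x - z) ^ a * v` with `z` a constant, `v` a
unit at the place, `e₀ * a = 12 * (e₀ - 1)` and `e₀ ∣ ord (x - z)`. -/
def EllStruct (D : κ → κ) (x G : κ) (Vs : ValuationSubring κ) : Prop :=
  ∃ (z v : κ) (e₀ a : ℕ), D z = 0 ∧ x - z ≠ 0 ∧ x - z ∈ Vs.nonunits ∧ v ≠ 0 ∧ v ∈ Vs ∧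
    v⁻¹ ∈ Vs ∧ G = (x - z) ^ a * v ∧ (e₀ : ℤ) * a = 12 * ((e₀ : ℤ) - 1) ∧
    ∀ (τ : κ) (hτ : IsUnif Vs τ), (e₀ : ℤ) ∣ hτ.ord (x - z)

variable {O : Fin 3 → ValuationSubring F} {red : ∀ i, O i →+* κ}
  {hred : ∀ i, ∀ x : O i, red i x = 0 ↔ x ∈ maximalIdeal (O i)}
  {hBO : ∀ i, ∀ b : B, algebraMap B F b ∈ O i}
  {red' : B' →+* κ} {π₀ π₂ : B' →+* B} {D : κ → κ}
  {q : B} {x' : B'} {u u₁ v₁ h : B} {Db G : κ} {N e : ℕ}

/-- **(E-c)** from the contract: `12 ord_s (D ȳ) + ord_s G ≥ 0` at every finite place. -/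
theorem bound [IsNoetherianRing B] [IsIntegrallyClosed B]
    (H : Contract O red hred hBO red' π₀ π₂ D q x' u u₁ v₁ h Db G N e) (hG0 : G ≠ 0)
    (Vs : ValuationSubring κ) (hVs : IsFinPlace red' Vs) {τ : κ} (hτ : IsUnif Vs τ) (y : B') :
    D (red' y) = 0 ∨ 0 ≤ 12 * hτ.ord (D (red' y)) + hτ.ord G := by
  by_cases hD0 : D (red' y) = 0
  · exact Or.inl hD0
  · right
    obtain ⟨hy, -, hr⟩ := H.exists_cert y
    have h1 : (D (red' y) ^ 12 * G) ^ e ∈ Vs := by
      rw [← hr]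
      exact H.fin 1 Vs hVs hy
    have h3 : D (red' y) ^ 12 * G ∈ Vs := Ell.mem_of_pow_mem Vs H.e_ne h1
    have h4 : D (red' y) ^ 12 * G ≠ 0 := mul_ne_zero (pow_ne_zero _ hD0) hG0
    have h5 := (hτ.ord_nonneg_iff h4).2 h3
    rw [hτ.ord_mul (pow_ne_zero _ hD0) hG0, hτ.ord_pow] at h5
    exact_mod_cast h5

/-- At a finite place with an elliptic structure, every `t : B'` whose reduction is a uniformiser
has `D t̄ ≠ 0` and `(D t̄)^12 * G` a unit at the place; moreover `ord_s (x̄ - z) = e₀` is prime to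
the characteristic. -/
theorem exists_unit_cert [IsNoetherianRing B] [IsIntegrallyClosed B]
    (H : Contract O red hred hBO red' π₀ π₂ D q x' u u₁ v₁ h Db G N e) (hG0 : G ≠ 0)
    (Vs : ValuationSubring κ) (hVs : IsFinPlace red' Vs) {τ : κ} (hτ : IsUnif Vs τ)
    (hS : EllStruct D (red' x') G Vs) (t : B') (ht : hτ.ord (red' t) = 1) :
    D (red' t) ≠ 0 ∧ D (red' t) ^ 12 * G ∈ Vs ∧ (D (red' t) ^ 12 * G)⁻¹ ∈ Vs := by
  obtain ⟨z, v, e₀, a, hz, hxz0, hxz, hv0, hv, hvi, hGf, hea, hdvd⟩ := hS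
  have hSub : ∀ y ∈ red'.range, y ∈ Vs := by
    rintro _ ⟨y, rfl⟩
    exact hVs.2 y
  have hliftS : ∀ c ∈ Vs, ∃ a ∈ red'.range, ∃ b ∈ red'.range, b ∉ Vs.nonunits ∧ a = c * b := by
    intro c hc
    obtain ⟨a, b, hb, hab⟩ := H.lift Vs hVs c hc
    exact ⟨red' a, ⟨a, rfl⟩, red' b, ⟨b, rfl⟩, hb, hab⟩
  have hbd : ∀ y ∈ red'.range, D y = 0 ∨ 0 ≤ 12 * hτ.ord (D y) + hτ.ord G := by
    rintro _ ⟨y, rfl⟩
    exact bound H hG0 Vs hVs hτ y
  have hG : (e₀ : ℤ) * hτ.ord G = 12 * ((e₀ : ℤ) - 1) * hτ.ord (red' x' - z) :=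
    Ell.ord_eq_mul_of_eq_pow_mul hτ hxz0 hv0 hv hvi hGf hea
  obtain ⟨hle, -, hE⟩ := le_and_unit_certificate H.deriv hτ red'.range hSub hliftS H.deriv_x hz
    hxz0 hxz hG0 hG hbd
  have hord : hτ.ord (red' x' - z) = e₀ := Ell.ord_eq_of_dvd hτ hxz0 hxz hle (hdvd τ hτ)
  exact hE hord (red' t) ⟨t, rfl⟩ ht

/-- **The hypothesis `hell` of `Contract.ufm_pointRing`**, from the elliptic structure at the
zeros of `G`. -/
theorem hell_of_struct [IsNoetherianRing B] [IsIntegrallyClosed B]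
    (H : Contract O red hred hBO red' π₀ π₂ D q x' u u₁ v₁ h Db G N e) (hG0 : G ≠ 0)
    (hdvr : ∀ Vs : ValuationSubring κ, IsFinPlace red' Vs → ∃ τ : κ, IsUnif Vs τ)
    (hS : ∀ Vs : ValuationSubring κ, IsFinPlace red' Vs → G ∈ Vs.nonunits →
      EllStruct D (red' x') G Vs) :
    ∀ Vs : ValuationSubring κ, IsFinPlace red' Vs →
      ∃ y : B', D (red' y) ≠ 0 ∧ D (red' y) ^ 12 * G ∉ Vs.nonunits := by
  intro Vs hVs
  by_cases hG : G ∈ Vs.nonunits
  · obtain ⟨τ, hτ⟩ := hdvr Vs hVs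
    obtain ⟨t, ht⟩ := OffMid.exists_lift_unif red' hτ hVs.2 (H.lift Vs hVs)
    obtain ⟨h1, -, h3⟩ := exists_unit_cert H hG0 Vs hVs hτ (hS Vs hVs hG) t ht
    exact ⟨t, h1, Ell.notMem_nonunits_of_inv_mem Vs (mul_ne_zero (pow_ne_zero _ h1) hG0) h3⟩
  · refine ⟨x', ?_, ?_⟩
    · rw [H.deriv_x]
      exact one_ne_zero
    · rw [H.deriv_x, one_pow, one_mul]
      exact hG

/-- **Every closed point of the finite chart over `q` is factorial**, from the contract and the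
elliptic structure at the zeros of `G`. -/
theorem ufm_pointRing_of_struct [IsNoetherianRing B] [IsIntegrallyClosed B]
    (H : Contract O red hred hBO red' π₀ π₂ D q x' u u₁ v₁ h Db G N e) (hG0 : G ≠ 0)
    (hdvr : ∀ Vs : ValuationSubring κ, IsFinPlace red' Vs → ∃ τ : κ, IsUnif Vs τ)
    (hS : ∀ Vs : ValuationSubring κ, IsFinPlace red' Vs → G ∈ Vs.nonunits →
      EllStruct D (red' x') G Vs)
    (𝔪 : Ideal B) [𝔪.IsMaximal] (hq : q ∈ 𝔪) :
    UniqueFactorizationMonoid (pointRing F 𝔪) :=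
  H.ufm_pointRing (hell_of_struct H hG0 hdvr hS) 𝔪 hq

end Fermat.Agent.CAR.Local.Inst.EllC
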