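import Mathlib
import Fermat.Agent.CAR.Local.Inst.EllContract
import Fermat.Agent.CAR.Local.Inst.PlaceBridge
import Fermat.Agent.CAR.Local.Inst.Deriv
import Fermat.Agent.Lib.FF.ModL

/-!
# CAR-17 (P-3), elliptic part: the elliptic structure of the finite places of `κ`

`κ` a function field of one variable over `k` (the instance is
`κ = modularFunctionFieldFullC k N`), `x ∈ κ` a base function, `D` a map with `D c = 0` on
constants, `G = (x - c)^a * v`.

* `ellStruct_of_factor` : a place `Vs ⊇ k` of `κ` over the value `c` of `x`, at which `v` is a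
  unit, has the elliptic structure `EllC.EllStruct D x G Vs` as soon as `e₀ * a = 12 (e₀ - 1)` and
  (E-a)+(E-b) holds in the Prelude `Place` form
  `∀ s : Place k κ, 0 < s.ord (x - c) → e₀ ∣ s.ord (x - c)`;
* `exists_isUnif_of_ne_top` : a valuation subring `k ⊆ Vs ≠ ⊤` of `κ` carries an `IsUnif`
  (the hypothesis `hdvr` of `EllC.hell_of_struct`);
* `ellStruct_J` : the instance `x = J̄`, `D = d/dJ̄`, `G = J̄^8 (J̄ - 1728)^6` in characteristic
  `≠ 2, 3`: at every place `Vs ⊇ k[J̄]`, `Vs ≠ ⊤`, where `G` vanishes, `(c, a, e₀) = (0, 8, 3)`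
  or `(1728, 6, 2)`.
-/

set_option autoImplicit false

namespace Fermat.Agent.CAR.Local.Inst.EllJ

open AlgebraicCurve IntermediateField ModularCurve Fermat.Agent.CAR.Formal
open Fermat.Agent.CAR.Local.Inst Fermat.Agent.Lib.FF.ModL

section Generic

variable {k κ : Type*} [Field k] [Field κ] [Algebra k κ]

/-- A valuation subring `k ⊆ Vs ≠ ⊤` of a function field of one variable is discrete. -/
theorem exists_isUnif_of_ne_top (x : κ) [FiniteDimensional k⟮x⟯ κ] (Vs : ValuationSubring κ)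
    (hk : ∀ c : k, algebraMap k κ c ∈ Vs) (htop : Vs ≠ ⊤) : ∃ τ : κ, IsUnif Vs τ :=
  PlaceBridge.exists_place_isUnif x Vs hk htop

/-- **Elliptic structure from one factor of `G`.** -/
theorem ellStruct_of_factor (x : κ) [FiniteDimensional k⟮x⟯ κ] (D : κ → κ) (G : κ) (c : k)
    (a e₀ : ℕ) (v : κ) (hDc : D (algebraMap k κ c) = 0) (hG : G = (x - algebraMap k κ c) ^ a * v)
    (hea : (e₀ : ℤ) * a = 12 * ((e₀ : ℤ) - 1))
    (hE : ∀ s : Place k κ, 0 < s.ord (x - algebraMap k κ c) →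
      (e₀ : ℤ) ∣ s.ord (x - algebraMap k κ c))
    (Vs : ValuationSubring κ) (hk : ∀ c : k, algebraMap k κ c ∈ Vs) (htop : Vs ≠ ⊤)
    (hx0 : x - algebraMap k κ c ≠ 0) (hxc : x - algebraMap k κ c ∈ Vs.nonunits)
    (hv0 : v ≠ 0) (hv : v ∈ Vs) (hvi : v⁻¹ ∈ Vs) :
    EllC.EllStruct D x G Vs := by
  refine ⟨algebraMap k κ c, v, e₀, a, hDc, hx0, hxc, hv0, hv, hvi, hG, hea, ?_⟩
  intro τ hτ
  have h1 : hτ.ord (x - algebraMap k κ c) =
      (Fermat.Agent.Lib.FF.Holo.placeOfValuationSubring x Vs hk htop).ord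
        (x - algebraMap k κ c) :=
    PlaceBridge.isUnif_ord_eq
      (Fermat.Agent.Lib.FF.Holo.placeOfValuationSubring x Vs hk htop) (τ := τ) hτ
      (x - algebraMap k κ c)
  rw [h1]
  apply hE
  exact (PlaceBridge.mem_nonunits_iff
    (Fermat.Agent.Lib.FF.Holo.placeOfValuationSubring x Vs hk htop) hx0).1 hxc

/-- A nonzero constant is a unit of every valuation subring containing the constants. -/
theorem const_notMem_nonunits (Vs : ValuationSubring κ) (hk : ∀ c : k, algebraMap k κ c ∈ Vs)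
    {c : k} (hc : c ≠ 0) : algebraMap k κ c ∉ Vs.nonunits := by
  apply Ell.notMem_nonunits_of_inv_mem Vs
  · exact fun h => hc ((algebraMap k κ).injective (by rw [h, map_zero]))
  · rw [← map_inv₀]
    exact hk c⁻¹

/-- In a valuation ring, a product of two elements which is a non-unit has a non-unit factor. -/
theorem mem_nonunits_or_of_mul (Vs : ValuationSubring κ) {a b : κ}
    (hab : a * b ∈ Vs.nonunits) : a ∈ Vs.nonunits ∨ b ∈ Vs.nonunits := by
  by_contra hcon
  push Not at hcon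
  obtain ⟨h1, h2⟩ := hcon
  obtain ⟨ha0, hai⟩ := Ell.ne_zero_and_inv_mem_of_notMem_nonunits Vs h1
  obtain ⟨hb0, hbi⟩ := Ell.ne_zero_and_inv_mem_of_notMem_nonunits Vs h2
  exact Ell.notMem_nonunits_of_inv_mem Vs (mul_ne_zero ha0 hb0)
    (by rw [mul_inv]; exact Vs.mul_mem _ _ hai hbi) hab

/-- In a valuation ring, an element with a non-unit power is a non-unit. -/
theorem mem_nonunits_of_pow (Vs : ValuationSubring κ) {a : κ} {n : ℕ}
    (han : a ^ n ∈ Vs.nonunits) : a ∈ Vs.nonunits := by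
  rw [ValuationSubring.mem_nonunits_iff] at han ⊢
  rw [map_pow] at han
  by_contra hcon
  push Not at hcon
  exact absurd han (not_lt.2 (one_le_pow₀ hcon))

end Generic

section J

variable (k : Type*) [Field k] [IsAlgClosed k] (N : ℕ) [NeZero N]

/-- **The elliptic structure for `J̄` in characteristic `≠ 2, 3`.**  At a finite place where
`G = J̄^8 (J̄ - 1728)^6` vanishes, either `J̄(s) = 0` (`a = 8`, `e₀ = 3`) or `J̄(s) = 1728`
(`a = 6`, `e₀ = 2`); the divisibilities `e₀ ∣ ord_s (J̄ - c)` are the hypotheses `hE0`, `hE1728`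
((E-a) + (E-b)). -/
theorem ellStruct_J (h2 : (2 : k) ≠ 0) (h3 : (3 : k) ≠ 0)
    (hE0 : ∀ s : Place k (modularFunctionFieldFullC k N),
      0 < s.ord (Jbar k N - algebraMap k (modularFunctionFieldFullC k N) 0) →
      ((3 : ℕ) : ℤ) ∣ s.ord (Jbar k N - algebraMap k (modularFunctionFieldFullC k N) 0))
    (hE1728 : ∀ s : Place k (modularFunctionFieldFullC k N),
      0 < s.ord (Jbar k N - algebraMap k (modularFunctionFieldFullC k N) 1728) →
      ((2 : ℕ) : ℤ) ∣ s.ord (Jbar k N - algebraMap k (modularFunctionFieldFullC k N) 1728))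
    (Vs : ValuationSubring (modularFunctionFieldFullC k N))
    (hk : ∀ c : k, algebraMap k (modularFunctionFieldFullC k N) c ∈ Vs) (htop : Vs ≠ ⊤)
    (hJ : Jbar k N ∈ Vs) (hG : Deriv.GJ k N ∈ Vs.nonunits) :
    EllC.EllStruct (Deriv.dJ k N) (Jbar k N) (Deriv.GJ k N) Vs := by
  have hfd : FiniteDimensional k⟮Jbar k N⟯ (modularFunctionFieldFullC k N) :=
    finiteDimensional_Jbar k N
  have h1728 : (1728 : k) ≠ 0 := by
    have h : (1728 : k) = 2 ^ 6 * 3 ^ 3 := by norm_num
    rw [h]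
    exact mul_ne_zero (pow_ne_zero _ h2) (pow_ne_zero _ h3)
  have hc1728 : algebraMap k (modularFunctionFieldFullC k N) 1728 = 1728 := map_ofNat _ 1728
  have hc0 : algebraMap k (modularFunctionFieldFullC k N) 0 = 0 := map_zero _
  have hJ1 : Jbar k N - 1728 ∈ Vs := by
    rw [← hc1728]
    exact sub_mem hJ (hk 1728)
  have hJ0 : Jbar k N ≠ 0 := fun h => (transcendental_Jbar k N) (h ▸ isAlgebraic_zero)
  have hJ10 : Jbar k N - 1728 ≠ 0 := by
    intro h
    apply transcendental_Jbar k N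
    rw [sub_eq_zero.1 h, ← hc1728]
    exact isAlgebraic_algebraMap _
  -- the two factors cannot both vanish
  have hnot : ¬ (Jbar k N ∈ Vs.nonunits ∧ Jbar k N - 1728 ∈ Vs.nonunits) := by
    rintro ⟨ha, hb⟩
    have h : algebraMap k (modularFunctionFieldFullC k N) 1728 ∈ Vs.nonunits := by
      have h' : algebraMap k (modularFunctionFieldFullC k N) 1728 =
          Jbar k N - (Jbar k N - 1728) := by
        rw [hc1728]
        ring
      rw [h']
      exact Vs.nonunits.sub_mem ha hb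
    exact const_notMem_nonunits Vs hk h1728 h
  have hGdef : Deriv.GJ k N = Jbar k N ^ 8 * (Jbar k N - 1728) ^ 6 := rfl
  rw [hGdef] at hG
  rcases mem_nonunits_or_of_mul Vs hG with h | h
  · -- `J̄(s) = 0`
    have hJm : Jbar k N ∈ Vs.nonunits := mem_nonunits_of_pow Vs h
    have hJ1u : Jbar k N - 1728 ∉ Vs.nonunits := fun hb => hnot ⟨hJm, hb⟩
    obtain ⟨-, hJ1i⟩ := Ell.ne_zero_and_inv_mem_of_notMem_nonunits Vs hJ1u
    refine ellStruct_of_factor (Jbar k N) (Deriv.dJ k N) (Deriv.GJ k N) 0 8 3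
      ((Jbar k N - 1728) ^ 6) (Deriv.dJ_algebraMap k N 0) ?_ (by norm_num) hE0 Vs hk htop ?_ ?_
      (pow_ne_zero _ hJ10) (pow_mem hJ1 6) (by rw [← inv_pow]; exact pow_mem hJ1i 6)
    · rw [hGdef, hc0, sub_zero]
    · rw [hc0, sub_zero]
      exact hJ0
    · rw [hc0, sub_zero]
      exact hJm
  · -- `J̄(s) = 1728`
    have hJ1m : Jbar k N - 1728 ∈ Vs.nonunits := mem_nonunits_of_pow Vs h
    have hJu : Jbar k N ∉ Vs.nonunits := fun ha => hnot ⟨ha, hJ1m⟩
    obtain ⟨-, hJi⟩ := Ell.ne_zero_and_inv_mem_of_notMem_nonunits Vs hJu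
    refine ellStruct_of_factor (Jbar k N) (Deriv.dJ k N) (Deriv.GJ k N) 1728 6 2
      (Jbar k N ^ 8) (Deriv.dJ_algebraMap k N 1728) ?_ (by norm_num) hE1728 Vs hk htop ?_ ?_
      (pow_ne_zero _ hJ0) (pow_mem hJ 8) (by rw [← inv_pow]; exact pow_mem hJi 8)
    · rw [hGdef, hc1728]
      ring
    · rw [hc1728]
      exact hJ10
    · rw [hc1728]
      exact hJ1m

end J

end Fermat.Agent.CAR.Local.Inst.EllJ
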