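import Mathlib
import Fermat.Agent.CAR.Local.Inst.EllJ

/-!
# CAR-17 (P-3), elliptic part: the Hauptmodul switch

`Contract.ufm_pointRing` (`Inst/Points.lean`) needs, at every finite place `Vs` of the special
fibre,

  `hell : ∃ y : B', D (red' y) ≠ 0 ∧ D (red' y) ^ 12 * G ∉ Vs.nonunits`.

`EllC.hell_of_struct` derives it from an elliptic structure `G = (x̄' - z)^a v` in the contract's
own base function `x'`.  For the residue characteristics `2` and `3` the contract is still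
written with `x' = J`, `D = d/dJ̄`, `G = J̄^8 (J̄ - 1728)^6 = J̄^14`, and the elliptic structure
lives in *another* base function `x₂` (the Hauptmodul of level `2` resp. `3`), with its own
derivation `D₂ = d/dx̄₂` and certificate function `G₂`, related by

  `D₂ y ^ 12 * G₂ = D y ^ 12 * G`   (both are `(θ y)^12 / Δ̄²`).

* `hell_of_switch`, `ufm_pointRing_of_switch` : `hell` from an elliptic structure in a switched
  triple `(D₂, x₂, G₂)`;
* `eq_dJ_of_series`, `dX_pow_mul_eq` : the `κ`-side switching identity from the two series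
  identities `G · Δ̄² = (θ J̄)^12`, `G₂ · Δ̄² = (θ x̄₂)^12`;
* `hell_haupt` : `hell` for a base function `x̄₂ = red' yh`, `yh` a unit of `B'`, with
  `G₂ = x̄₂^b (x̄₂ - c)^a`, `e₀ a = 12 (e₀ - 1)` and (E-a)+(E-b) in `Place` form at the finite
  places;
* `hell_J` : the same statement for `x̄ = J̄` in characteristic `≠ 2, 3`;
* `ufm_pointRing_haupt`, `ufm_pointRing_J` : the factoriality of the closed points.
-/

set_option autoImplicit false

namespace Fermat.Agent.CAR.Local.Inst.EllSwitch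

open IsLocalRing Fermat.Agent.CAR.Local Fermat.Agent.CAR.Formal Fermat.Agent.CAR.Local.EllOrder
open Fermat.Agent.CAR.Local.Inst

section Abstract

variable {B B' F κ : Type*} [CommRing B] [IsDomain B] [Field F] [Algebra B F]
  [IsFractionRing B F] [Field κ] [CommRing B']

variable {O : Fin 3 → ValuationSubring F} {red : ∀ i, O i →+* κ}
  {hred : ∀ i, ∀ x : O i, red i x = 0 ↔ x ∈ maximalIdeal (O i)}
  {hBO : ∀ i, ∀ b : B, algebraMap B F b ∈ O i}
  {red' : B' →+* κ} {π₀ π₂ : B' →+* B} {D : κ → κ}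
  {q : B} {x' : B'} {u u₁ v₁ h : B} {Db G : κ} {N e : ℕ}

/-- **(E-c) for a switched pair** `(D₂, G₂)` with `D₂ y ^ 12 * G₂ = D y ^ 12 * G`. -/
theorem bound_switch [IsNoetherianRing B] [IsIntegrallyClosed B]
    (H : Contract O red hred hBO red' π₀ π₂ D q x' u u₁ v₁ h Db G N e) (hG0 : G ≠ 0)
    (Vs : ValuationSubring κ) (hVs : IsFinPlace red' Vs) {τ : κ} (hτ : IsUnif Vs τ)
    {D₂ : κ → κ} {G₂ : κ} (hG₂0 : G₂ ≠ 0) (hsw : ∀ y : κ, D₂ y ^ 12 * G₂ = D y ^ 12 * G)
    (y : B') :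
    D₂ (red' y) = 0 ∨ 0 ≤ 12 * hτ.ord (D₂ (red' y)) + hτ.ord G₂ := by
  by_cases hD0 : D₂ (red' y) = 0
  · exact Or.inl hD0
  · right
    have h1 : D₂ (red' y) ^ 12 * G₂ ≠ 0 := mul_ne_zero (pow_ne_zero _ hD0) hG₂0
    have hD0' : D (red' y) ≠ 0 := by
      intro h0
      rw [hsw, h0] at h1
      simp at h1
    rcases EllC.bound H hG0 Vs hVs hτ y with h2 | h2
    · exact absurd h2 hD0'
    · have h3 : hτ.ord (D₂ (red' y) ^ 12 * G₂) = hτ.ord (D (red' y) ^ 12 * G) := by rw [hsw]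
      rw [hτ.ord_mul (pow_ne_zero _ hD0) hG₂0, hτ.ord_pow,
        hτ.ord_mul (pow_ne_zero _ hD0') hG0, hτ.ord_pow] at h3
      push_cast at h3
      linarith

/-- At a finite place with an elliptic structure in a switched triple `(D₂, x₂, G₂)`, every
`t : B'` whose reduction is a uniformiser has `D t̄ ≠ 0` and `(D t̄)^12 * G` a unit. -/
theorem exists_unit_cert_switch [IsNoetherianRing B] [IsIntegrallyClosed B]
    (H : Contract O red hred hBO red' π₀ π₂ D q x' u u₁ v₁ h Db G N e) (hG0 : G ≠ 0)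
    (Vs : ValuationSubring κ) (hVs : IsFinPlace red' Vs) {τ : κ} (hτ : IsUnif Vs τ)
    {D₂ : κ → κ} {G₂ : κ} (hD₂ : IsDeriv D₂) (x₂ : B') (hx₂ : D₂ (red' x₂) = 1)
    (hG₂0 : G₂ ≠ 0) (hsw : ∀ y : κ, D₂ y ^ 12 * G₂ = D y ^ 12 * G)
    (hS : EllC.EllStruct D₂ (red' x₂) G₂ Vs) (t : B') (ht : hτ.ord (red' t) = 1) :
    D (red' t) ≠ 0 ∧ D (red' t) ^ 12 * G ∈ Vs ∧ (D (red' t) ^ 12 * G)⁻¹ ∈ Vs := by
  obtain ⟨z, v, e₀, a, hz, hxz0, hxz, hv0, hv, hvi, hGf, hea, hdvd⟩ := hS
  have hSub : ∀ y ∈ red'.range, y ∈ Vs := by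
    rintro _ ⟨y, rfl⟩
    exact hVs.2 y
  have hliftS : ∀ c ∈ Vs, ∃ a ∈ red'.range, ∃ b ∈ red'.range, b ∉ Vs.nonunits ∧ a = c * b := by
    intro c hc
    obtain ⟨a, b, hb, hab⟩ := H.lift Vs hVs c hc
    exact ⟨red' a, ⟨a, rfl⟩, red' b, ⟨b, rfl⟩, hb, hab⟩
  have hbd : ∀ y ∈ red'.range, D₂ y = 0 ∨ 0 ≤ 12 * hτ.ord (D₂ y) + hτ.ord G₂ := by
    rintro _ ⟨y, rfl⟩
    exact bound_switch H hG0 Vs hVs hτ hG₂0 hsw y
  have hG : (e₀ : ℤ) * hτ.ord G₂ = 12 * ((e₀ : ℤ) - 1) * hτ.ord (red' x₂ - z) :=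
    Ell.ord_eq_mul_of_eq_pow_mul hτ hxz0 hv0 hv hvi hGf hea
  obtain ⟨hle, -, hE⟩ := le_and_unit_certificate hD₂ hτ red'.range hSub hliftS hx₂ hz
    hxz0 hxz hG₂0 hG hbd
  have hord : hτ.ord (red' x₂ - z) = e₀ := Ell.ord_eq_of_dvd hτ hxz0 hxz hle (hdvd τ hτ)
  obtain ⟨h1, h2, h3⟩ := hE hord (red' t) ⟨t, rfl⟩ ht
  have h4 : D₂ (red' t) ^ 12 * G₂ = D (red' t) ^ 12 * G := hsw _
  rw [h4] at h2 h3
  refine ⟨?_, h2, h3⟩
  intro h0
  have h5 : D₂ (red' t) ^ 12 * G₂ = 0 := by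
    rw [h4, h0]
    simp
  exact mul_ne_zero (pow_ne_zero _ h1) hG₂0 h5

/-- **The hypothesis `hell` of `Contract.ufm_pointRing`**: at every finite place there is either
a direct certificate, or an elliptic structure in a switched triple `(D₂, x₂, G₂)`. -/
theorem hell_of_switch [IsNoetherianRing B] [IsIntegrallyClosed B]
    (H : Contract O red hred hBO red' π₀ π₂ D q x' u u₁ v₁ h Db G N e) (hG0 : G ≠ 0)
    (hdvr : ∀ Vs : ValuationSubring κ, IsFinPlace red' Vs → ∃ τ : κ, IsUnif Vs τ)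
    (hS : ∀ Vs : ValuationSubring κ, IsFinPlace red' Vs →
      (∃ y : B', D (red' y) ≠ 0 ∧ D (red' y) ^ 12 * G ∉ Vs.nonunits) ∨
      ∃ (D₂ : κ → κ) (x₂ : B') (G₂ : κ), IsDeriv D₂ ∧ D₂ (red' x₂) = 1 ∧ G₂ ≠ 0 ∧
        (∀ y : κ, D₂ y ^ 12 * G₂ = D y ^ 12 * G) ∧ EllC.EllStruct D₂ (red' x₂) G₂ Vs) :
    ∀ Vs : ValuationSubring κ, IsFinPlace red' Vs →
      ∃ y : B', D (red' y) ≠ 0 ∧ D (red' y) ^ 12 * G ∉ Vs.nonunits := by
  intro Vs hVs
  rcases hS Vs hVs with hdir | ⟨D₂, x₂, G₂, hD₂, hx₂, hG₂0, hsw, hSt⟩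
  · exact hdir
  · obtain ⟨τ, hτ⟩ := hdvr Vs hVs
    obtain ⟨t, ht⟩ := OffMid.exists_lift_unif red' hτ hVs.2 (H.lift Vs hVs)
    obtain ⟨h1, -, h3⟩ := exists_unit_cert_switch H hG0 Vs hVs hτ hD₂ x₂ hx₂ hG₂0 hsw hSt t ht
    exact ⟨t, h1, Ell.notMem_nonunits_of_inv_mem Vs (mul_ne_zero (pow_ne_zero _ h1) hG0) h3⟩

/-- **Every closed point of the finite chart over `q` is factorial**, from the contract and, at
every finite place, a direct certificate or an elliptic structure in a switched triple. -/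
theorem ufm_pointRing_of_switch [IsNoetherianRing B] [IsIntegrallyClosed B]
    (H : Contract O red hred hBO red' π₀ π₂ D q x' u u₁ v₁ h Db G N e) (hG0 : G ≠ 0)
    (hdvr : ∀ Vs : ValuationSubring κ, IsFinPlace red' Vs → ∃ τ : κ, IsUnif Vs τ)
    (hS : ∀ Vs : ValuationSubring κ, IsFinPlace red' Vs →
      (∃ y : B', D (red' y) ≠ 0 ∧ D (red' y) ^ 12 * G ∉ Vs.nonunits) ∨
      ∃ (D₂ : κ → κ) (x₂ : B') (G₂ : κ), IsDeriv D₂ ∧ D₂ (red' x₂) = 1 ∧ G₂ ≠ 0 ∧
        (∀ y : κ, D₂ y ^ 12 * G₂ = D y ^ 12 * G) ∧ EllC.EllStruct D₂ (red' x₂) G₂ Vs)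
    (𝔪 : Ideal B) [𝔪.IsMaximal] (hq : q ∈ 𝔪) :
    UniqueFactorizationMonoid (pointRing F 𝔪) :=
  H.ufm_pointRing (hell_of_switch H hG0 hdvr hS) 𝔪 hq

end Abstract

section Kappa

open AlgebraicCurve IntermediateField ModularCurve Fermat.Agent.CAR.Local.ThetaJ
open Fermat.Agent.Lib.FF.ModL

variable (k : Type*) [Field k] [IsAlgClosed k] (N : ℕ) [NeZero N]

/-- A map `D` with `θ y = (D y) · θ J̄` is `d/dJ̄`. -/
theorem eq_dJ_of_series (D : modularFunctionFieldFullC k N → modularFunctionFieldFullC k N)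
    (hD : ∀ y : modularFunctionFieldFullC k N,
      thetaL k (y : LaurentSeries k) = (D y : LaurentSeries k) * thetaL k (jqModC k)) :
    D = Deriv.dJ k N := by
  funext y
  have h1 := hD y
  rw [Deriv.thetaL_eq_dJ_mul k N y] at h1
  exact (Subtype.ext (mul_right_cancel₀ (thetaL_jq_ne_zero k) h1)).symm

/-- A function `G` with `G · Δ̄² = (θ J̄)^12` is `J̄^8 (J̄ - 1728)^6`. -/
theorem eq_GJ_of_series (G : modularFunctionFieldFullC k N)
    (hG : (G : LaurentSeries k) * deltaL k ^ 2 = thetaL k (jqModC k) ^ 12) :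
    G = Deriv.GJ k N := by
  rw [← Deriv.GJ_mul_delta_sq k N] at hG
  exact Subtype.ext (mul_right_cancel₀ (pow_ne_zero 2 (deltaL_ne_zero k)) hG)

/-- **The switching identity**: if `G₂ · Δ̄² = (θ x̄)^12` then
`(dy/dx̄)^12 · G₂ = (dy/dJ̄)^12 · J̄^8 (J̄ - 1728)^6` for every `y`. -/
theorem dX_pow_mul_eq {x : modularFunctionFieldFullC k N}
    (hx : thetaL k (x : LaurentSeries k) ≠ 0) (G₂ : modularFunctionFieldFullC k N)
    (hG₂ : (G₂ : LaurentSeries k) * deltaL k ^ 2 = thetaL k (x : LaurentSeries k) ^ 12)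
    (y : modularFunctionFieldFullC k N) :
    Deriv.dX k N x y ^ 12 * G₂ = Deriv.dJ k N y ^ 12 * Deriv.GJ k N := by
  have hx' : Deriv.dJ k N x ≠ 0 := fun h0 => hx ((Deriv.dJ_eq_zero_iff k N x).1 h0)
  have h1 := Deriv.thetaL_pow_twelve_eq k N hx' G₂ hG₂ y
  have h2 : thetaL k (y : LaurentSeries k) ^ 12 =
      ((Deriv.dJ k N y ^ 12 * Deriv.GJ k N : modularFunctionFieldFullC k N) :
        LaurentSeries k) * deltaL k ^ 2 := by
    rw [Deriv.thetaL_eq_dJ_mul k N y, mul_pow, ← Deriv.GJ_mul_delta_sq k N]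
    have h3 : ((Deriv.dJ k N y ^ 12 * Deriv.GJ k N : modularFunctionFieldFullC k N) :
        LaurentSeries k) = (Deriv.dJ k N y : LaurentSeries k) ^ 12 *
          (Deriv.GJ k N : LaurentSeries k) := rfl
    rw [h3]
    ring
  rw [h1] at h2
  exact Subtype.ext (mul_right_cancel₀ (pow_ne_zero 2 (deltaL_ne_zero k)) h2)

end Kappa

section Final

open AlgebraicCurve IntermediateField ModularCurve Fermat.Agent.CAR.Local.ThetaJ
open Fermat.Agent.Lib.FF.ModL

variable (k : Type*) [Field k] [IsAlgClosed k] (N : ℕ) [NeZero N]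

variable {B B' F : Type*} [CommRing B] [IsDomain B] [Field F] [Algebra B F]
  [IsFractionRing B F] [CommRing B']

omit [IsAlgClosed k] in
/-- **Elliptic structure from one factor of the certificate function**, at a finite place, with
(E-a)+(E-b) required only at the finite places (`Place` form). -/
theorem ellStruct_of_factor_fin (red' : B' →+* modularFunctionFieldFullC k N)
    (x : modularFunctionFieldFullC k N)
    (D₂ : modularFunctionFieldFullC k N → modularFunctionFieldFullC k N)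
    (G₂ : modularFunctionFieldFullC k N) (c : k) (a e₀ : ℕ) (v : modularFunctionFieldFullC k N)
    (hDc : D₂ (algebraMap k (modularFunctionFieldFullC k N) c) = 0)
    (hG : G₂ = (x - algebraMap k (modularFunctionFieldFullC k N) c) ^ a * v)
    (hea : (e₀ : ℤ) * a = 12 * ((e₀ : ℤ) - 1))
    (hE : ∀ s : Place k (modularFunctionFieldFullC k N), (∀ y : B', 0 ≤ s.ord (red' y)) →
      0 < s.ord (x - algebraMap k (modularFunctionFieldFullC k N) c) →
      (e₀ : ℤ) ∣ s.ord (x - algebraMap k (modularFunctionFieldFullC k N) c))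
    (Vs : ValuationSubring (modularFunctionFieldFullC k N)) (hVs : IsFinPlace red' Vs)
    (hk : ∀ c : k, algebraMap k (modularFunctionFieldFullC k N) c ∈ Vs)
    (hx0 : x - algebraMap k (modularFunctionFieldFullC k N) c ≠ 0)
    (hxc : x - algebraMap k (modularFunctionFieldFullC k N) c ∈ Vs.nonunits)
    (hv0 : v ≠ 0) (hv : v ∈ Vs) (hvi : v⁻¹ ∈ Vs) :
    EllC.EllStruct D₂ x G₂ Vs := by
  have hfd : FiniteDimensional k⟮Jbar k N⟯ (modularFunctionFieldFullC k N) :=
    finiteDimensional_Jbar k N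
  refine ⟨algebraMap k (modularFunctionFieldFullC k N) c, v, e₀, a, hDc, hx0, hxc, hv0, hv, hvi,
    hG, hea, ?_⟩
  intro τ hτ
  have h1 : hτ.ord (x - algebraMap k (modularFunctionFieldFullC k N) c) =
      (Fermat.Agent.Lib.FF.Holo.placeOfValuationSubring (Jbar k N) Vs hk hVs.1).ord
        (x - algebraMap k (modularFunctionFieldFullC k N) c) :=
    PlaceBridge.isUnif_ord_eq
      (Fermat.Agent.Lib.FF.Holo.placeOfValuationSubring (Jbar k N) Vs hk hVs.1) (τ := τ) hτ
      (x - algebraMap k (modularFunctionFieldFullC k N) c)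
  rw [h1]
  apply hE
  · intro y
    exact Fermat.Agent.S24.ord_nonneg_of_mem
      (Fermat.Agent.Lib.FF.Holo.placeOfValuationSubring (Jbar k N) Vs hk hVs.1) (hVs.2 y)
  · exact (PlaceBridge.mem_nonunits_iff
      (Fermat.Agent.Lib.FF.Holo.placeOfValuationSubring (Jbar k N) Vs hk hVs.1) hx0).1 hxc

variable {O : Fin 3 → ValuationSubring F} {red : ∀ i, O i →+* modularFunctionFieldFullC k N}
  {hred : ∀ i, ∀ x : O i, red i x = 0 ↔ x ∈ maximalIdeal (O i)}
  {hBO : ∀ i, ∀ b : B, algebraMap B F b ∈ O i}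
  {red' : B' →+* modularFunctionFieldFullC k N} {π₀ π₂ : B' →+* B}
  {D : modularFunctionFieldFullC k N → modularFunctionFieldFullC k N}
  {q : B} {x' : B'} {u u₁ v₁ h : B} {Db G : modularFunctionFieldFullC k N} {N' e : ℕ}

/-- **`hell` through a Hauptmodul.**  The contract is written with `D = d/dJ̄` and
`G = J̄^8 (J̄ - 1728)^6` (given by their series characterisations `hD`, `hG`); `yh` is a unit of
`B'` (`hyy`) whose reduction `x̄` satisfies `x̄^b (x̄ - c)^a · Δ̄² = (θ x̄)^12` with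
`e₀ a = 12 (e₀ - 1)`, and the zeros of `x̄ - c` at the finite places have order divisible by
`e₀`. -/
theorem hell_haupt [IsNoetherianRing B] [IsIntegrallyClosed B]
    (H : Contract O red hred hBO red' π₀ π₂ D q x' u u₁ v₁ h Db G N' e)
    (hD : ∀ y : modularFunctionFieldFullC k N,
      thetaL k (y : LaurentSeries k) = (D y : LaurentSeries k) * thetaL k (jqModC k))
    (hG : (G : LaurentSeries k) * deltaL k ^ 2 = thetaL k (jqModC k) ^ 12)
    (hk : ∀ Vs : ValuationSubring (modularFunctionFieldFullC k N), IsFinPlace red' Vs →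
      ∀ c : k, algebraMap k (modularFunctionFieldFullC k N) c ∈ Vs)
    (yh yi : B') (hyy : red' yh * red' yi = 1)
    (c : k) (a b e₀ : ℕ) (hea : (e₀ : ℤ) * a = 12 * ((e₀ : ℤ) - 1))
    (hG₂ : ((red' yh ^ b * (red' yh - algebraMap k (modularFunctionFieldFullC k N) c) ^ a :
        modularFunctionFieldFullC k N) : LaurentSeries k) * deltaL k ^ 2 =
      thetaL k ((red' yh : modularFunctionFieldFullC k N) : LaurentSeries k) ^ 12)
    (hθ : thetaL k ((red' yh : modularFunctionFieldFullC k N) : LaurentSeries k) ≠ 0)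
    (hE : ∀ s : Place k (modularFunctionFieldFullC k N), (∀ y : B', 0 ≤ s.ord (red' y)) →
      0 < s.ord (red' yh - algebraMap k (modularFunctionFieldFullC k N) c) →
      (e₀ : ℤ) ∣ s.ord (red' yh - algebraMap k (modularFunctionFieldFullC k N) c)) :
    ∀ Vs : ValuationSubring (modularFunctionFieldFullC k N), IsFinPlace red' Vs →
      ∃ y : B', D (red' y) ≠ 0 ∧ D (red' y) ^ 12 * G ∉ Vs.nonunits := by
  have hDeq := eq_dJ_of_series k N D hD
  have hGeq := eq_GJ_of_series k N G hG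
  have hfd : FiniteDimensional k⟮Jbar k N⟯ (modularFunctionFieldFullC k N) :=
    finiteDimensional_Jbar k N
  have hx' : Deriv.dJ k N (red' yh) ≠ 0 := fun h0 =>
    hθ ((Deriv.dJ_eq_zero_iff k N (red' yh)).1 h0)
  have hxc0 : red' yh - algebraMap k (modularFunctionFieldFullC k N) c ≠ 0 := by
    intro h0
    apply hx'
    rw [sub_eq_zero.1 h0]
    exact Deriv.dJ_algebraMap k N c
  have hx0 : red' yh ≠ 0 := by
    intro h0
    rw [h0, zero_mul] at hyy
    exact zero_ne_one hyy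
  have hxi : (red' yh)⁻¹ = red' yi := by
    rw [eq_comm, ← mul_right_inj' hx0, hyy, mul_inv_cancel₀ hx0]
  have hG0 : G ≠ 0 := hGeq ▸ Deriv.GJ_ne_zero k N
  have hsw : ∀ y : modularFunctionFieldFullC k N,
      Deriv.dX k N (red' yh) y ^ 12 *
        (red' yh ^ b * (red' yh - algebraMap k (modularFunctionFieldFullC k N) c) ^ a) =
      D y ^ 12 * G := by
    intro y
    rw [hDeq, hGeq]
    exact dX_pow_mul_eq k N hθ _ hG₂ y
  refine hell_of_switch H hG0
    (fun Vs hVs => EllJ.exists_isUnif_of_ne_top (Jbar k N) Vs (hk Vs hVs) hVs.1) ?_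
  intro Vs hVs
  have hxV : red' yh ∈ Vs := hVs.2 yh
  have hxiV : (red' yh)⁻¹ ∈ Vs := hxi ▸ hVs.2 yi
  by_cases hxc : red' yh - algebraMap k (modularFunctionFieldFullC k N) c ∈ Vs.nonunits
  · right
    refine ⟨Deriv.dX k N (red' yh), yh,
      red' yh ^ b * (red' yh - algebraMap k (modularFunctionFieldFullC k N) c) ^ a,
      Deriv.isDeriv_dX k N (red' yh), Deriv.dX_self k N hx',
      mul_ne_zero (pow_ne_zero _ hx0) (pow_ne_zero _ hxc0), hsw, ?_⟩
    refine ellStruct_of_factor_fin k N red' (red' yh) _ _ c a e₀ (red' yh ^ b)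
      (Deriv.dX_algebraMap k N (red' yh) c) (mul_comm _ _) hea hE Vs hVs (hk Vs hVs) hxc0 hxc
      (pow_ne_zero _ hx0) (Vs.pow_mem hxV b) ?_
    rw [← inv_pow]
    exact Vs.pow_mem hxiV b
  · left
    refine ⟨yh, ?_, ?_⟩
    · intro h0
      have h1 := hsw (red' yh)
      rw [h0, Deriv.dX_self k N hx', one_pow, one_mul, zero_pow (by norm_num), zero_mul] at h1
      exact mul_ne_zero (pow_ne_zero _ hx0) (pow_ne_zero _ hxc0) h1
    · rw [← hsw (red' yh), Deriv.dX_self k N hx', one_pow, one_mul]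
      obtain ⟨-, hci⟩ := Ell.ne_zero_and_inv_mem_of_notMem_nonunits Vs hxc
      apply Ell.notMem_nonunits_of_inv_mem Vs
        (mul_ne_zero (pow_ne_zero _ hx0) (pow_ne_zero _ hxc0))
      rw [mul_inv, ← inv_pow, ← inv_pow]
      exact Vs.mul_mem _ _ (Vs.pow_mem hxiV b) (Vs.pow_mem hci a)

/-- **Factoriality of the closed points through a Hauptmodul** (`hell_haupt` fed to
`Contract.ufm_pointRing`). -/
theorem ufm_pointRing_haupt [IsNoetherianRing B] [IsIntegrallyClosed B]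
    (H : Contract O red hred hBO red' π₀ π₂ D q x' u u₁ v₁ h Db G N' e)
    (hD : ∀ y : modularFunctionFieldFullC k N,
      thetaL k (y : LaurentSeries k) = (D y : LaurentSeries k) * thetaL k (jqModC k))
    (hG : (G : LaurentSeries k) * deltaL k ^ 2 = thetaL k (jqModC k) ^ 12)
    (hk : ∀ Vs : ValuationSubring (modularFunctionFieldFullC k N), IsFinPlace red' Vs →
      ∀ c : k, algebraMap k (modularFunctionFieldFullC k N) c ∈ Vs)
    (yh yi : B') (hyy : red' yh * red' yi = 1)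
    (c : k) (a b e₀ : ℕ) (hea : (e₀ : ℤ) * a = 12 * ((e₀ : ℤ) - 1))
    (hG₂ : ((red' yh ^ b * (red' yh - algebraMap k (modularFunctionFieldFullC k N) c) ^ a :
        modularFunctionFieldFullC k N) : LaurentSeries k) * deltaL k ^ 2 =
      thetaL k ((red' yh : modularFunctionFieldFullC k N) : LaurentSeries k) ^ 12)
    (hθ : thetaL k ((red' yh : modularFunctionFieldFullC k N) : LaurentSeries k) ≠ 0)
    (hE : ∀ s : Place k (modularFunctionFieldFullC k N), (∀ y : B', 0 ≤ s.ord (red' y)) →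
      0 < s.ord (red' yh - algebraMap k (modularFunctionFieldFullC k N) c) →
      (e₀ : ℤ) ∣ s.ord (red' yh - algebraMap k (modularFunctionFieldFullC k N) c))
    (𝔪 : Ideal B) [𝔪.IsMaximal] (hq : q ∈ 𝔪) :
    UniqueFactorizationMonoid (pointRing F 𝔪) :=
  H.ufm_pointRing (hell_haupt k N H hD hG hk yh yi hyy c a b e₀ hea hG₂ hθ hE) 𝔪 hq

/-- **`hell` for the Hauptmodul of level `2`** (residue characteristic `3`):
`(θ x̄)^12 = x̄^8 (x̄ + 64)^6 Δ̄²`, `e₀ = 2`. -/
theorem hell_haupt2 [IsNoetherianRing B] [IsIntegrallyClosed B]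
    (H : Contract O red hred hBO red' π₀ π₂ D q x' u u₁ v₁ h Db G N' e)
    (hD : ∀ y : modularFunctionFieldFullC k N,
      thetaL k (y : LaurentSeries k) = (D y : LaurentSeries k) * thetaL k (jqModC k))
    (hG : (G : LaurentSeries k) * deltaL k ^ 2 = thetaL k (jqModC k) ^ 12)
    (hk : ∀ Vs : ValuationSubring (modularFunctionFieldFullC k N), IsFinPlace red' Vs →
      ∀ c : k, algebraMap k (modularFunctionFieldFullC k N) c ∈ Vs)
    (yh yi : B') (hyy : red' yh * red' yi = 1)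
    (hG₂ : ((red' yh ^ 8 * (red' yh + 64) ^ 6 :
        modularFunctionFieldFullC k N) : LaurentSeries k) * deltaL k ^ 2 =
      thetaL k ((red' yh : modularFunctionFieldFullC k N) : LaurentSeries k) ^ 12)
    (hθ : thetaL k ((red' yh : modularFunctionFieldFullC k N) : LaurentSeries k) ≠ 0)
    (hE : ∀ s : Place k (modularFunctionFieldFullC k N), (∀ y : B', 0 ≤ s.ord (red' y)) →
      0 < s.ord (red' yh + 64) → (2 : ℤ) ∣ s.ord (red' yh + 64)) :
    ∀ Vs : ValuationSubring (modularFunctionFieldFullC k N), IsFinPlace red' Vs →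
      ∃ y : B', D (red' y) ≠ 0 ∧ D (red' y) ^ 12 * G ∉ Vs.nonunits := by
  have hc : red' yh - algebraMap k (modularFunctionFieldFullC k N) (-64) = red' yh + 64 := by
    rw [map_neg, sub_neg_eq_add, map_ofNat]
  refine hell_haupt k N H hD hG hk yh yi hyy (-64) 6 8 2 (by norm_num) ?_ hθ ?_
  · rw [hc]
    exact hG₂
  · intro s hs
    rw [hc]
    exact hE s hs

/-- **`hell` for the Hauptmodul of level `3`** (residue characteristic `2`):
`(θ x̄)^12 = x̄^6 (x̄ + 27)^8 Δ̄²`, `e₀ = 3`. -/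
theorem hell_haupt3 [IsNoetherianRing B] [IsIntegrallyClosed B]
    (H : Contract O red hred hBO red' π₀ π₂ D q x' u u₁ v₁ h Db G N' e)
    (hD : ∀ y : modularFunctionFieldFullC k N,
      thetaL k (y : LaurentSeries k) = (D y : LaurentSeries k) * thetaL k (jqModC k))
    (hG : (G : LaurentSeries k) * deltaL k ^ 2 = thetaL k (jqModC k) ^ 12)
    (hk : ∀ Vs : ValuationSubring (modularFunctionFieldFullC k N), IsFinPlace red' Vs →
      ∀ c : k, algebraMap k (modularFunctionFieldFullC k N) c ∈ Vs)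
    (yh yi : B') (hyy : red' yh * red' yi = 1)
    (hG₂ : ((red' yh ^ 6 * (red' yh + 27) ^ 8 :
        modularFunctionFieldFullC k N) : LaurentSeries k) * deltaL k ^ 2 =
      thetaL k ((red' yh : modularFunctionFieldFullC k N) : LaurentSeries k) ^ 12)
    (hθ : thetaL k ((red' yh : modularFunctionFieldFullC k N) : LaurentSeries k) ≠ 0)
    (hE : ∀ s : Place k (modularFunctionFieldFullC k N), (∀ y : B', 0 ≤ s.ord (red' y)) →
      0 < s.ord (red' yh + 27) → (3 : ℤ) ∣ s.ord (red' yh + 27)) :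
    ∀ Vs : ValuationSubring (modularFunctionFieldFullC k N), IsFinPlace red' Vs →
      ∃ y : B', D (red' y) ≠ 0 ∧ D (red' y) ^ 12 * G ∉ Vs.nonunits := by
  have hc : red' yh - algebraMap k (modularFunctionFieldFullC k N) (-27) = red' yh + 27 := by
    rw [map_neg, sub_neg_eq_add, map_ofNat]
  refine hell_haupt k N H hD hG hk yh yi hyy (-27) 8 6 3 (by norm_num) ?_ hθ ?_
  · rw [hc]
    exact hG₂
  · intro s hs
    rw [hc]
    exact hE s hs

/-- **`hell` for `x' = J` in characteristic `≠ 2, 3`**, with (E-a)+(E-b) required only at the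
finite places (`Place` form). -/
theorem hell_J [IsNoetherianRing B] [IsIntegrallyClosed B]
    (H : Contract O red hred hBO red' π₀ π₂ D q x' u u₁ v₁ h Db G N' e)
    (hD : ∀ y : modularFunctionFieldFullC k N,
      thetaL k (y : LaurentSeries k) = (D y : LaurentSeries k) * thetaL k (jqModC k))
    (hG : (G : LaurentSeries k) * deltaL k ^ 2 = thetaL k (jqModC k) ^ 12)
    (hk : ∀ Vs : ValuationSubring (modularFunctionFieldFullC k N), IsFinPlace red' Vs →
      ∀ c : k, algebraMap k (modularFunctionFieldFullC k N) c ∈ Vs)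
    (hx' : red' x' = Jbar k N) (h2 : (2 : k) ≠ 0) (h3 : (3 : k) ≠ 0)
    (hE0 : ∀ s : Place k (modularFunctionFieldFullC k N), (∀ y : B', 0 ≤ s.ord (red' y)) →
      0 < s.ord (Jbar k N) → (3 : ℤ) ∣ s.ord (Jbar k N))
    (hE1728 : ∀ s : Place k (modularFunctionFieldFullC k N), (∀ y : B', 0 ≤ s.ord (red' y)) →
      0 < s.ord (Jbar k N - algebraMap k (modularFunctionFieldFullC k N) 1728) →
      (2 : ℤ) ∣ s.ord (Jbar k N - algebraMap k (modularFunctionFieldFullC k N) 1728)) :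
    ∀ Vs : ValuationSubring (modularFunctionFieldFullC k N), IsFinPlace red' Vs →
      ∃ y : B', D (red' y) ≠ 0 ∧ D (red' y) ^ 12 * G ∉ Vs.nonunits := by
  have hDeq := eq_dJ_of_series k N D hD
  have hGeq := eq_GJ_of_series k N G hG
  subst hDeq
  subst hGeq
  have hfd : FiniteDimensional k⟮Jbar k N⟯ (modularFunctionFieldFullC k N) :=
    finiteDimensional_Jbar k N
  have h1728 : (1728 : k) ≠ 0 := by
    have h : (1728 : k) = 2 ^ 6 * 3 ^ 3 := by norm_num
    rw [h]
    exact mul_ne_zero (pow_ne_zero _ h2) (pow_ne_zero _ h3)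
  have hc1728 : algebraMap k (modularFunctionFieldFullC k N) 1728 = 1728 := map_ofNat _ 1728
  have hc0 : algebraMap k (modularFunctionFieldFullC k N) 0 = 0 := map_zero _
  have hJ0 : Jbar k N ≠ 0 := fun h => (transcendental_Jbar k N) (h ▸ isAlgebraic_zero)
  have hJ10 : Jbar k N - 1728 ≠ 0 := by
    intro h
    apply transcendental_Jbar k N
    rw [sub_eq_zero.1 h, ← hc1728]
    exact isAlgebraic_algebraMap _
  have hGdef : Deriv.GJ k N = Jbar k N ^ 8 * (Jbar k N - 1728) ^ 6 := rfl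
  refine hell_of_switch H (Deriv.GJ_ne_zero k N)
    (fun Vs hVs => EllJ.exists_isUnif_of_ne_top (Jbar k N) Vs (hk Vs hVs) hVs.1) ?_
  intro Vs hVs
  have hJ : Jbar k N ∈ Vs := hx' ▸ hVs.2 x'
  have hJ1 : Jbar k N - 1728 ∈ Vs := by
    rw [← hc1728]
    exact sub_mem hJ (hk Vs hVs 1728)
  -- the two factors cannot both vanish
  have hnot : ¬ (Jbar k N ∈ Vs.nonunits ∧ Jbar k N - 1728 ∈ Vs.nonunits) := by
    rintro ⟨ha, hb⟩
    have h : algebraMap k (modularFunctionFieldFullC k N) 1728 ∈ Vs.nonunits := by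
      have h' : algebraMap k (modularFunctionFieldFullC k N) 1728 =
          Jbar k N - (Jbar k N - 1728) := by
        rw [hc1728]
        ring
      rw [h']
      exact Vs.nonunits.sub_mem ha hb
    exact EllJ.const_notMem_nonunits Vs (hk Vs hVs) h1728 h
  by_cases hGV : Deriv.GJ k N ∈ Vs.nonunits
  · right
    refine ⟨Deriv.dJ k N, x', Deriv.GJ k N, Deriv.isDeriv_dJ k N, ?_, Deriv.GJ_ne_zero k N,
      fun _ => rfl, ?_⟩
    · rw [hx']
      exact Deriv.dJ_Jbar k N
    rw [hx']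
    rw [hGdef] at hGV
    rcases EllJ.mem_nonunits_or_of_mul Vs hGV with h | h
    · -- `J̄(s) = 0`
      have hJm : Jbar k N ∈ Vs.nonunits := EllJ.mem_nonunits_of_pow Vs h
      have hJ1u : Jbar k N - 1728 ∉ Vs.nonunits := fun hb => hnot ⟨hJm, hb⟩
      obtain ⟨-, hJ1i⟩ := Ell.ne_zero_and_inv_mem_of_notMem_nonunits Vs hJ1u
      refine ellStruct_of_factor_fin k N red' (Jbar k N) (Deriv.dJ k N) (Deriv.GJ k N) 0 8 3
        ((Jbar k N - 1728) ^ 6) (Deriv.dJ_algebraMap k N 0) ?_ (by norm_num) ?_ Vs hVs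
        (hk Vs hVs) ?_ ?_ (pow_ne_zero _ hJ10) (pow_mem hJ1 6)
        (by rw [← inv_pow]; exact pow_mem hJ1i 6)
      · rw [hGdef, hc0, sub_zero]
      · intro s hs
        rw [hc0, sub_zero]
        exact hE0 s hs
      · rw [hc0, sub_zero]
        exact hJ0
      · rw [hc0, sub_zero]
        exact hJm
    · -- `J̄(s) = 1728`
      have hJ1m : Jbar k N - 1728 ∈ Vs.nonunits := EllJ.mem_nonunits_of_pow Vs h
      have hJu : Jbar k N ∉ Vs.nonunits := fun ha => hnot ⟨ha, hJ1m⟩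
      obtain ⟨-, hJi⟩ := Ell.ne_zero_and_inv_mem_of_notMem_nonunits Vs hJu
      refine ellStruct_of_factor_fin k N red' (Jbar k N) (Deriv.dJ k N) (Deriv.GJ k N) 1728 6 2
        (Jbar k N ^ 8) (Deriv.dJ_algebraMap k N 1728) ?_ (by norm_num) hE1728 Vs hVs
        (hk Vs hVs) ?_ ?_ (pow_ne_zero _ hJ0) (pow_mem hJ 8)
        (by rw [← inv_pow]; exact pow_mem hJi 8)
      · rw [hGdef, hc1728]
        ring
      · rw [hc1728]
        exact hJ10
      · rw [hc1728]
        exact hJ1m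
  · left
    refine ⟨x', ?_, ?_⟩
    · rw [hx', Deriv.dJ_Jbar]
      exact one_ne_zero
    · rw [hx', Deriv.dJ_Jbar, one_pow, one_mul]
      exact hGV

/-- **Factoriality of the closed points for `x' = J` in characteristic `≠ 2, 3`** (`hell_J` fed to
`Contract.ufm_pointRing`). -/
theorem ufm_pointRing_J [IsNoetherianRing B] [IsIntegrallyClosed B]
    (H : Contract O red hred hBO red' π₀ π₂ D q x' u u₁ v₁ h Db G N' e)
    (hD : ∀ y : modularFunctionFieldFullC k N,
      thetaL k (y : LaurentSeries k) = (D y : LaurentSeries k) * thetaL k (jqModC k))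
    (hG : (G : LaurentSeries k) * deltaL k ^ 2 = thetaL k (jqModC k) ^ 12)
    (hk : ∀ Vs : ValuationSubring (modularFunctionFieldFullC k N), IsFinPlace red' Vs →
      ∀ c : k, algebraMap k (modularFunctionFieldFullC k N) c ∈ Vs)
    (hx' : red' x' = Jbar k N) (h2 : (2 : k) ≠ 0) (h3 : (3 : k) ≠ 0)
    (hE0 : ∀ s : Place k (modularFunctionFieldFullC k N), (∀ y : B', 0 ≤ s.ord (red' y)) →
      0 < s.ord (Jbar k N) → (3 : ℤ) ∣ s.ord (Jbar k N))
    (hE1728 : ∀ s : Place k (modularFunctionFieldFullC k N), (∀ y : B', 0 ≤ s.ord (red' y)) →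
      0 < s.ord (Jbar k N - algebraMap k (modularFunctionFieldFullC k N) 1728) →
      (2 : ℤ) ∣ s.ord (Jbar k N - algebraMap k (modularFunctionFieldFullC k N) 1728))
    (𝔪 : Ideal B) [𝔪.IsMaximal] (hq : q ∈ 𝔪) :
    UniqueFactorizationMonoid (pointRing F 𝔪) :=
  H.ufm_pointRing (hell_J k N H hD hG hk hx' h2 h3 hE0 hE1728) 𝔪 hq

end Final

end Fermat.Agent.CAR.Local.Inst.EllSwitch
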