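import Mathlib
import Fermat.Agent.CAR.Local.Inst.EllSwitch

/-!
# CAR-17 (P-3), elliptic part: the certificate identities of the Hauptmoduln from the modular
relation

For a field `Λ` with a derivation `θ` and elements `J`, `Δ` with

  `(θ J)^12 = J^8 (J - 1728)^6 Δ²`,

a function `h` with `J h² = (h + 256)³` (the Hauptmodul of level `2`) satisfies
`θ J · h³ = θ h · (h + 256)² (h - 512)` and hence

  `(θ h)^12 = h^8 (h + 64)^6 Δ²`,

and a function `t` with `J t³ = (t + 27)(t + 243)³` (the Hauptmodul of level `3`) satisfies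
`θ J · t⁴ = θ t · (t + 243)² (t² - 486 t - 19683)` and hence

  `(θ t)^12 = t^6 (t + 27)^8 Δ²`.

These are the hypotheses `hG₂`, `hθ` of `EllSwitch.hell_haupt2`, `EllSwitch.hell_haupt3`; the
end products `hell_rel2`, `hell_rel3` derive the hypothesis `hell` of `Contract.ufm_pointRing` in
residue characteristic `3` resp. `2` from a unit `yh` of `B'` whose reduction satisfies the
modular relation with `J̄`, and (E-a)+(E-b) for it.
-/

set_option autoImplicit false

namespace Fermat.Agent.CAR.Local.Inst.EllRel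

section Algebra

open Fermat.Agent.CAR.Local.EllOrder

variable {Λ : Type*} [Field Λ] {θ : Λ → Λ}

theorem theta_natCast (hθ : IsDeriv θ) (n : ℕ) : θ (n : Λ) = 0 := by
  induction n with
  | zero => simpa using hθ.zero
  | succ m ih => rw [Nat.cast_succ, hθ.add, ih, hθ.one, add_zero]

theorem theta_ofNat (hθ : IsDeriv θ) (n : ℕ) [n.AtLeastTwo] : θ (OfNat.ofNat n : Λ) = 0 := by
  rw [← Nat.cast_ofNat (R := Λ)]
  exact theta_natCast hθ n

theorem theta_sq (hθ : IsDeriv θ) (a : Λ) : θ (a ^ 2) = 2 * a * θ a := by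
  have h := hθ.pow_succ a 1
  rw [pow_one] at h
  rw [h]
  push_cast
  ring

theorem theta_cube (hθ : IsDeriv θ) (a : Λ) : θ (a ^ 3) = 3 * a ^ 2 * θ a := by
  have h := hθ.pow_succ a 2
  rw [h]
  push_cast
  ring

/-- Level `2`: the derivative of the modular relation. -/
theorem theta_rel2 (hθ : IsDeriv θ) {J h : Λ} (hrel : J * h ^ 2 = (h + 256) ^ 3) :
    θ J * h ^ 3 = θ h * ((h + 256) ^ 2 * (h - 512)) := by
  have h0 := congrArg θ hrel
  rw [hθ.mul, theta_sq hθ, theta_cube hθ, hθ.add, theta_ofNat hθ 256, add_zero] at h0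
  linear_combination h * h0 - 2 * θ h * hrel

/-- Level `2`: **`(θ h)^12 = h^8 (h + 64)^6 Δ²`**. -/
theorem theta_pow_twelve_rel2 (hθ : IsDeriv θ) {J h Δ : Λ} (hrel : J * h ^ 2 = (h + 256) ^ 3)
    (hJ : θ J ^ 12 = J ^ 8 * (J - 1728) ^ 6 * Δ ^ 2) (h1 : h + 256 ≠ 0) (h2 : h - 512 ≠ 0) :
    θ h ^ 12 = h ^ 8 * (h + 64) ^ 6 * Δ ^ 2 := by
  have key := theta_rel2 hθ hrel
  have hP : ((h + 256) ^ 2 * (h - 512)) ^ 12 ≠ 0 :=
    pow_ne_zero _ (mul_ne_zero (pow_ne_zero _ h1) h2)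
  have hJ8 : J ^ 8 * h ^ 16 = (h + 256) ^ 24 := by
    calc J ^ 8 * h ^ 16 = (J * h ^ 2) ^ 8 := by ring
      _ = ((h + 256) ^ 3) ^ 8 := by rw [hrel]
      _ = (h + 256) ^ 24 := by ring
  have hJ6 : (J - 1728) ^ 6 * h ^ 12 = ((h + 64) * (h - 512) ^ 2) ^ 6 := by
    calc (J - 1728) ^ 6 * h ^ 12 = (J * h ^ 2 - 1728 * h ^ 2) ^ 6 := by ring
      _ = ((h + 256) ^ 3 - 1728 * h ^ 2) ^ 6 := by rw [hrel]
      _ = ((h + 64) * (h - 512) ^ 2) ^ 6 := by ring
  have h3 : ((h + 256) ^ 2 * (h - 512)) ^ 12 * θ h ^ 12 =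
      ((h + 256) ^ 2 * (h - 512)) ^ 12 * (h ^ 8 * (h + 64) ^ 6 * Δ ^ 2) := by
    have h4 : ((h + 256) ^ 2 * (h - 512)) ^ 12 * θ h ^ 12 = (θ J * h ^ 3) ^ 12 := by
      rw [key]
      ring
    rw [h4, mul_pow, hJ]
    calc J ^ 8 * (J - 1728) ^ 6 * Δ ^ 2 * (h ^ 3) ^ 12
        = (J ^ 8 * h ^ 16) * ((J - 1728) ^ 6 * h ^ 12) * h ^ 8 * Δ ^ 2 := by ring
      _ = (h + 256) ^ 24 * ((h + 64) * (h - 512) ^ 2) ^ 6 * h ^ 8 * Δ ^ 2 := by rw [hJ8, hJ6]
      _ = ((h + 256) ^ 2 * (h - 512)) ^ 12 * (h ^ 8 * (h + 64) ^ 6 * Δ ^ 2) := by ring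
  exact mul_left_cancel₀ hP h3

/-- Level `3`: the derivative of the modular relation. -/
theorem theta_rel3 (hθ : IsDeriv θ) {J t : Λ} (hrel : J * t ^ 3 = (t + 27) * (t + 243) ^ 3) :
    θ J * t ^ 4 = θ t * ((t + 243) ^ 2 * (t ^ 2 - 486 * t - 19683)) := by
  have h0 := congrArg θ hrel
  rw [hθ.mul, theta_cube hθ, hθ.mul, theta_cube hθ, hθ.add, hθ.add, theta_ofNat hθ 27,
    theta_ofNat hθ 243, add_zero] at h0
  linear_combination t * h0 - 3 * θ t * hrel

/-- Level `3`: **`(θ t)^12 = t^6 (t + 27)^8 Δ²`**. -/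
theorem theta_pow_twelve_rel3 (hθ : IsDeriv θ) {J t Δ : Λ}
    (hrel : J * t ^ 3 = (t + 27) * (t + 243) ^ 3)
    (hJ : θ J ^ 12 = J ^ 8 * (J - 1728) ^ 6 * Δ ^ 2) (h1 : t + 243 ≠ 0)
    (h2 : t ^ 2 - 486 * t - 19683 ≠ 0) :
    θ t ^ 12 = t ^ 6 * (t + 27) ^ 8 * Δ ^ 2 := by
  have key := theta_rel3 hθ hrel
  have hP : ((t + 243) ^ 2 * (t ^ 2 - 486 * t - 19683)) ^ 12 ≠ 0 :=
    pow_ne_zero _ (mul_ne_zero (pow_ne_zero _ h1) h2)
  have hJ8 : J ^ 8 * t ^ 24 = ((t + 27) * (t + 243) ^ 3) ^ 8 := by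
    calc J ^ 8 * t ^ 24 = (J * t ^ 3) ^ 8 := by ring
      _ = ((t + 27) * (t + 243) ^ 3) ^ 8 := by rw [hrel]
  have hJ6 : (J - 1728) ^ 6 * t ^ 18 = ((t ^ 2 - 486 * t - 19683) ^ 2) ^ 6 := by
    calc (J - 1728) ^ 6 * t ^ 18 = (J * t ^ 3 - 1728 * t ^ 3) ^ 6 := by ring
      _ = ((t + 27) * (t + 243) ^ 3 - 1728 * t ^ 3) ^ 6 := by rw [hrel]
      _ = ((t ^ 2 - 486 * t - 19683) ^ 2) ^ 6 := by ring
  have h3 : ((t + 243) ^ 2 * (t ^ 2 - 486 * t - 19683)) ^ 12 * θ t ^ 12 =
      ((t + 243) ^ 2 * (t ^ 2 - 486 * t - 19683)) ^ 12 * (t ^ 6 * (t + 27) ^ 8 * Δ ^ 2) := by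
    have h4 : ((t + 243) ^ 2 * (t ^ 2 - 486 * t - 19683)) ^ 12 * θ t ^ 12 =
        (θ J * t ^ 4) ^ 12 := by
      rw [key]
      ring
    rw [h4, mul_pow, hJ]
    calc J ^ 8 * (J - 1728) ^ 6 * Δ ^ 2 * (t ^ 4) ^ 12
        = (J ^ 8 * t ^ 24) * ((J - 1728) ^ 6 * t ^ 18) * t ^ 6 * Δ ^ 2 := by ring
      _ = ((t + 27) * (t + 243) ^ 3) ^ 8 * ((t ^ 2 - 486 * t - 19683) ^ 2) ^ 6 * t ^ 6 *
            Δ ^ 2 := by rw [hJ8, hJ6]
      _ = ((t + 243) ^ 2 * (t ^ 2 - 486 * t - 19683)) ^ 12 *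
            (t ^ 6 * (t + 27) ^ 8 * Δ ^ 2) := by ring
  exact mul_left_cancel₀ hP h3

end Algebra

section Kappa

open AlgebraicCurve IntermediateField ModularCurve Polynomial Fermat.Agent.CAR.Local.ThetaJ
open Fermat.Agent.Lib.FF.ModL Fermat.Agent.CAR.Local Fermat.Agent.CAR.Local.Inst IsLocalRing

theorem isAlgebraic_ofNat_aux {k K : Type*} [Field k] [Field K] [Algebra k K] (n : ℕ)
    [n.AtLeastTwo] : IsAlgebraic k (OfNat.ofNat n : K) := by
  rw [← map_ofNat (algebraMap k K) n]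
  exact isAlgebraic_algebraMap _

theorem add_ne_zero_of_transcendental {k K : Type*} [Field k] [Field K] [Algebra k K] {x c : K}
    (hx : Transcendental k x) (hc : IsAlgebraic k c) : x + c ≠ 0 := by
  intro h
  apply hx
  rw [eq_neg_of_add_eq_zero_left h]
  exact hc.neg

theorem quadratic_ne_zero_of_transcendental {k K : Type*} [Field k] [Field K] [Algebra k K]
    {t : K} (ht : Transcendental k t) : t ^ 2 - 486 * t - 19683 ≠ 0 := by
  intro h0
  apply ht
  refine ⟨X ^ 2 - 486 * X - 19683, ?_, ?_⟩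
  · intro h
    have := congrArg (fun p => p.coeff 2) h
    simp [Polynomial.coeff_X, Polynomial.coeff_ofNat_succ] at this
  · rw [map_sub, map_sub, map_mul, map_pow, aeval_X, map_ofNat, map_ofNat]
    exact h0

variable (k : Type*) [Field k] [IsAlgClosed k] (N : ℕ) [NeZero N]

omit [IsAlgClosed k] [NeZero N] in
/-- A function with `J̄ x² = (x + 256)³` is transcendental over the constants. -/
theorem transcendental_of_rel2 {x : modularFunctionFieldFullC k N} (hx0 : x ≠ 0)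
    (hrel : Jbar k N * x ^ 2 = (x + 256) ^ 3) : Transcendental k x := by
  intro hx
  apply transcendental_Jbar k N
  have h1 : Jbar k N = (x + 256) ^ 3 * (x ^ 2)⁻¹ := by
    rw [eq_mul_inv_iff_mul_eq₀ (pow_ne_zero 2 hx0)]
    exact hrel
  rw [h1]
  exact ((hx.add (isAlgebraic_ofNat_aux 256)).pow 3).mul (hx.pow 2).inv

omit [IsAlgClosed k] [NeZero N] in
/-- A function with `J̄ x³ = (x + 27)(x + 243)³` is transcendental over the constants. -/
theorem transcendental_of_rel3 {x : modularFunctionFieldFullC k N} (hx0 : x ≠ 0)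
    (hrel : Jbar k N * x ^ 3 = (x + 27) * (x + 243) ^ 3) : Transcendental k x := by
  intro hx
  apply transcendental_Jbar k N
  have h1 : Jbar k N = (x + 27) * (x + 243) ^ 3 * (x ^ 3)⁻¹ := by
    rw [eq_mul_inv_iff_mul_eq₀ (pow_ne_zero 3 hx0)]
    exact hrel
  rw [h1]
  exact ((hx.add (isAlgebraic_ofNat_aux 27)).mul ((hx.add (isAlgebraic_ofNat_aux 243)).pow 3)).mul
    (hx.pow 3).inv

omit [IsAlgClosed k] [NeZero N] in
theorem coe_ne_zero_aux {y : modularFunctionFieldFullC k N} (hy : y ≠ 0) :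
    (y : LaurentSeries k) ≠ 0 := fun h => hy (Subtype.ext h)

omit [IsAlgClosed k] in
/-- `θ = q d/dq` is additive and Leibniz. -/
theorem isDeriv_thetaL : EllOrder.IsDeriv (fun f : LaurentSeries k => thetaL k f) := by
  constructor
  · intro a b
    exact map_add (thetaL k) a b
  · intro a b
    show thetaL k (a * b) = a * thetaL k b + thetaL k a * b
    rw [Derivation.leibniz, smul_eq_mul, smul_eq_mul, mul_comm b]

/-- `(θ J̄)^12 = J̄^8 (J̄ - 1728)^6 Δ̄²` as an identity of series. -/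
theorem theta_jq_pow_twelve :
    thetaL k (jqModC k) ^ 12 = jqModC k ^ 8 * (jqModC k - 1728) ^ 6 * deltaL k ^ 2 := by
  rw [← Deriv.GJ_mul_delta_sq k 1, Deriv.coe_GJ]

omit [NeZero N] in
/-- **The certificate identity of a level-`2` Hauptmodul** in `κ`: from `J̄ x² = (x + 256)³`,
`x^8 (x + 64)^6 · Δ̄² = (θ x)^12` and `θ x ≠ 0`. -/
theorem cert_rel2 {x : modularFunctionFieldFullC k N} (hx0 : x ≠ 0)
    (hrel : Jbar k N * x ^ 2 = (x + 256) ^ 3) :
    ((x ^ 8 * (x + 64) ^ 6 : modularFunctionFieldFullC k N) : LaurentSeries k) * deltaL k ^ 2 =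
        thetaL k (x : LaurentSeries k) ^ 12 ∧
      thetaL k (x : LaurentSeries k) ≠ 0 := by
  have htr := transcendental_of_rel2 k N hx0 hrel
  have hs : jqModC k * (x : LaurentSeries k) ^ 2 = ((x : LaurentSeries k) + 256) ^ 3 := by
    have h : ((Jbar k N * x ^ 2 : modularFunctionFieldFullC k N) : LaurentSeries k) =
        (((x + 256) ^ 3 : modularFunctionFieldFullC k N) : LaurentSeries k) := by rw [hrel]
    push_cast at h
    rw [coe_Jbar] at h
    exact h
  have h1 : (x : LaurentSeries k) + 256 ≠ 0 := by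
    have h := coe_ne_zero_aux k N (add_ne_zero_of_transcendental htr (isAlgebraic_ofNat_aux 256))
    push_cast at h
    exact h
  have h2 : (x : LaurentSeries k) - 512 ≠ 0 := by
    have h := coe_ne_zero_aux k N
      (add_ne_zero_of_transcendental htr (isAlgebraic_ofNat_aux (k := k) 512).neg)
    push_cast at h
    rw [← sub_eq_add_neg] at h
    exact h
  have h64 : (x : LaurentSeries k) + 64 ≠ 0 := by
    have h := coe_ne_zero_aux k N (add_ne_zero_of_transcendental htr (isAlgebraic_ofNat_aux 64))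
    push_cast at h
    exact h
  have key := theta_pow_twelve_rel2 (isDeriv_thetaL k) hs (theta_jq_pow_twelve k) h1 h2
  have hc : ((x ^ 8 * (x + 64) ^ 6 : modularFunctionFieldFullC k N) : LaurentSeries k) =
      (x : LaurentSeries k) ^ 8 * ((x : LaurentSeries k) + 64) ^ 6 := by
    push_cast
    rfl
  refine ⟨by rw [hc, key], ?_⟩
  intro h0
  rw [h0, zero_pow (by norm_num)] at key
  exact mul_ne_zero (mul_ne_zero (pow_ne_zero _ (coe_ne_zero_aux k N hx0)) (pow_ne_zero _ h64))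
    (pow_ne_zero _ (deltaL_ne_zero k)) key.symm

omit [NeZero N] in
/-- **The certificate identity of a level-`3` Hauptmodul** in `κ`: from
`J̄ x³ = (x + 27)(x + 243)³`, `x^6 (x + 27)^8 · Δ̄² = (θ x)^12` and `θ x ≠ 0`. -/
theorem cert_rel3 {x : modularFunctionFieldFullC k N} (hx0 : x ≠ 0)
    (hrel : Jbar k N * x ^ 3 = (x + 27) * (x + 243) ^ 3) :
    ((x ^ 6 * (x + 27) ^ 8 : modularFunctionFieldFullC k N) : LaurentSeries k) * deltaL k ^ 2 =
        thetaL k (x : LaurentSeries k) ^ 12 ∧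
      thetaL k (x : LaurentSeries k) ≠ 0 := by
  have htr := transcendental_of_rel3 k N hx0 hrel
  have hs : jqModC k * (x : LaurentSeries k) ^ 3 =
      ((x : LaurentSeries k) + 27) * ((x : LaurentSeries k) + 243) ^ 3 := by
    have h : ((Jbar k N * x ^ 3 : modularFunctionFieldFullC k N) : LaurentSeries k) =
        (((x + 27) * (x + 243) ^ 3 : modularFunctionFieldFullC k N) : LaurentSeries k) := by
      rw [hrel]
    push_cast at h
    rw [coe_Jbar] at h
    exact h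
  have h1 : (x : LaurentSeries k) + 243 ≠ 0 := by
    have h := coe_ne_zero_aux k N (add_ne_zero_of_transcendental htr (isAlgebraic_ofNat_aux 243))
    push_cast at h
    exact h
  have h2 : (x : LaurentSeries k) ^ 2 - 486 * (x : LaurentSeries k) - 19683 ≠ 0 := by
    have h := coe_ne_zero_aux k N (quadratic_ne_zero_of_transcendental htr)
    push_cast at h
    exact h
  have h27 : (x : LaurentSeries k) + 27 ≠ 0 := by
    have h := coe_ne_zero_aux k N (add_ne_zero_of_transcendental htr (isAlgebraic_ofNat_aux 27))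
    push_cast at h
    exact h
  have key := theta_pow_twelve_rel3 (isDeriv_thetaL k) hs (theta_jq_pow_twelve k) h1 h2
  have hc : ((x ^ 6 * (x + 27) ^ 8 : modularFunctionFieldFullC k N) : LaurentSeries k) =
      (x : LaurentSeries k) ^ 6 * ((x : LaurentSeries k) + 27) ^ 8 := by
    push_cast
    rfl
  refine ⟨by rw [hc, key], ?_⟩
  intro h0
  rw [h0, zero_pow (by norm_num)] at key
  exact mul_ne_zero (mul_ne_zero (pow_ne_zero _ (coe_ne_zero_aux k N hx0)) (pow_ne_zero _ h27))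
    (pow_ne_zero _ (deltaL_ne_zero k)) key.symm

variable {B B' F : Type*} [CommRing B] [IsDomain B] [Field F] [Algebra B F]
  [IsFractionRing B F] [CommRing B']

variable {O : Fin 3 → ValuationSubring F} {red : ∀ i, O i →+* modularFunctionFieldFullC k N}
  {hred : ∀ i, ∀ x : O i, red i x = 0 ↔ x ∈ maximalIdeal (O i)}
  {hBO : ∀ i, ∀ b : B, algebraMap B F b ∈ O i}
  {red' : B' →+* modularFunctionFieldFullC k N} {π₀ π₂ : B' →+* B}
  {D : modularFunctionFieldFullC k N → modularFunctionFieldFullC k N}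
  {q : B} {x' : B'} {u u₁ v₁ h : B} {Db G : modularFunctionFieldFullC k N} {N' e : ℕ}

/-- **`hell` in residue characteristic `3`** (any characteristic, in fact): `yh` a unit of `B'`
after reduction, `J̄ ȳ² = (ȳ + 256)³`, and the zeros of `ȳ + 64` at the finite places have even
order. -/
theorem hell_rel2 [IsNoetherianRing B] [IsIntegrallyClosed B]
    (H : Contract O red hred hBO red' π₀ π₂ D q x' u u₁ v₁ h Db G N' e)
    (hD : ∀ y : modularFunctionFieldFullC k N,
      thetaL k (y : LaurentSeries k) = (D y : LaurentSeries k) * thetaL k (jqModC k))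
    (hG : (G : LaurentSeries k) * deltaL k ^ 2 = thetaL k (jqModC k) ^ 12)
    (hk : ∀ Vs : ValuationSubring (modularFunctionFieldFullC k N), IsFinPlace red' Vs →
      ∀ c : k, algebraMap k (modularFunctionFieldFullC k N) c ∈ Vs)
    (yh yi : B') (hyy : red' yh * red' yi = 1)
    (hrel : Jbar k N * red' yh ^ 2 = (red' yh + 256) ^ 3)
    (hE : ∀ s : Place k (modularFunctionFieldFullC k N), (∀ y : B', 0 ≤ s.ord (red' y)) →
      0 < s.ord (red' yh + 64) → (2 : ℤ) ∣ s.ord (red' yh + 64)) :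
    ∀ Vs : ValuationSubring (modularFunctionFieldFullC k N), IsFinPlace red' Vs →
      ∃ y : B', D (red' y) ≠ 0 ∧ D (red' y) ^ 12 * G ∉ Vs.nonunits := by
  have hx0 : red' yh ≠ 0 := by
    intro h0
    rw [h0, zero_mul] at hyy
    exact zero_ne_one hyy
  obtain ⟨hG₂, hθ⟩ := cert_rel2 k N hx0 hrel
  exact EllSwitch.hell_haupt2 k N H hD hG hk yh yi hyy hG₂ hθ hE

/-- **`hell` in residue characteristic `2`** (any characteristic, in fact): `yh` a unit of `B'`
after reduction, `J̄ ȳ³ = (ȳ + 27)(ȳ + 243)³`, and the zeros of `ȳ + 27` at the finite places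
have order divisible by `3`. -/
theorem hell_rel3 [IsNoetherianRing B] [IsIntegrallyClosed B]
    (H : Contract O red hred hBO red' π₀ π₂ D q x' u u₁ v₁ h Db G N' e)
    (hD : ∀ y : modularFunctionFieldFullC k N,
      thetaL k (y : LaurentSeries k) = (D y : LaurentSeries k) * thetaL k (jqModC k))
    (hG : (G : LaurentSeries k) * deltaL k ^ 2 = thetaL k (jqModC k) ^ 12)
    (hk : ∀ Vs : ValuationSubring (modularFunctionFieldFullC k N), IsFinPlace red' Vs →
      ∀ c : k, algebraMap k (modularFunctionFieldFullC k N) c ∈ Vs)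
    (yh yi : B') (hyy : red' yh * red' yi = 1)
    (hrel : Jbar k N * red' yh ^ 3 = (red' yh + 27) * (red' yh + 243) ^ 3)
    (hE : ∀ s : Place k (modularFunctionFieldFullC k N), (∀ y : B', 0 ≤ s.ord (red' y)) →
      0 < s.ord (red' yh + 27) → (3 : ℤ) ∣ s.ord (red' yh + 27)) :
    ∀ Vs : ValuationSubring (modularFunctionFieldFullC k N), IsFinPlace red' Vs →
      ∃ y : B', D (red' y) ≠ 0 ∧ D (red' y) ^ 12 * G ∉ Vs.nonunits := by
  have hx0 : red' yh ≠ 0 := by
    intro h0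
    rw [h0, zero_mul] at hyy
    exact zero_ne_one hyy
  obtain ⟨hG₂, hθ⟩ := cert_rel3 k N hx0 hrel
  exact EllSwitch.hell_haupt3 k N H hD hG hk yh yi hyy hG₂ hθ hE

/-- Factoriality of the closed points of the finite chart, level-`2` Hauptmodul. -/
theorem ufm_pointRing_rel2 [IsNoetherianRing B] [IsIntegrallyClosed B]
    (H : Contract O red hred hBO red' π₀ π₂ D q x' u u₁ v₁ h Db G N' e)
    (hD : ∀ y : modularFunctionFieldFullC k N,
      thetaL k (y : LaurentSeries k) = (D y : LaurentSeries k) * thetaL k (jqModC k))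
    (hG : (G : LaurentSeries k) * deltaL k ^ 2 = thetaL k (jqModC k) ^ 12)
    (hk : ∀ Vs : ValuationSubring (modularFunctionFieldFullC k N), IsFinPlace red' Vs →
      ∀ c : k, algebraMap k (modularFunctionFieldFullC k N) c ∈ Vs)
    (yh yi : B') (hyy : red' yh * red' yi = 1)
    (hrel : Jbar k N * red' yh ^ 2 = (red' yh + 256) ^ 3)
    (hE : ∀ s : Place k (modularFunctionFieldFullC k N), (∀ y : B', 0 ≤ s.ord (red' y)) →
      0 < s.ord (red' yh + 64) → (2 : ℤ) ∣ s.ord (red' yh + 64))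
    (𝔪 : Ideal B) [𝔪.IsMaximal] (hq : q ∈ 𝔪) :
    UniqueFactorizationMonoid (pointRing F 𝔪) :=
  H.ufm_pointRing (hell_rel2 k N H hD hG hk yh yi hyy hrel hE) 𝔪 hq

/-- Factoriality of the closed points of the finite chart, level-`3` Hauptmodul. -/
theorem ufm_pointRing_rel3 [IsNoetherianRing B] [IsIntegrallyClosed B]
    (H : Contract O red hred hBO red' π₀ π₂ D q x' u u₁ v₁ h Db G N' e)
    (hD : ∀ y : modularFunctionFieldFullC k N,
      thetaL k (y : LaurentSeries k) = (D y : LaurentSeries k) * thetaL k (jqModC k))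
    (hG : (G : LaurentSeries k) * deltaL k ^ 2 = thetaL k (jqModC k) ^ 12)
    (hk : ∀ Vs : ValuationSubring (modularFunctionFieldFullC k N), IsFinPlace red' Vs →
      ∀ c : k, algebraMap k (modularFunctionFieldFullC k N) c ∈ Vs)
    (yh yi : B') (hyy : red' yh * red' yi = 1)
    (hrel : Jbar k N * red' yh ^ 3 = (red' yh + 27) * (red' yh + 243) ^ 3)
    (hE : ∀ s : Place k (modularFunctionFieldFullC k N), (∀ y : B', 0 ≤ s.ord (red' y)) →
      0 < s.ord (red' yh + 27) → (3 : ℤ) ∣ s.ord (red' yh + 27))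
    (𝔪 : Ideal B) [𝔪.IsMaximal] (hq : q ∈ 𝔪) :
    UniqueFactorizationMonoid (pointRing F 𝔪) :=
  H.ufm_pointRing (hell_rel3 k N H hD hG hk yh yi hyy hrel hE) 𝔪 hq

end Kappa

end Fermat.Agent.CAR.Local.Inst.EllRel
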