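import Mathlib
import Fermat.Agent.CAR.Lift
import Fermat.Agent.CAR.K0
import Fermat.Agent.CAR.Local.Inst.Contract
import Fermat.Agent.CAR.Local.Inst.PlaceBridge
import Fermat.Agent.CAR.Local.Inst.ChartFields
import Fermat.Agent.Lib.FF.CharP.ModLInst

/-!
# CAR-17 / brick B3: the contract fields `lift` and `res` of the finite chart

Generic setting of the RED layer: `(L, A, π, k)`, a level `N` with `(N : k) ≠ 0`, a base function
`B : BaseFn.Data A π N` (`x = B.x`, `x̄ = B.xt`), the Gauss valuation ring `Ow` of `F' = L·F_N`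
and its residue map `redF : Ow → κ = modularFunctionFieldFullC k N`.

`B'` is any commutative ring with a map `red' : B' →+* κ` such that `red' B'` is the reduction of
the integral closure of `A[x]` in `F'`:

* `RedOnto B hπ hNk red'` : every `y ∈ Ow` integral over `A[x]` has `redF y ∈ red' B'`
  (`redOnto_of_apply` : this holds for `B' = ↥(integralClosure ↥(B.AX) F')`, `red' = redF ∘ incl`);
* `RedInt B hπ hNk red'` : every `red' b` is integral over `k[x̄]`.

(LIFT) enters through `LiftFrac B hπ hNk`, the literal conclusion shape of `Lift.lift_frac`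
(`liftFrac_of_T3` : it follows from `Lift.T3 B hπ hNk`).

Main statements (the bodies of the fields of `Inst.Contract`):

* `exists_place` : a finite place `Vs` (`IsFinPlace red' Vs`) is the valuation ring of a place `Q`
  of `κ` with `0 ≤ Q.ord x̄`;  `isFinPlace_of_place` : the converse;
* `contract_lift` : `∀ Vs, IsFinPlace red' Vs → ∀ c ∈ Vs, ∃ a b : B', red' b ∉ Vs.nonunits ∧
  red' a = c * red' b`;
* `contract_res` : `∀ Vs, IsFinPlace red' Vs → ∀ v ∈ Vs, ∃ a : B', red' a - v ∈ Vs.nonunits`;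
* `hlift` : the (LIFT) hypothesis of `Uniq.eq_of_lift` / `Uniq.huniq_of_V3Base`;
* `contract_lift_K0`, `contract_res_K0`, `hlift_K0` : the same at
  `(L, A, π) = (K0, W0, resW0)` for a valuation subring of `ℚ̄` over a prime `q`.
-/

set_option autoImplicit false
set_option synthInstance.maxHeartbeats 200000

namespace Fermat.Agent.CAR.Local.Inst.LiftInst

open HahnSeries ModularCurve Polynomial AlgebraicCurve Fermat.Agent.S28 IntermediateField
  Fermat.Agent.Lib.FF Fermat.Agent.Lib.Red Fermat.Agent.S24 Fermat.Agent.CAR.Lift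

variable {L : Type*} [Field L] [Algebra ℚ L] {A : ValuationSubring L} {k : Type} [Field k]
  {π : A →+* k} {N : ℕ} [NeZero N] (B : BaseFn.Data A π N)
  (hπ : ∀ a : A, ¬ IsUnit a → π a = 0) (hsurj : Function.Surjective π) (hNk : (N : k) ≠ 0)

/-- **(LIFT_s)** for the chart `x ≠ ∞`, in the literal conclusion shape of `Lift.lift_frac`. -/
def LiftFrac : Prop :=
  ∀ Q : Place k ↥(modularFunctionFieldFullC k N), 0 ≤ Q.ord (B.xt hπ hNk) →
    ∀ c : ↥(modularFunctionFieldFullC k N), 0 ≤ Q.ord c →
      ∃ a b : Ow A π N hNk,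
        IsIntegral ↥(B.AX) (a : ↥(laurentBaseChange L (modularFunctionFieldFull N))) ∧
        IsIntegral ↥(B.AX) (b : ↥(laurentBaseChange L (modularFunctionFieldFull N))) ∧
        Q.ord (redF A π N hπ hNk b) = 0 ∧ redF A π N hπ hNk b ≠ 0 ∧
        redF A π N hπ hNk a = c * redF A π N hπ hNk b

include hsurj in
/-- (LIFT_s) from (T3). -/
theorem liftFrac_of_T3 [IsAlgClosed k] (h : T3 B hπ hNk) : LiftFrac B hπ hNk :=
  fun Q hQ _ hc => lift_frac B hπ hsurj hNk h Q hQ hc

/-! ### Constants and the base function in the integral closure -/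

/-- The constants of `A` lie in `A[x]`. -/
theorem algebraMap_mem_AX (a : A) :
    algebraMap L ↥(laurentBaseChange L (modularFunctionFieldFull N)) (a : L) ∈ B.AX := by
  rw [B.mem_AX_iff]
  refine ⟨Polynomial.C a, ?_⟩
  rw [Polynomial.map_C, Polynomial.aeval_C]
  rfl

/-- The reduction of a constant is the constant. -/
theorem exists_redF_eq_algebraMap (a : A) :
    ∃ y : Ow A π N hNk,
      IsIntegral ↥(B.AX) (y : ↥(laurentBaseChange L (modularFunctionFieldFull N))) ∧
        redF A π N hπ hNk y = algebraMap k ↥(modularFunctionFieldFullC k N) (π a) := by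
  refine ⟨⟨_, B.aeval_map_mem_Ow hNk (Polynomial.C a)⟩, ?_, ?_⟩
  · exact isIntegral_algebraMap (R := ↥(B.AX))
      (x := (⟨_, (B.mem_AX_iff).2 ⟨Polynomial.C a, rfl⟩⟩ : ↥(B.AX)))
  · rw [B.redF_aeval_map hπ hNk (Polynomial.C a), Polynomial.map_C, Polynomial.aeval_C]

/-- The base function is integral, and reduces to `x̄`. -/
theorem exists_redF_eq_xt :
    ∃ y : Ow A π N hNk,
      IsIntegral ↥(B.AX) (y : ↥(laurentBaseChange L (modularFunctionFieldFull N))) ∧
        redF A π N hπ hNk y = B.xt hπ hNk :=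
  ⟨⟨B.x, B.x_mem_Ow hNk⟩,
    isIntegral_algebraMap (R := ↥(B.AX)) (x := (⟨B.x, B.x_mem_AX⟩ : ↥(B.AX))),
    B.redF_x hπ hNk⟩

/-! ### The ring `B'` -/

section Ring

variable {B' : Type*} [CommRing B'] (red' : B' →+* ↥(modularFunctionFieldFullC k N))

/-- `red' B'` contains the reduction of the integral closure of `A[x]`. -/
def RedOnto : Prop :=
  ∀ y : Ow A π N hNk,
    IsIntegral ↥(B.AX) (y : ↥(laurentBaseChange L (modularFunctionFieldFull N))) →
      ∃ b : B', red' b = redF A π N hπ hNk y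

/-- `red' B'` is integral over `k[x̄]`. -/
def RedInt : Prop :=
  ∀ b : B', IsIntegral ↥(Algebra.adjoin k {B.xt hπ hNk}) (red' b)

variable {B hπ hNk red'}

include hsurj in
/-- The constants are reductions of elements of `B'`. -/
theorem RedOnto.exists_const (H : RedOnto B hπ hNk red') (c : k) :
    ∃ a : B', red' a = algebraMap k ↥(modularFunctionFieldFullC k N) c := by
  obtain ⟨a, rfl⟩ := hsurj c
  obtain ⟨y, hy, hya⟩ := exists_redF_eq_algebraMap B hπ hNk a
  obtain ⟨b, hb⟩ := H y hy
  exact ⟨b, hb.trans hya⟩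

/-- `x̄` is the reduction of an element of `B'`. -/
theorem RedOnto.exists_xt (H : RedOnto B hπ hNk red') : ∃ a : B', red' a = B.xt hπ hNk := by
  obtain ⟨y, hy, hyx⟩ := exists_redF_eq_xt B hπ hNk
  obtain ⟨b, hb⟩ := H y hy
  exact ⟨b, hb.trans hyx⟩

include hsurj in
/-- **A finite place is a place of `κ` at which `x̄` is regular.** -/
theorem RedOnto.exists_place (H : RedOnto B hπ hNk red')
    (Vs : ValuationSubring ↥(modularFunctionFieldFullC k N)) (hVs : IsFinPlace red' Vs) :
    ∃ Q : Place k ↥(modularFunctionFieldFullC k N),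
      Q.toValuationSubring = Vs ∧ 0 ≤ Q.ord (B.xt hπ hNk) := by
  have : FiniteDimensional ↥(k⟮B.xt hπ hNk⟯) ↥(modularFunctionFieldFullC k N) :=
    B.finite_k hπ hsurj hNk
  have hk : ∀ c : k, algebraMap k ↥(modularFunctionFieldFullC k N) c ∈ Vs := by
    intro c
    obtain ⟨a, ha⟩ := H.exists_const hsurj c
    rw [← ha]
    exact hVs.2 a
  obtain ⟨Q, hQ⟩ := PlaceBridge.exists_place_eq (B.xt hπ hNk) Vs hk hVs.1
  refine ⟨Q, hQ, ord_nonneg_of_mem Q ?_⟩
  obtain ⟨a, ha⟩ := H.exists_xt
  rw [hQ, ← ha]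
  exact hVs.2 a

include hsurj in
/-- Conversely, the valuation ring of a place at which `x̄` is regular is a finite place. -/
theorem RedInt.isFinPlace_of_place (H : RedInt B hπ hNk red')
    (Q : Place k ↥(modularFunctionFieldFullC k N)) (hQ : 0 ≤ Q.ord (B.xt hπ hNk)) :
    IsFinPlace red' Q.toValuationSubring := by
  refine ⟨?_, fun y => ?_⟩
  · intro htop
    obtain ⟨τ, hτ⟩ := PlaceBridge.exists_isUnif Q
    apply hτ.inv_notMem
    rw [htop]
    exact ValuationSubring.mem_top _
  · exact mem_of_ord_nonneg Q ((isIntegral_xt_iff_place B hπ hsurj hNk).1 (H y) Q hQ)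

include hsurj in
/-- **The contract field `lift`.** -/
theorem contract_lift (H : RedOnto B hπ hNk red') (hfrac : LiftFrac B hπ hNk) :
    ∀ Vs : ValuationSubring ↥(modularFunctionFieldFullC k N), IsFinPlace red' Vs →
      ∀ c ∈ Vs, ∃ a b : B', red' b ∉ Vs.nonunits ∧ red' a = c * red' b := by
  intro Vs hVs c hc
  obtain ⟨Q, rfl, hQ⟩ := H.exists_place hsurj Vs hVs
  obtain ⟨a, b, ha, hb, hQb, hb0, hab⟩ := hfrac Q hQ c (ord_nonneg_of_mem Q hc)
  obtain ⟨a', ha'⟩ := H a ha
  obtain ⟨b', hb'⟩ := H b hb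
  refine ⟨a', b', ?_, ?_⟩
  · rw [hb']
    exact PlaceBridge.notMem_nonunits_of_ord_eq_zero Q hb0 hQb
  · rw [ha', hb']
    exact hab

include hsurj in
/-- **The contract field `lift`**, from (T3). -/
theorem contract_lift_of_T3 [IsAlgClosed k] (H : RedOnto B hπ hNk red') (h : T3 B hπ hNk) :
    ∀ Vs : ValuationSubring ↥(modularFunctionFieldFullC k N), IsFinPlace red' Vs →
      ∀ c ∈ Vs, ∃ a b : B', red' b ∉ Vs.nonunits ∧ red' a = c * red' b :=
  contract_lift hsurj H (liftFrac_of_T3 B hπ hsurj hNk h)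

include hsurj in
/-- (LIFT) in the literal shape of the hypothesis `hlift` of `Uniq.eq_of_lift`,
`Uniq.huniq_of_V3Base`. -/
theorem hlift (H : RedOnto B hπ hNk red') (hfrac : LiftFrac B hπ hNk) :
    ∀ V : ValuationSubring ↥(modularFunctionFieldFullC k N), V ≠ ⊤ → (∀ b : B', red' b ∈ V) →
      ∀ c ∈ V, ∃ a b : B', red' b ∉ V.nonunits ∧ red' a = c * red' b :=
  fun V h1 h2 => contract_lift hsurj H hfrac V ⟨h1, h2⟩

include hsurj in
/-- **The contract field `res`**: the residue field of every finite place is `k`, reached by the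
constants of `B'`. -/
theorem contract_res [IsAlgClosed k] (H : RedOnto B hπ hNk red') :
    ∀ Vs : ValuationSubring ↥(modularFunctionFieldFullC k N), IsFinPlace red' Vs →
      ∀ v ∈ Vs, ∃ a : B', red' a - v ∈ Vs.nonunits := by
  intro Vs hVs v hv
  have : FiniteDimensional ↥(k⟮B.xt hπ hNk⟯) ↥(modularFunctionFieldFullC k N) :=
    B.finite_k hπ hsurj hNk
  have : Algebra.IsAlgebraic ↥(Algebra.adjoin k {B.xt hπ hNk})
      ↥(modularFunctionFieldFullC k N) :=
    ChartFields.isAlgebraic_adjoin_of_intermediateField (B.xt hπ hNk)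
  exact ChartFields.exists_red_sub_mem_nonunits red' (H.exists_const hsurj) (B.xt hπ hNk) Vs
    hVs.1 hVs.2 hv

end Ring

/-! ### The canonical `B'` -/

/-- `RedOnto` for `B' = integralClosure (A[x]) F'` and any `red'` which is `redF ∘ incl`. -/
theorem redOnto_of_apply
    (red' : ↥(integralClosure ↥(B.AX) ↥(laurentBaseChange L (modularFunctionFieldFull N))) →+*
      ↥(modularFunctionFieldFullC k N))
    (hred' : ∀ b : ↥(integralClosure ↥(B.AX)
        ↥(laurentBaseChange L (modularFunctionFieldFull N))),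
      red' b = redF A π N hπ hNk ⟨b, B.mem_Ow_of_isIntegral_AX hNk b.2⟩) :
    RedOnto B hπ hNk red' :=
  fun y hy => ⟨⟨y, hy⟩, hred' ⟨y, hy⟩⟩

/-- `RedInt` for `B' = integralClosure (A[x]) F'` and any `red'` which is `redF ∘ incl`. -/
theorem redInt_of_apply
    (red' : ↥(integralClosure ↥(B.AX) ↥(laurentBaseChange L (modularFunctionFieldFull N))) →+*
      ↥(modularFunctionFieldFullC k N))
    (hred' : ∀ b : ↥(integralClosure ↥(B.AX)
        ↥(laurentBaseChange L (modularFunctionFieldFull N))),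
      red' b = redF A π N hπ hNk ⟨b, B.mem_Ow_of_isIntegral_AX hNk b.2⟩) :
    RedInt B hπ hNk red' := by
  intro b
  rw [hred' b]
  exact isIntegral_redF B hπ hNk _ b.2

/-! ### The instance `(L, A, π) = (K0, W0, resW0)` -/

section K0Inst

open Fermat.Agent.CAR.K0

local notation "Qb" => AlgebraicClosure ℚ

variable {q : ℕ} (hq : q.Prime) {A : ValuationSubring Qb} (hA : A.LiesOverPrime q)
  {M' : ℕ} [NeZero M'] {hM' : (M' : IsLocalRing.ResidueField A) ≠ 0}
  {B : BaseFn.Data (W0 A) (resW0 A) M'}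
  {B' : Type*} [CommRing B']
  {red' : B' →+* ↥(modularFunctionFieldFullC (IsLocalRing.ResidueField A) M')}

include hq hA in
/-- (LIFT_s) over `(K0, W0, resW0)` from (T3) over `(K0, W0, resW0)`. -/
theorem liftFrac_K0_of_T3 (h : T3 B (resW0_eq_zero_of_not_isUnit A) hM') :
    LiftFrac B (resW0_eq_zero_of_not_isUnit A) hM' := by
  have := CharP.isAlgClosed_residueField A
  exact liftFrac_of_T3 B _ (resW0_surjective hq hA) hM' h

include hq hA in
/-- **The contract field `lift` over `(K0, W0, resW0)`.** -/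
theorem contract_lift_K0 (H : RedOnto B (resW0_eq_zero_of_not_isUnit A) hM' red')
    (hfrac : LiftFrac B (resW0_eq_zero_of_not_isUnit A) hM') :
    ∀ Vs : ValuationSubring ↥(modularFunctionFieldFullC (IsLocalRing.ResidueField A) M'),
      IsFinPlace red' Vs →
        ∀ c ∈ Vs, ∃ a b : B', red' b ∉ Vs.nonunits ∧ red' a = c * red' b :=
  contract_lift (resW0_surjective hq hA) H hfrac

include hq hA in
/-- (LIFT) over `(K0, W0, resW0)` in the shape of the hypothesis `hlift` of `Uniq.eq_of_lift`. -/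
theorem hlift_K0 (H : RedOnto B (resW0_eq_zero_of_not_isUnit A) hM' red')
    (hfrac : LiftFrac B (resW0_eq_zero_of_not_isUnit A) hM') :
    ∀ V : ValuationSubring ↥(modularFunctionFieldFullC (IsLocalRing.ResidueField A) M'),
      V ≠ ⊤ → (∀ b : B', red' b ∈ V) →
        ∀ c ∈ V, ∃ a b : B', red' b ∉ V.nonunits ∧ red' a = c * red' b :=
  hlift (resW0_surjective hq hA) H hfrac

include hq hA in
/-- **The contract field `res` over `(K0, W0, resW0)`.** -/
theorem contract_res_K0 (H : RedOnto B (resW0_eq_zero_of_not_isUnit A) hM' red') :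
    ∀ Vs : ValuationSubring ↥(modularFunctionFieldFullC (IsLocalRing.ResidueField A) M'),
      IsFinPlace red' Vs → ∀ v ∈ Vs, ∃ a : B', red' a - v ∈ Vs.nonunits := by
  have := CharP.isAlgClosed_residueField A
  exact contract_res (resW0_surjective hq hA) H

include hq hA in
/-- A finite place over `(K0, W0, resW0)` is a place of `κ` at which `x̄` is regular. -/
theorem exists_place_K0 (H : RedOnto B (resW0_eq_zero_of_not_isUnit A) hM' red')
    (Vs : ValuationSubring ↥(modularFunctionFieldFullC (IsLocalRing.ResidueField A) M'))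
    (hVs : IsFinPlace red' Vs) :
    ∃ Q : Place (IsLocalRing.ResidueField A)
        ↥(modularFunctionFieldFullC (IsLocalRing.ResidueField A) M'),
      Q.toValuationSubring = Vs ∧ 0 ≤ Q.ord (B.xt (resW0_eq_zero_of_not_isUnit A) hM') :=
  H.exists_place (resW0_surjective hq hA) Vs hVs

end K0Inst

end Fermat.Agent.CAR.Local.Inst.LiftInst
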