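import Mathlib
import Fermat.Agent.CAR.Local.Inst.LiftInst
import Fermat.Agent.CAR.LiftK0.T3K0Closed

/-!
# CAR-17 / brick B3, closed forms: `lift` and `res` for `x = J(q^{M'})` over `(K0, W0, resW0)`

`A` a valuation subring of `ℚ̄` over a prime `q`, `K0` its inertia field, `W0 = A ∩ K0`,
`k` the residue field of `A`, `M'` a level with `(M' : k) ≠ 0`, base function
`BJ := BaseFn.Data.ofJ (W0 A) (resW0 A) M'` (`x = J(q^{M'})`), `B'` a ring with
`red' : B' →+* κ` reducing onto the reduction of the integral closure of `W0[x]`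
(`LiftInst.RedOnto`; e.g. `B' = ↥(integralClosure ↥(BJ.AX) F')`, `LiftInst.redOnto_of_apply`).

* `natCast_1728_ne_zero` : `1728 ≠ 0` in `k` for `q ≠ 2, 3`;
* `T3_ofJ` : `Lift.T3 BJ` for `q ≠ 2, 3` (= `LiftK0.Closed.T3_ofJ_K0`);
* `liftFrac_ofJ` : (LIFT_s) for `BJ`, from `Lift.T3 BJ` for `q ∈ {2, 3}` as a hypothesis;
* `contract_lift_ofJ`, `hlift_ofJ`, `contract_res_ofJ` : the contract fields `lift`, `res`.
-/

set_option autoImplicit false
set_option synthInstance.maxHeartbeats 200000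

namespace Fermat.Agent.CAR.Local.Inst.LiftInst

open HahnSeries ModularCurve AlgebraicCurve Fermat.Agent.S28 Fermat.Agent.Lib.Red
  Fermat.Agent.Lib.Red.BaseFn Fermat.Agent.CAR.Lift Fermat.Agent.CAR.K0

/-! ### The canonical ring `B' = integralClosure (A[x]) F'` and its reduction -/

section Canonical

variable {L : Type*} [Field L] [Algebra ℚ L] {A : ValuationSubring L} {k : Type} [Field k]
  {π : A →+* k} {N : ℕ} [NeZero N] (B : BaseFn.Data A π N)
  (hπ : ∀ a : A, ¬ IsUnit a → π a = 0) (hNk : (N : k) ≠ 0)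

/-- The reduction `redF ∘ incl` on `B' = integralClosure (A[x]) F'`. -/
noncomputable def redBp :
    ↥(integralClosure ↥(B.AX) ↥(laurentBaseChange L (modularFunctionFieldFull N))) →+*
      ↥(modularFunctionFieldFullC k N) :=
  (redF A π N hπ hNk).comp
    (RingHom.codRestrict
      ((integralClosure ↥(B.AX) ↥(laurentBaseChange L (modularFunctionFieldFull N))).val :
        ↥(integralClosure ↥(B.AX) ↥(laurentBaseChange L (modularFunctionFieldFull N))) →+*
          ↥(laurentBaseChange L (modularFunctionFieldFull N)))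
      (Ow A π N hNk).toSubring (fun b => B.mem_Ow_of_isIntegral_AX hNk b.2))

theorem redBp_apply
    (b : ↥(integralClosure ↥(B.AX) ↥(laurentBaseChange L (modularFunctionFieldFull N)))) :
    redBp B hπ hNk b = redF A π N hπ hNk ⟨b, B.mem_Ow_of_isIntegral_AX hNk b.2⟩ := rfl

/-- `RedOnto` for the canonical `B'`. -/
theorem redOnto_redBp : RedOnto B hπ hNk (redBp B hπ hNk) :=
  redOnto_of_apply B hπ hNk _ (redBp_apply B hπ hNk)

/-- `RedInt` for the canonical `B'`. -/
theorem redInt_redBp : RedInt B hπ hNk (redBp B hπ hNk) :=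
  redInt_of_apply B hπ hNk _ (redBp_apply B hπ hNk)

end Canonical

local notation "Qb" => AlgebraicClosure ℚ

variable {q : ℕ} (hq : q.Prime) {A : ValuationSubring Qb} (hA : A.LiesOverPrime q)

include hq hA in
/-- `1728 ≠ 0` in the residue field when the residue characteristic is `≥ 5`. -/
theorem natCast_1728_ne_zero (h2 : q ≠ 2) (h3 : q ≠ 3) :
    (1728 : IsLocalRing.ResidueField A) ≠ 0 := by
  have hqk : (q : IsLocalRing.ResidueField A) = 0 := resW0_natCast_eq_zero hq hA
  have : CharP (IsLocalRing.ResidueField A) q := (CharP.charP_iff_prime_eq_zero hq).mpr hqk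
  intro h0
  have h1 : ((1728 : ℕ) : IsLocalRing.ResidueField A) = 0 := by exact_mod_cast h0
  rw [CharP.cast_eq_zero_iff (IsLocalRing.ResidueField A) q] at h1
  have h4 : q ∣ 2 ^ 6 * 3 ^ 3 := by norm_num; exact h1
  rcases (Nat.Prime.dvd_mul hq).1 h4 with h5 | h5
  · exact h2 ((Nat.prime_dvd_prime_iff_eq hq Nat.prime_two).1 (hq.dvd_of_dvd_pow h5))
  · exact h3 ((Nat.prime_dvd_prime_iff_eq hq Nat.prime_three).1 (hq.dvd_of_dvd_pow h5))

variable {M' : ℕ} [NeZero M'] {hM' : (M' : IsLocalRing.ResidueField A) ≠ 0}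

include hq hA in
/-- **(T3) for `x = J(q^{M'})` over `(K0, W0, resW0)`**, residue characteristic `≥ 5`. -/
theorem T3_ofJ (h2 : q ≠ 2) (h3 : q ≠ 3) :
    T3 (Data.ofJ (W0 A) (resW0 A) M') (resW0_eq_zero_of_not_isUnit A) hM' :=
  Fermat.Agent.CAR.LiftK0.Closed.T3_ofJ_K0 hq hA M' hM' (natCast_1728_ne_zero hq hA h2 h3)

include hq hA in
/-- **(LIFT_s) for `x = J(q^{M'})` over `(K0, W0, resW0)`**: unconditional for `q ≥ 5`; for
`q ∈ {2, 3}` from (T3) for the `J`-chart (chart change from the Hauptmodul base). -/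
theorem liftFrac_ofJ
    (h23 : q = 2 ∨ q = 3 →
      T3 (Data.ofJ (W0 A) (resW0 A) M') (resW0_eq_zero_of_not_isUnit A) hM') :
    LiftFrac (Data.ofJ (W0 A) (resW0 A) M') (resW0_eq_zero_of_not_isUnit A) hM' := by
  refine liftFrac_K0_of_T3 hq hA ?_
  by_cases h2 : q = 2
  · exact h23 (Or.inl h2)
  · by_cases h3 : q = 3
    · exact h23 (Or.inr h3)
    · exact T3_ofJ hq hA h2 h3

variable {B' : Type*} [CommRing B']
  {red' : B' →+* ↥(modularFunctionFieldFullC (IsLocalRing.ResidueField A) M')}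

include hq hA in
/-- **The contract field `lift`** for `x = J(q^{M'})` over `(K0, W0, resW0)`. -/
theorem contract_lift_ofJ
    (H : RedOnto (Data.ofJ (W0 A) (resW0 A) M') (resW0_eq_zero_of_not_isUnit A) hM' red')
    (h23 : q = 2 ∨ q = 3 →
      T3 (Data.ofJ (W0 A) (resW0 A) M') (resW0_eq_zero_of_not_isUnit A) hM') :
    ∀ Vs : ValuationSubring ↥(modularFunctionFieldFullC (IsLocalRing.ResidueField A) M'),
      IsFinPlace red' Vs →
        ∀ c ∈ Vs, ∃ a b : B', red' b ∉ Vs.nonunits ∧ red' a = c * red' b :=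
  contract_lift_K0 hq hA H (liftFrac_ofJ hq hA h23)

include hq hA in
/-- (LIFT) for `x = J(q^{M'})` over `(K0, W0, resW0)` in the shape of the hypothesis `hlift` of
`Uniq.eq_of_lift`, `Uniq.huniq_of_V3Base`. -/
theorem hlift_ofJ
    (H : RedOnto (Data.ofJ (W0 A) (resW0 A) M') (resW0_eq_zero_of_not_isUnit A) hM' red')
    (h23 : q = 2 ∨ q = 3 →
      T3 (Data.ofJ (W0 A) (resW0 A) M') (resW0_eq_zero_of_not_isUnit A) hM') :
    ∀ V : ValuationSubring ↥(modularFunctionFieldFullC (IsLocalRing.ResidueField A) M'),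
      V ≠ ⊤ → (∀ b : B', red' b ∈ V) →
        ∀ c ∈ V, ∃ a b : B', red' b ∉ V.nonunits ∧ red' a = c * red' b :=
  hlift_K0 hq hA H (liftFrac_ofJ hq hA h23)

include hq hA in
/-- **The contract field `res`** for `x = J(q^{M'})` over `(K0, W0, resW0)` (every `q`). -/
theorem contract_res_ofJ
    (H : RedOnto (Data.ofJ (W0 A) (resW0 A) M') (resW0_eq_zero_of_not_isUnit A) hM' red') :
    ∀ Vs : ValuationSubring ↥(modularFunctionFieldFullC (IsLocalRing.ResidueField A) M'),
      IsFinPlace red' Vs → ∀ v ∈ Vs, ∃ a : B', red' a - v ∈ Vs.nonunits :=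
  contract_res_K0 hq hA H

/-! ### The canonical `B'` for `x = J(q^{M'})` -/

include hq hA in
/-- **The contract field `lift`** for `B' = integralClosure (W0[J(q^{M'})]) F'`,
`red' = redF ∘ incl`. -/
theorem contract_lift_redBp
    (h23 : q = 2 ∨ q = 3 →
      T3 (Data.ofJ (W0 A) (resW0 A) M') (resW0_eq_zero_of_not_isUnit A) hM') :
    ∀ Vs : ValuationSubring ↥(modularFunctionFieldFullC (IsLocalRing.ResidueField A) M'),
      IsFinPlace (redBp (Data.ofJ (W0 A) (resW0 A) M') (resW0_eq_zero_of_not_isUnit A) hM') Vs →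
        ∀ c ∈ Vs, ∃ a b : ↥(integralClosure ↥((Data.ofJ (W0 A) (resW0 A) M').AX)
            ↥(laurentBaseChange ↥(K0 A) (modularFunctionFieldFull M'))),
          redBp (Data.ofJ (W0 A) (resW0 A) M') (resW0_eq_zero_of_not_isUnit A) hM' b ∉
            Vs.nonunits ∧
          redBp (Data.ofJ (W0 A) (resW0 A) M') (resW0_eq_zero_of_not_isUnit A) hM' a =
            c * redBp (Data.ofJ (W0 A) (resW0 A) M') (resW0_eq_zero_of_not_isUnit A) hM' b :=
  contract_lift_ofJ hq hA (redOnto_redBp _ _ hM') h23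

include hq hA in
/-- **The contract field `res`** for `B' = integralClosure (W0[J(q^{M'})]) F'`,
`red' = redF ∘ incl`. -/
theorem contract_res_redBp :
    ∀ Vs : ValuationSubring ↥(modularFunctionFieldFullC (IsLocalRing.ResidueField A) M'),
      IsFinPlace (redBp (Data.ofJ (W0 A) (resW0 A) M') (resW0_eq_zero_of_not_isUnit A) hM') Vs →
        ∀ v ∈ Vs, ∃ a : ↥(integralClosure ↥((Data.ofJ (W0 A) (resW0 A) M').AX)
            ↥(laurentBaseChange ↥(K0 A) (modularFunctionFieldFull M'))),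
          redBp (Data.ofJ (W0 A) (resW0 A) M') (resW0_eq_zero_of_not_isUnit A) hM' a - v ∈
            Vs.nonunits :=
  contract_res_ofJ hq hA (redOnto_redBp _ _ hM')

end Fermat.Agent.CAR.Local.Inst.LiftInst
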