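import Mathlib
import Fermat.Agent.CAR.Local.Inst
import Fermat.Agent.CAR.Glob.Charts
import Fermat.Agent.CAR.Local.Inst.PlaceBridge
import Fermat.Agent.CAR.LiftInv

/-!
# CAR brick B4: `V3Base.lift` for the chart at infinity `B_∞ = chart W x⁻¹`

`B = chart W x` (finite chart), `B_∞ = chart W x⁻¹` (for CAR: `x = J₀ J₂` in `F = K₀·F_{M'q²}`,
`W = W₀`).  A component `O ⊇ B, B_∞` of the special fibre with reduction `red : O → κ`, and a
valuation ring `Vs ≠ ⊤` of `κ` containing `red B_∞`.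

* **finite places** (`red x⁻¹` a unit of `Vs`): `red B ⊆ Vs` (`redOn_chart_mem_of_inv_unit`) and
  a fraction `a/b` of the finite chart becomes a fraction `x⁻ⁿa / x⁻ⁿb` of `B_∞`
  (`lift_of_fin`);
* **cusp places** (`red x⁻¹ ∈ 𝔪_Vs`): the level-`N` lift at infinity
  (`CuspLift B` = the literal conclusion of `Lift.lift_frac_inf` at the places with `x̄ = ∞`;
  `cuspLift_of_T3'`) is transported by a pull-back `φ : F' →ₐ[L] F` with `red ∘ φ = redF` and
  `(φ x')⁻¹ ∈ B_∞` (`lift_of_cusp`; the membership `φ (Lift.Binf B) ⊆ B_∞` is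
  `map_mem_chart_inv`, from `LiftInv.isIntegral_invData_iff` + `LiftInv.isIntegral_map_cusp`);
* `lift_component` : both cases; `v3Base_lift_inf` : the literal `lift` field of
  `V3Base O red hred hBinfO q` for the three components.
-/

set_option autoImplicit false

noncomputable section

namespace Fermat.Agent.CAR.Local.Inst.LiftInf

open IsLocalRing Fermat.Agent.CAR.Local Fermat.Agent.CAR.Glob.Charts

/-! ### Valuation-ring preliminaries -/

section Val

variable {κ : Type*} [Field κ]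

theorem notMem_nonunits_mul (Vs : ValuationSubring κ) {a b : κ} (ha : a ∉ Vs.nonunits)
    (hb : b ∉ Vs.nonunits) : a * b ∉ Vs.nonunits := by
  rw [ValuationSubring.mem_nonunits_iff, not_lt] at ha hb ⊢
  rw [map_mul]
  calc (1 : _) = 1 * 1 := (one_mul 1).symm
    _ ≤ Vs.valuation a * Vs.valuation b := mul_le_mul' ha hb

theorem notMem_nonunits_pow (Vs : ValuationSubring κ) {a : κ} (ha : a ∉ Vs.nonunits) (n : ℕ) :
    a ^ n ∉ Vs.nonunits := by
  induction n with
  | zero =>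
    rw [pow_zero, ValuationSubring.mem_nonunits_iff, map_one]
    exact lt_irrefl 1
  | succ n ih =>
    rw [pow_succ]
    exact notMem_nonunits_mul Vs ih ha

theorem mem_nonunits_of_pow_mem (Vs : ValuationSubring κ) {a : κ} {n : ℕ}
    (h : a ^ n ∈ Vs.nonunits) : a ∈ Vs.nonunits := by
  by_contra ha
  exact notMem_nonunits_pow Vs ha n h

/-- An element of `Vs` which is not a non-unit has its inverse in `Vs`. -/
theorem inv_mem_of_notMem_nonunits (Vs : ValuationSubring κ) {a : κ}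
    (ha : a ∉ Vs.nonunits) : a⁻¹ ∈ Vs := by
  rw [ValuationSubring.mem_nonunits_iff_or] at ha
  push Not at ha
  exact ha.2

end Val

/-! ### Finite places of the chart at infinity -/

section Fin

variable {W F κ : Type*} [CommRing W] [Field F] [Algebra W F] [Field κ]

/-- The element `x⁻¹` of the chart at infinity. -/
def xinv (W : Type*) {F : Type*} [CommRing W] [Field F] [Algebra W F] (x : F) : chart W x⁻¹ :=
  ⟨x⁻¹, self_mem_chart _⟩

/-- If the reduction of `x⁻¹` is a unit of `Vs ⊇ red B_∞`, then `Vs ⊇ red B`. -/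
theorem redOn_chart_mem_of_inv_unit {x : F} (hx : x ≠ 0) (O : ValuationSubring F)
    (red : O →+* κ)
    (hBO : ∀ b : chart W x, algebraMap (chart W x) F b ∈ O)
    (hBinfO : ∀ b : chart W x⁻¹, algebraMap (chart W x⁻¹) F b ∈ O)
    (Vs : ValuationSubring κ) (hVs : ∀ b : chart W x⁻¹, redOn O red hBinfO b ∈ Vs)
    (hu : redOn O red hBinfO (xinv W x) ∉ Vs.nonunits) :
    ∀ b : chart W x, redOn O red hBO b ∈ Vs := by
  -- the reduction of `x` lies in `Vs`
  have hxred : redOn O red hBO ⟨x, self_mem_chart x⟩ ∈ Vs := by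
    have h1 : redOn O red hBO ⟨x, self_mem_chart x⟩ * redOn O red hBinfO (xinv W x) = 1 := by
      rw [redOn_apply, redOn_apply, ← map_mul]
      have : (⟨algebraMap (chart W x) F ⟨x, self_mem_chart x⟩, hBO _⟩ : O) *
          ⟨algebraMap (chart W x⁻¹) F (xinv W x), hBinfO _⟩ = 1 := by
        apply Subtype.ext
        show x * x⁻¹ = 1
        exact mul_inv_cancel₀ hx
      rw [this, map_one]
    have h2 : redOn O red hBO ⟨x, self_mem_chart x⟩ = (redOn O red hBinfO (xinv W x))⁻¹ :=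
      eq_inv_of_mul_eq_one_left h1
    rw [h2]
    exact inv_mem_of_notMem_nonunits Vs hu
  -- the reduction of `W[x]` lies in `Vs`
  have key : ∀ (z : F) (hz : z ∈ Algebra.adjoin W {x}),
      redOn O red hBO ⟨z, adjoin_le_chart x hz⟩ ∈ Vs := by
    intro z hz
    induction hz using Algebra.adjoin_induction with
    | mem z hz =>
      rw [Set.mem_singleton_iff] at hz
      subst hz
      exact hxred
    | algebraMap w =>
      have h1 : redOn O red hBO ⟨algebraMap W F w, adjoin_le_chart x (algebraMap_mem _ w)⟩ =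
          redOn O red hBinfO (algebraMap W (chart W x⁻¹) w) := rfl
      rw [h1]
      exact hVs _
    | add z₁ z₂ h₁ h₂ ih₁ ih₂ =>
      have h1 : (⟨z₁ + z₂, adjoin_le_chart x (add_mem h₁ h₂)⟩ : chart W x) =
          ⟨z₁, adjoin_le_chart x h₁⟩ + ⟨z₂, adjoin_le_chart x h₂⟩ := rfl
      rw [h1, map_add]
      exact Vs.add_mem _ _ ih₁ ih₂
    | mul z₁ z₂ h₁ h₂ ih₁ ih₂ =>
      have h1 : (⟨z₁ * z₂, adjoin_le_chart x (mul_mem h₁ h₂)⟩ : chart W x) =
          ⟨z₁, adjoin_le_chart x h₁⟩ * ⟨z₂, adjoin_le_chart x h₂⟩ := rfl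
      rw [h1, map_mul]
      exact Vs.mul_mem _ _ ih₁ ih₂
  -- integrality
  let ι : ↥(Algebra.adjoin W {x}) →+* ↥(chart W x) :=
    (Subalgebra.inclusion (adjoin_le_chart (W := W) x)).toRingHom
  let ρ₀ : ↥(Algebra.adjoin W {x}) →+* ↥Vs :=
    ((redOn O red hBO).comp ι).codRestrict Vs.toSubring (fun z => key z.1 z.2)
  intro b
  obtain ⟨p, hp, hpb⟩ := (mem_chart_iff.mp b.2 : IsIntegral (Algebra.adjoin W {x}) (b : F))
  have h1 : Polynomial.eval₂ ι b p = 0 := by
    apply Subtype.ext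
    have h2 := Polynomial.hom_eval₂ p ι (algebraMap ↥(chart W x) F) b
    have h3 : (algebraMap ↥(chart W x) F).comp ι = algebraMap ↥(Algebra.adjoin W {x}) F := rfl
    rw [h3] at h2
    have h4 : algebraMap ↥(chart W x) F b = (b : F) := rfl
    rw [h4, hpb] at h2
    exact h2
  have h5 : IsIntegral ↥Vs (redOn O red hBO b) := by
    refine ⟨p.map ρ₀, hp.map _, ?_⟩
    rw [Polynomial.eval₂_map]
    have h6 : (algebraMap ↥Vs κ).comp ρ₀ = (redOn O red hBO).comp ι := rfl
    rw [h6, ← Polynomial.hom_eval₂, h1, map_zero]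
  obtain ⟨w, hw⟩ := IsIntegrallyClosed.isIntegral_iff.mp h5
  rw [← hw]
  exact w.2

/-- **Finite places.**  A fraction of the finite chart with unit denominator gives a fraction of
the chart at infinity with unit denominator, as soon as the reduction of `x⁻¹` is a unit. -/
theorem lift_of_fin {x : F} (hx : x ≠ 0) (O : ValuationSubring F) (red : O →+* κ)
    (hBO : ∀ b : chart W x, algebraMap (chart W x) F b ∈ O)
    (hBinfO : ∀ b : chart W x⁻¹, algebraMap (chart W x⁻¹) F b ∈ O)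
    (Vs : ValuationSubring κ)
    (hu : redOn O red hBinfO (xinv W x) ∉ Vs.nonunits) {c : κ} {a b : chart W x}
    (hb : redOn O red hBO b ∉ Vs.nonunits)
    (hab : redOn O red hBO a = c * redOn O red hBO b) :
    ∃ a' b' : chart W x⁻¹, redOn O red hBinfO b' ∉ Vs.nonunits ∧
      redOn O red hBinfO a' = c * redOn O red hBinfO b' := by
  obtain ⟨n₁, h₁⟩ := exists_inv_pow_mul_mem_chart (W := W) hx a.2
  obtain ⟨n₂, h₂⟩ := exists_inv_pow_mul_mem_chart (W := W) hx b.2
  have hxm : x⁻¹ ∈ chart W x⁻¹ := self_mem_chart _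
  have ha' : x⁻¹ ^ (n₁ + n₂) * (a : F) ∈ chart W x⁻¹ := by
    have : x⁻¹ ^ (n₁ + n₂) * (a : F) = x⁻¹ ^ n₂ * (x⁻¹ ^ n₁ * (a : F)) := by ring
    rw [this]
    exact mul_mem (pow_mem hxm _) h₁
  have hb' : x⁻¹ ^ (n₁ + n₂) * (b : F) ∈ chart W x⁻¹ := by
    have : x⁻¹ ^ (n₁ + n₂) * (b : F) = x⁻¹ ^ n₁ * (x⁻¹ ^ n₂ * (b : F)) := by ring
    rw [this]
    exact mul_mem (pow_mem hxm _) h₂
  have hred : ∀ (z : chart W x) (hz : x⁻¹ ^ (n₁ + n₂) * (z : F) ∈ chart W x⁻¹),
      redOn O red hBinfO ⟨_, hz⟩ =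
        redOn O red hBinfO (xinv W x) ^ (n₁ + n₂) * redOn O red hBO z := by
    intro z hz
    rw [redOn_apply, redOn_apply, redOn_apply, ← map_pow, ← map_mul]
    congr 1
  refine ⟨⟨_, ha'⟩, ⟨_, hb'⟩, ?_, ?_⟩
  · rw [hred b hb']
    exact notMem_nonunits_mul Vs (notMem_nonunits_pow Vs hu _) hb
  · rw [hred a ha', hred b hb', hab]
    ring

end Fin

/-! ### Cusp places: transport of the level-`N` lift at infinity -/

section Cusp

open HahnSeries ModularCurve Polynomial AlgebraicCurve Fermat.Agent.S28 IntermediateField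
  Fermat.Agent.Lib.FF Fermat.Agent.Lib.Red Fermat.Agent.S24 Fermat.Agent.CAR

variable {L : Type*} [Field L] [Algebra ℚ L] {A : ValuationSubring L} {k : Type} [Field k]
  {π : A →+* k} {N : ℕ} [NeZero N] (B : BaseFn.Data A π N)
  (hπ : ∀ a : A, ¬ IsUnit a → π a = 0) (hsurj : Function.Surjective π) (hNk : (N : k) ≠ 0)

/-- **The lift at the cusp places of level `N`**: the literal conclusion of `Lift.lift_frac_inf`
at the places where `x̄` has a pole. -/
def CuspLift : Prop :=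
  ∀ Q : Place k ↥(modularFunctionFieldFullC k N), Q.ord (B.xt hπ hNk) < 0 →
    ∀ c : ↥(modularFunctionFieldFullC k N), 0 ≤ Q.ord c →
      ∃ a b : Ow A π N hNk,
        (a : ↥(laurentBaseChange L (modularFunctionFieldFull N))) ∈ Lift.Binf B hNk ∧
        (b : ↥(laurentBaseChange L (modularFunctionFieldFull N))) ∈ Lift.Binf B hNk ∧
        Q.ord (redF A π N hπ hNk b) = 0 ∧ redF A π N hπ hNk b ≠ 0 ∧
        redF A π N hπ hNk a = c * redF A π N hπ hNk b

include hsurj in
/-- `CuspLift` from `T3'` (for `x = J`: residue characteristic `≥ 5`). -/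
theorem cuspLift_of_T3' [IsAlgClosed k] (h : Lift.T3' B hπ hNk) : CuspLift B hπ hNk :=
  fun Q hQ _ hc => Lift.lift_frac_inf B hπ hsurj hNk h Q hQ.le hc

variable {F : Type*} [Field F] [Algebra L F] {W : Type*} [CommRing W] [Algebra W F]

include hπ hsurj in
/-- **`φ (B'_∞) ⊆ B_∞`**: a pull-back `φ` with `(φ x')⁻¹ ∈ B_∞` maps the level-`N` chart at
infinity `Lift.Binf B` into the chart at infinity `chart W x⁻¹`. -/
theorem map_mem_chart_inv (E : LaurentSeries A) (hE : E * B.X = 1) {x : F}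
    (hA : ∀ a : A, algebraMap L F (a : L) ∈ chart W x⁻¹)
    (φ : ↥(laurentBaseChange L (modularFunctionFieldFull N)) →ₐ[L] F)
    (hφx : (φ B.x)⁻¹ ∈ chart W x⁻¹)
    {y : ↥(laurentBaseChange L (modularFunctionFieldFull N))} (hy : y ∈ Lift.Binf B hNk) :
    φ y ∈ chart W x⁻¹ := by
  have h1 : IsIntegral ↥((LiftInv.invData B E hE).AX) y :=
    (LiftInv.isIntegral_invData_iff B hπ hsurj hNk E hE).mpr hy
  have h2 : IsIntegral ↥(chart W x⁻¹).toSubring (φ y) := by
    refine LiftInv.isIntegral_map_cusp B E hE φ (chart W x⁻¹).toSubring hA ?_ h1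
    exact isIntegral_algebraMap (R := ↥(chart W x⁻¹).toSubring) (A := F) (x := ⟨_, hφx⟩)
  exact mem_chart_of_isIntegral h2

include hsurj in
/-- **Cusp places.**  If `x̄'⁻¹` is a non-unit of `Vs ⊇ red B_∞`, every `c ∈ Vs` is a fraction of
reductions of `B_∞` with unit denominator. -/
theorem lift_of_cusp (E : LaurentSeries A) (hE : E * B.X = 1) (hL : CuspLift B hπ hNk) {x : F}
    (hA : ∀ a : A, algebraMap L F (a : L) ∈ chart W x⁻¹)
    (φ : ↥(laurentBaseChange L (modularFunctionFieldFull N)) →ₐ[L] F)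
    (hφx : (φ B.x)⁻¹ ∈ chart W x⁻¹)
    (O : ValuationSubring F) (red : O →+* ↥(modularFunctionFieldFullC k N))
    (hBinfO : ∀ b : chart W x⁻¹, algebraMap (chart W x⁻¹) F b ∈ O)
    (hφred : ∀ (y : Ow A π N hNk)
      (hy : φ (y : ↥(laurentBaseChange L (modularFunctionFieldFull N))) ∈ O),
      red ⟨φ y, hy⟩ = redF A π N hπ hNk y)
    (Vs : ValuationSubring ↥(modularFunctionFieldFullC k N)) (htop : Vs ≠ ⊤)
    (hVs : ∀ b : chart W x⁻¹, redOn O red hBinfO b ∈ Vs)
    (hcusp : (B.xt hπ hNk)⁻¹ ∈ Vs.nonunits) :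
    ∀ c ∈ Vs, ∃ a b : chart W x⁻¹, redOn O red hBinfO b ∉ Vs.nonunits ∧
      redOn O red hBinfO a = c * redOn O red hBinfO b := by
  intro c hc
  -- the reduction through `φ`
  have hred : ∀ (y : Ow A π N hNk)
      (hy : φ (y : ↥(laurentBaseChange L (modularFunctionFieldFull N))) ∈ chart W x⁻¹),
      redOn O red hBinfO ⟨_, hy⟩ = redF A π N hπ hNk y := fun y hy => hφred y (hBinfO ⟨_, hy⟩)
  -- the constants lie in `Vs`
  have hk : ∀ a : k, algebraMap k ↥(modularFunctionFieldFullC k N) a ∈ Vs := by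
    intro a
    obtain ⟨a', rfl⟩ := hsurj a
    have h1 : φ (algebraMap L ↥(laurentBaseChange L (modularFunctionFieldFull N)) (a' : L)) ∈
        chart W x⁻¹ := by
      rw [AlgHom.commutes]
      exact hA a'
    have h2 := hred ⟨algebraMap L _ (a' : L), (algebraMap_mem_Ow_iff hπ hNk (a' : L)).mpr a'.2⟩ h1
    rw [redF_algebraMap] at h2
    rw [← h2]
    exact hVs _
  -- the place
  have hfd : FiniteDimensional ↥(k⟮B.xt hπ hNk⟯) ↥(modularFunctionFieldFullC k N) :=
    B.finite_k hπ hsurj hNk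
  obtain ⟨Q, hQ⟩ := PlaceBridge.exists_place_eq (B.xt hπ hNk) Vs hk htop
  have hQx : Q.ord (B.xt hπ hNk) < 0 := by
    rw [← hQ, ValuationSubring.mem_nonunits_iff_or, inv_inv] at hcusp
    rcases hcusp with h0 | h0
    · exfalso
      rw [inv_eq_zero] at h0
      have h1 : IsAlgebraic k (B.xt hπ hNk) := by
        rw [h0]
        exact isAlgebraic_zero
      exact B.transcendental_xt hπ hNk h1
    · exact (notMem_iff_ord_neg Q).mp h0
  have hQc : 0 ≤ Q.ord c := ord_nonneg_of_mem Q (by rw [hQ]; exact hc)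
  obtain ⟨a, b, ha, hb, hb0, hbne, hab⟩ := hL Q hQx c hQc
  have ha' := map_mem_chart_inv B hπ hsurj hNk E hE hA φ hφx ha
  have hb' := map_mem_chart_inv B hπ hsurj hNk E hE hA φ hφx hb
  refine ⟨⟨_, ha'⟩, ⟨_, hb'⟩, ?_, ?_⟩
  · rw [hred b hb', ← hQ]
    exact PlaceBridge.notMem_nonunits_of_ord_eq_zero Q hbne hb0
  · rw [hred a ha', hred b hb', hab]

include hsurj in
/-- **(LIFT) for the chart at infinity, one component**: every valuation ring `Vs ≠ ⊤` of `κ`
containing the reduction of `B_∞ = chart W x⁻¹` is a localisation of that reduction, given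
(a) the same statement for the finite chart `B = chart W x` (`V3Base.lift`),
(b) the level-`N` lift at the cusp places (`CuspLift`), and a pull-back `φ` with
`red ∘ φ = redF`, `(φ x')⁻¹ ∈ B_∞`, `red x⁻¹ = (x̄'⁻¹) ^ n`. -/
theorem lift_component (E : LaurentSeries A) (hE : E * B.X = 1) (hL : CuspLift B hπ hNk) {x : F}
    (hx : x ≠ 0) (hA : ∀ a : A, algebraMap L F (a : L) ∈ chart W x⁻¹)
    (φ : ↥(laurentBaseChange L (modularFunctionFieldFull N)) →ₐ[L] F)
    (hφx : (φ B.x)⁻¹ ∈ chart W x⁻¹)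
    (O : ValuationSubring F) (red : O →+* ↥(modularFunctionFieldFullC k N))
    (hBO : ∀ b : chart W x, algebraMap (chart W x) F b ∈ O)
    (hBinfO : ∀ b : chart W x⁻¹, algebraMap (chart W x⁻¹) F b ∈ O)
    (hφred : ∀ (y : Ow A π N hNk)
      (hy : φ (y : ↥(laurentBaseChange L (modularFunctionFieldFull N))) ∈ O),
      red ⟨φ y, hy⟩ = redF A π N hπ hNk y)
    (hxred : ∃ n : ℕ, redOn O red hBinfO (xinv W x) = ((B.xt hπ hNk)⁻¹) ^ n)
    (Vs : ValuationSubring ↥(modularFunctionFieldFullC k N)) (htop : Vs ≠ ⊤)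
    (hVs : ∀ b : chart W x⁻¹, redOn O red hBinfO b ∈ Vs)
    (hfin : (∀ b : chart W x, redOn O red hBO b ∈ Vs) →
      ∀ c ∈ Vs, ∃ a b : chart W x, redOn O red hBO b ∉ Vs.nonunits ∧
        redOn O red hBO a = c * redOn O red hBO b) :
    ∀ c ∈ Vs, ∃ a b : chart W x⁻¹, redOn O red hBinfO b ∉ Vs.nonunits ∧
      redOn O red hBinfO a = c * redOn O red hBinfO b := by
  by_cases hu : redOn O red hBinfO (xinv W x) ∈ Vs.nonunits
  · obtain ⟨n, hn⟩ := hxred
    rw [hn] at hu
    exact lift_of_cusp B hπ hsurj hNk E hE hL hA φ hφx O red hBinfO hφred Vs htop hVs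
      (mem_nonunits_of_pow_mem Vs hu)
  · intro c hc
    obtain ⟨a, b, hb, hab⟩ :=
      hfin (redOn_chart_mem_of_inv_unit hx O red hBO hBinfO Vs hVs hu) c hc
    exact lift_of_fin hx O red hBO hBinfO Vs hu hb hab

include hsurj in
/-- **Brick B4: the `lift` field of `V3Base` for the chart at infinity** (three components
`O i`, pull-backs `φ i`; for CAR `φ 0 = φ 1 = π₀^*`, `φ 2 = π₂^*`, `x = J₀ J₂`, `B = ofJ`). -/
theorem v3Base_lift_inf (E : LaurentSeries A) (hE : E * B.X = 1) (hL : CuspLift B hπ hNk)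
    {x : F} (hx : x ≠ 0) (hA : ∀ a : A, algebraMap L F (a : L) ∈ chart W x⁻¹)
    (φ : Fin 3 → ↥(laurentBaseChange L (modularFunctionFieldFull N)) →ₐ[L] F)
    (hφx : ∀ i, (φ i B.x)⁻¹ ∈ chart W x⁻¹)
    (O : Fin 3 → ValuationSubring F) (red : ∀ i, O i →+* ↥(modularFunctionFieldFullC k N))
    (hBO : ∀ i, ∀ b : chart W x, algebraMap (chart W x) F b ∈ O i)
    (hBinfO : ∀ i, ∀ b : chart W x⁻¹, algebraMap (chart W x⁻¹) F b ∈ O i)
    (hφred : ∀ i, ∀ (y : Ow A π N hNk)
      (hy : φ i (y : ↥(laurentBaseChange L (modularFunctionFieldFull N))) ∈ O i),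
      red i ⟨φ i y, hy⟩ = redF A π N hπ hNk y)
    (hxred : ∀ i, ∃ n : ℕ, redOn (O i) (red i) (hBinfO i) (xinv W x) = ((B.xt hπ hNk)⁻¹) ^ n)
    (hfin : ∀ i, ∀ Vs : ValuationSubring ↥(modularFunctionFieldFullC k N), Vs ≠ ⊤ →
      (∀ b : chart W x, redOn (O i) (red i) (hBO i) b ∈ Vs) →
      ∀ c ∈ Vs, ∃ a b : chart W x, redOn (O i) (red i) (hBO i) b ∉ Vs.nonunits ∧
        redOn (O i) (red i) (hBO i) a = c * redOn (O i) (red i) (hBO i) b) :
    ∀ i, ∀ Vs : ValuationSubring ↥(modularFunctionFieldFullC k N), Vs ≠ ⊤ →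
      (∀ b : chart W x⁻¹, redOn (O i) (red i) (hBinfO i) b ∈ Vs) →
      ∀ c ∈ Vs, ∃ a b : chart W x⁻¹, redOn (O i) (red i) (hBinfO i) b ∉ Vs.nonunits ∧
        redOn (O i) (red i) (hBinfO i) a = c * redOn (O i) (red i) (hBinfO i) b :=
  fun i Vs htop hVs =>
    lift_component B hπ hsurj hNk E hE hL hx hA (φ i) (hφx i) (O i) (red i) (hBO i) (hBinfO i)
      (hφred i) (hxred i) Vs htop hVs (hfin i Vs htop)

end Cusp

end Fermat.Agent.CAR.Local.Inst.LiftInf
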