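import Mathlib
import Fermat.Agent.CAR.Local.Exhaust

/-!
# CAR-17 (P-6): (UNIQ) — a point lying on all components is the only point over its image

Abstract setting: `A` a chart ring of the normal model at level `M`, a family `O j ⊇ A` of
valuation subrings with residue maps `ρ j : O j → κ` (the components), the centres of the `O j`
being the only primes minimal over `(q)`; `φ : AN → A` the pull-back from a chart ring of a lower
level (`α^*` or `β^*`).

`eq_of_comap_eq` : let `P` be a point lying on ALL components, `P = (j, s_j)` for every `j` (a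
triple point).  Assume exhaustion (every maximal ideal on the component `j` is a point `(j, s)`,
`s` in a class `Pl` of places) and separation (two places in `Pl` at which the same functions
`ρ j (φ y)`, `y ∈ AN`, vanish are equal).  Then every maximal ideal `P'` of `A` containing `q`
with `φ⁻¹ P' = φ⁻¹ P` equals `P`: the triple point is the only point over the node.
-/

set_option autoImplicit false

namespace Fermat.Agent.CAR.Local.Inst.Uniq

open IsLocalRing

variable {A F κ : Type*} [CommRing A] [Field F] [Algebra A F] [Field κ] {ι : Type*}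
  (O : ι → ValuationSubring F) (ρ : ∀ i, O i →+* κ)
  (hρ : ∀ i, ∀ x : O i, ρ i x = 0 ↔ x ∈ maximalIdeal (O i))
  (hAO : ∀ i, ∀ a : A, algebraMap A F a ∈ O i)

/-- The contraction of a point `(j, s)` along `φ : AN → A` consists of the `y` whose pulled-back
reduction vanishes at `s`. -/
theorem mem_comap_pointIdeal_iff {AN : Type*} [CommRing AN] (φ : AN →+* A) (j : ι)
    (Vs : ValuationSubring κ)
    (hA : ∀ x : A, algebraMap A F x ∈ compositeSubring (O j) (ρ j) (hρ j) Vs) (y : AN) :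
    y ∈ (pointIdeal (O j) (ρ j) (hρ j) Vs hA).comap φ ↔
      redOn (O j) (ρ j) (hAO j) (φ y) ∈ Vs.nonunits := by
  rw [Ideal.mem_comap, mem_pointIdeal_iff_redOn (O j) (ρ j) (hρ j) (hAO j) Vs hA]

/-- **(UNIQ).**  A point `P` lying on all components is the only maximal ideal containing `q`
with the same contraction along `φ`. -/
theorem eq_of_comap_eq {q : A}
    (hmin : ∀ 𝔮 ∈ (Ideal.span {q}).minimalPrimes, ∃ i, 𝔮 = centre (O i) (hAO i))
    (Pl : ValuationSubring κ → Prop)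
    (hA : ∀ j Vs, Pl Vs → ∀ x : A, algebraMap A F x ∈ compositeSubring (O j) (ρ j) (hρ j) Vs)
    (hex : ∀ j (P : Ideal A), P.IsMaximal → centre (O j) (hAO j) ≤ P →
      ∃ Vs, ∃ h : Pl Vs, pointIdeal (O j) (ρ j) (hρ j) Vs (hA j Vs h) = P)
    {AN : Type*} [CommRing AN] (φ : AN →+* A)
    (hsep : ∀ j Vs Vs', Pl Vs → Pl Vs' →
      (∀ y : AN, redOn (O j) (ρ j) (hAO j) (φ y) ∈ Vs.nonunits →
        redOn (O j) (ρ j) (hAO j) (φ y) ∈ Vs'.nonunits) → Vs = Vs')
    (P : Ideal A) (Vs : ι → ValuationSubring κ) (hPl : ∀ j, Pl (Vs j))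
    (hP : ∀ j, pointIdeal (O j) (ρ j) (hρ j) (Vs j) (hA j (Vs j) (hPl j)) = P)
    (P' : Ideal A) [hP'max : P'.IsMaximal] (hqP' : q ∈ P') (hP' : P'.comap φ = P.comap φ) :
    P' = P := by
  obtain ⟨j, hj⟩ := exists_centre_le_of_mem O hAO q hmin P' hqP'
  obtain ⟨Vs', h', hPj⟩ := hex j P' hP'max hj
  have hVs : Vs' = Vs j := by
    refine hsep j Vs' (Vs j) h' (hPl j) (fun y hy => ?_)
    have h1 : y ∈ (pointIdeal (O j) (ρ j) (hρ j) Vs' (hA j Vs' h')).comap φ :=
      (mem_comap_pointIdeal_iff O ρ hρ hAO φ j Vs' (hA j Vs' h') y).2 hy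
    rw [hPj, hP', ← hP j] at h1
    exact (mem_comap_pointIdeal_iff O ρ hρ hAO φ j (Vs j) (hA j (Vs j) (hPl j)) y).1 h1
  subst hVs
  rw [← hPj]
  exact hP j

/-- **(UNIQ)**, with `q` coming from the lower level: if `q = φ qN` and `q ∈ P`, the hypothesis
`q ∈ P'` is automatic. -/
theorem eq_of_comap_eq' {q : A}
    (hmin : ∀ 𝔮 ∈ (Ideal.span {q}).minimalPrimes, ∃ i, 𝔮 = centre (O i) (hAO i))
    (Pl : ValuationSubring κ → Prop)
    (hA : ∀ j Vs, Pl Vs → ∀ x : A, algebraMap A F x ∈ compositeSubring (O j) (ρ j) (hρ j) Vs)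
    (hex : ∀ j (P : Ideal A), P.IsMaximal → centre (O j) (hAO j) ≤ P →
      ∃ Vs, ∃ h : Pl Vs, pointIdeal (O j) (ρ j) (hρ j) Vs (hA j Vs h) = P)
    {AN : Type*} [CommRing AN] (φ : AN →+* A) (qN : AN) (hqN : φ qN = q)
    (hsep : ∀ j Vs Vs', Pl Vs → Pl Vs' →
      (∀ y : AN, redOn (O j) (ρ j) (hAO j) (φ y) ∈ Vs.nonunits →
        redOn (O j) (ρ j) (hAO j) (φ y) ∈ Vs'.nonunits) → Vs = Vs')
    (P : Ideal A) (hqP : q ∈ P) (Vs : ι → ValuationSubring κ) (hPl : ∀ j, Pl (Vs j))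
    (hP : ∀ j, pointIdeal (O j) (ρ j) (hρ j) (Vs j) (hA j (Vs j) (hPl j)) = P)
    (P' : Ideal A) [P'.IsMaximal] (hP' : P'.comap φ = P.comap φ) : P' = P := by
  refine eq_of_comap_eq O ρ hρ hAO hmin Pl hA hex φ hsep P Vs hPl hP P' ?_ hP'
  have h1 : qN ∈ P'.comap φ := by
    rw [hP', Ideal.mem_comap, hqN]
    exact hqP
  rw [← hqN]
  exact h1

/-- **Separation through a purely inseparable twist.**  If `ψ : κ → κ` is a ring homomorphism
such that every `z ^ n` (`n ≠ 0` fixed) is in its image, then `ψ⁻¹ Vs ≤ ψ⁻¹ Vs'` implies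
`Vs ≤ Vs'` for valuation subrings of `κ`. -/
theorem le_of_comap_le (ψ : κ →+* κ) {n : ℕ} (hn : n ≠ 0)
    (hψ : ∀ z : κ, ∃ z' : κ, ψ z' = z ^ n) (Vs Vs' : ValuationSubring κ)
    (h : Vs.comap ψ ≤ Vs'.comap ψ) : Vs ≤ Vs' := by
  intro z hz
  obtain ⟨z', hz'⟩ := hψ z
  have h1 : z' ∈ Vs.comap ψ := by
    rw [ValuationSubring.mem_comap, hz']
    exact pow_mem hz n
  have h2 : z ^ n ∈ Vs' := by
    have h3 := h h1
    rw [ValuationSubring.mem_comap, hz'] at h3
    exact h3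
  -- valuation rings are integrally closed: `z ^ n ∈ Vs'` implies `z ∈ Vs'`
  rcases Vs'.mem_or_inv_mem z with h3 | h3
  · exact h3
  · have h4 : z ^ n * z⁻¹ ^ (n - 1) = z := by
      rcases eq_or_ne z 0 with rfl | hz0
      · simp [zero_pow hn]
      · obtain ⟨k, rfl⟩ : ∃ k, n = k + 1 := Nat.exists_eq_succ_of_ne_zero hn
        rw [Nat.add_sub_cancel, pow_succ, inv_pow, mul_assoc, mul_comm z, ← mul_assoc,
          mul_inv_cancel₀ (pow_ne_zero k hz0), one_mul]
    rw [← h4]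
    exact Vs'.mul_mem _ _ h2 (pow_mem h3 _)

/-- A valuation subring of `κ` is determined by its preimage under such a `ψ`. -/
theorem eq_of_comap_eq_comap (ψ : κ →+* κ) {n : ℕ} (hn : n ≠ 0)
    (hψ : ∀ z : κ, ∃ z' : κ, ψ z' = z ^ n) (Vs Vs' : ValuationSubring κ)
    (h : Vs.comap ψ = Vs'.comap ψ) : Vs = Vs' :=
  le_antisymm (le_of_comap_le ψ hn hψ Vs Vs' h.le) (le_of_comap_le ψ hn hψ Vs' Vs h.ge)

/-- The non-units of the preimage valuation ring. -/
theorem mem_nonunits_comap_iff (ψ : κ →+* κ) (Vs : ValuationSubring κ) (z : κ) :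
    z ∈ (Vs.comap ψ).nonunits ↔ ψ z ∈ Vs.nonunits := by
  rw [ValuationSubring.mem_nonunits_iff_or, ValuationSubring.mem_nonunits_iff_or,
    ValuationSubring.mem_comap, map_inv₀, map_eq_zero]

/-- **Separation for a twisted pull-back.**  If the functions `r y`, `y ∈ AN`, separate the places
of a class `Pl'` and `ψ⁻¹` maps the class `Pl` into `Pl'`, then the functions `ψ (r y)` separate
the places of the class `Pl`. -/
theorem sep_of_twist {AN : Type*} [CommRing AN] (r : AN →+* κ) (ψ : κ →+* κ) {n : ℕ}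
    (hn : n ≠ 0) (hψ : ∀ z : κ, ∃ z' : κ, ψ z' = z ^ n) (Pl Pl' : ValuationSubring κ → Prop)
    (hPl : ∀ Vs, Pl Vs → Pl' (Vs.comap ψ))
    (hsep : ∀ Vs Vs', Pl' Vs → Pl' Vs' →
      (∀ y : AN, r y ∈ Vs.nonunits → r y ∈ Vs'.nonunits) → Vs = Vs')
    (Vs Vs' : ValuationSubring κ) (h : Pl Vs) (h' : Pl Vs')
    (hy : ∀ y : AN, ψ (r y) ∈ Vs.nonunits → ψ (r y) ∈ Vs'.nonunits) : Vs = Vs' := by
  refine eq_of_comap_eq_comap ψ hn hψ Vs Vs' (hsep _ _ (hPl Vs h) (hPl Vs' h') (fun y hy' => ?_))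
  rw [mem_nonunits_comap_iff] at hy' ⊢
  exact hy y hy'

end Fermat.Agent.CAR.Local.Inst.Uniq
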