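import Mathlib
import Fermat.Agent.CAR.Local.Inst.Uniq
import Fermat.Agent.CAR.Local.Inst

/-!
# CAR-17 (P-6): (UNIQ) from (LIFT) at the level of good reduction

`Uniq.eq_of_comap_eq` reduces (UNIQ) to exhaustion and to a separation statement for the
pulled-back functions.  Here the separation is derived from (LIFT) for a ring `B'` of good
reduction (for CAR: the chart ring of level `M'`, `q ∤ M'`, with its reduction
`red' : B' → κ`), so that the instance has to supply, for every component `j` of the model `A` of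
level `M`, only

* a ring homomorphism `π j : B' → AN` into the chart ring of the lower level `N` (a degeneracy
  map), and a twist `ψ j : κ → κ` (the identity or the Frobenius-type map `qExpand k q`) with
  `red_j (φ (π j b)) = ψ j (red' b)`;
* (LIFT) for `red'` : every valuation ring `≠ ⊤` of `κ` containing `red' B'` is a localisation of
  `red' B'`.

Main statements:

* `le_of_lift`, `eq_of_lift` : two valuation rings containing `red' B'` with the same centre on
  `B'` are equal (given (LIFT));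
* `eq_of_comap_eq_of_lift` : **(UNIQ)** — a closed point `P` of `A` lying on all components is
  the only maximal ideal `P' ∋ q` of `A` with `φ⁻¹ P' = φ⁻¹ P`;
* `huniq_of_lift` : the same in the literal shape of the hypothesis `huniq` of
  `Glue/NodeNorm.lean`;
* `V3Base.huniq` : the same for the three components of `Inst.V3Base`.
-/

set_option autoImplicit false

namespace Fermat.Agent.CAR.Local.Inst.Uniq

open IsLocalRing Fermat.Agent.CAR.Local

section Places

variable {κ : Type*} [Field κ]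

/-- An element of a valuation ring which is not a non-unit has its inverse in the ring. -/
theorem inv_mem_of_notMem_nonunits (Vs : ValuationSubring κ) {z : κ} (hz : z ∉ Vs.nonunits) :
    z⁻¹ ∈ Vs := by
  rw [ValuationSubring.mem_nonunits_iff_or] at hz
  push Not at hz
  exact hz.2

/-- The preimage of a proper valuation ring under a purely inseparable twist is proper. -/
theorem comap_ne_top (ψ : κ →+* κ) {n : ℕ} (hn : n ≠ 0)
    (hψ : ∀ z : κ, ∃ z' : κ, ψ z' = z ^ n) (Vs : ValuationSubring κ) (h : Vs ≠ ⊤) :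
    Vs.comap ψ ≠ ⊤ := by
  intro htop
  apply h
  have h1 : (⊤ : ValuationSubring κ).comap ψ = ⊤ := by
    ext z
    simp [ValuationSubring.mem_comap]
  exact eq_of_comap_eq_comap ψ hn hψ Vs ⊤ (htop.trans h1.symm)

variable {B' : Type*} [CommRing B'] (red' : B' →+* κ)

/-- **(LIFT) gives separation, one inclusion.**  If `V` is a localisation of `red' B'` and every
`b` with `red' b` a unit of `V` has `red' b` a unit of `V'`, then `V ≤ V'`. -/
theorem le_of_lift (V V' : ValuationSubring κ)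
    (hlift : ∀ c ∈ V, ∃ a b : B', red' b ∉ V.nonunits ∧ red' a = c * red' b)
    (hV' : ∀ b : B', red' b ∈ V')
    (h : ∀ b : B', red' b ∈ V'.nonunits → red' b ∈ V.nonunits) : V ≤ V' := by
  intro c hc
  obtain ⟨a, b, hb, hab⟩ := hlift c hc
  have hb' : red' b ∉ V'.nonunits := fun hc' => hb (h b hc')
  have hb0 : red' b ≠ 0 := by
    intro h0
    apply hb
    rw [h0]
    exact (ValuationSubring.mem_nonunits_iff_or V).2 (Or.inl rfl)
  have hc' : c = red' a * (red' b)⁻¹ := by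
    rw [hab, mul_assoc, mul_inv_cancel₀ hb0, mul_one]
  rw [hc']
  exact V'.mul_mem _ _ (hV' a) (inv_mem_of_notMem_nonunits V' hb')

/-- **(LIFT) gives separation.**  Two valuation rings `≠ ⊤` of `κ` containing `red' B'` with the
same centre on `B'` are equal. -/
theorem eq_of_lift
    (hlift : ∀ V : ValuationSubring κ, V ≠ ⊤ → (∀ b : B', red' b ∈ V) →
      ∀ c ∈ V, ∃ a b : B', red' b ∉ V.nonunits ∧ red' a = c * red' b)
    (V V' : ValuationSubring κ) (hV0 : V ≠ ⊤) (hV'0 : V' ≠ ⊤) (hV : ∀ b : B', red' b ∈ V)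
    (hV' : ∀ b : B', red' b ∈ V')
    (h : ∀ b : B', red' b ∈ V.nonunits ↔ red' b ∈ V'.nonunits) : V = V' :=
  le_antisymm (le_of_lift red' V V' (hlift V hV0 hV) hV' (fun b hb => (h b).2 hb))
    (le_of_lift red' V' V (hlift V' hV'0 hV') hV (fun b hb => (h b).1 hb))

/-- Separation through a twist: if `ψ (red' b)` vanishes at `Vs` exactly when it vanishes at
`Vs'` (for all `b`), then `Vs = Vs'`. -/
theorem eq_of_lift_twist
    (hlift : ∀ V : ValuationSubring κ, V ≠ ⊤ → (∀ b : B', red' b ∈ V) →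
      ∀ c ∈ V, ∃ a b : B', red' b ∉ V.nonunits ∧ red' a = c * red' b)
    (ψ : κ →+* κ) {n : ℕ} (hn : n ≠ 0) (hψ : ∀ z : κ, ∃ z' : κ, ψ z' = z ^ n)
    (Vs Vs' : ValuationSubring κ) (hVs0 : Vs ≠ ⊤) (hVs'0 : Vs' ≠ ⊤)
    (hVs : ∀ b : B', ψ (red' b) ∈ Vs) (hVs' : ∀ b : B', ψ (red' b) ∈ Vs')
    (h : ∀ b : B', ψ (red' b) ∈ Vs.nonunits ↔ ψ (red' b) ∈ Vs'.nonunits) : Vs = Vs' := by
  refine eq_of_comap_eq_comap ψ hn hψ Vs Vs' (eq_of_lift red' hlift _ _
    (comap_ne_top ψ hn hψ Vs hVs0) (comap_ne_top ψ hn hψ Vs' hVs'0)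
    (fun b => ValuationSubring.mem_comap.2 (hVs b))
    (fun b => ValuationSubring.mem_comap.2 (hVs' b)) (fun b => ?_))
  rw [mem_nonunits_comap_iff, mem_nonunits_comap_iff]
  exact h b

end Places

section Uniq

variable {A F κ : Type*} [CommRing A] [Field F] [Algebra A F] [Field κ] {ι : Type*}
  (O : ι → ValuationSubring F) (ρ : ∀ i, O i →+* κ)
  (hρ : ∀ i, ∀ x : O i, ρ i x = 0 ↔ x ∈ maximalIdeal (O i))
  (hAO : ∀ i, ∀ a : A, algebraMap A F a ∈ O i)

/-- The place of a closed point is not the trivial valuation ring, if the component is not a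
closed point. -/
theorem ne_top_of_pointIdeal_isMaximal (j : ι) (hnm : ¬ (centre (O j) (hAO j)).IsMaximal)
    (Vs : ValuationSubring κ)
    (hA : ∀ x : A, algebraMap A F x ∈ compositeSubring (O j) (ρ j) (hρ j) Vs)
    (hmax : (pointIdeal (O j) (ρ j) (hρ j) Vs hA).IsMaximal) : Vs ≠ ⊤ := by
  intro htop
  apply hnm
  have heq : pointIdeal (O j) (ρ j) (hρ j) Vs hA = centre (O j) (hAO j) := by
    refine le_antisymm (fun a ha => ?_) (centre_le_pointIdeal (O j) (ρ j) (hρ j) (hAO j) Vs hA)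
    rw [mem_pointIdeal_iff_redOn (O j) (ρ j) (hρ j) (hAO j) Vs hA,
      ValuationSubring.mem_nonunits_iff_or] at ha
    rcases ha with ha | ha
    · exact (redOn_eq_zero_iff (O j) (ρ j) (hρ j) (hAO j) a).1 ha
    · exact absurd (htop ▸ ValuationSubring.mem_top _) ha
  rw [← heq]
  exact hmax

include hρ in
/-- **(UNIQ) from (LIFT).**  Let `P` be a closed point of `A` lying on all components.  If for
every component `j` there are a map `π j : B' → AN` and a twist `ψ j` with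
`red_j (φ (π j b)) = ψ j (red' b)`, and (LIFT) holds for `red'`, then `P` is the only maximal
ideal of `A` containing `q` with the same contraction along `φ : AN → A`. -/
theorem eq_of_comap_eq_of_lift {q : A}
    (hmin : ∀ 𝔮 ∈ (Ideal.span {q}).minimalPrimes, ∃ i, 𝔮 = centre (O i) (hAO i))
    (hnm : ∀ j, ¬ (centre (O j) (hAO j)).IsMaximal)
    {AN B' : Type*} [CommRing AN] [CommRing B'] (φ : AN →+* A) (red' : B' →+* κ)
    (hlift : ∀ V : ValuationSubring κ, V ≠ ⊤ → (∀ b : B', red' b ∈ V) →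
      ∀ c ∈ V, ∃ a b : B', red' b ∉ V.nonunits ∧ red' a = c * red' b)
    (π : ι → B' →+* AN) (ψ : ι → κ →+* κ) (n : ι → ℕ) (hn : ∀ j, n j ≠ 0)
    (hψ : ∀ j, ∀ z : κ, ∃ z' : κ, ψ j z' = z ^ n j)
    (hcompat : ∀ j, ∀ b : B', redOn (O j) (ρ j) (hAO j) (φ (π j b)) = ψ j (red' b))
    (P : Ideal A) [hPmax : P.IsMaximal] (hP : ∀ j, centre (O j) (hAO j) ≤ P)
    (P' : Ideal A) [hP'max : P'.IsMaximal] (hqP' : q ∈ P') (hP' : P'.comap φ = P.comap φ) :
    P' = P := by
  obtain ⟨j, hj⟩ := exists_centre_le_of_mem O hAO q hmin P' hqP'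
  obtain ⟨Vs', hA', hPj'⟩ :=
    exists_pointIdeal_eq_of_isMaximal (O j) (ρ j) (hρ j) (hAO j) P' hj
  obtain ⟨Vs, hA, hPj⟩ :=
    exists_pointIdeal_eq_of_isMaximal (O j) (ρ j) (hρ j) (hAO j) P (hP j)
  have hVs0 : Vs ≠ ⊤ := ne_top_of_pointIdeal_isMaximal O ρ hρ hAO j (hnm j) Vs hA
    (by rw [hPj]; exact hPmax)
  have hVs'0 : Vs' ≠ ⊤ := ne_top_of_pointIdeal_isMaximal O ρ hρ hAO j (hnm j) Vs' hA'
    (by rw [hPj']; exact hP'max)
  have hmem : ∀ (W : ValuationSubring κ)
      (_ : ∀ x : A, algebraMap A F x ∈ compositeSubring (O j) (ρ j) (hρ j) W) (b : B'),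
      ψ j (red' b) ∈ W := by
    intro W hW b
    rw [← hcompat j b]
    exact (algebraMap_mem_compositeSubring_iff (O j) (ρ j) (hρ j) (hAO j) W _).1 (hW _)
  have hiff : ∀ b : B', ψ j (red' b) ∈ Vs'.nonunits ↔ ψ j (red' b) ∈ Vs.nonunits := by
    intro b
    rw [← hcompat j b, ← mem_comap_pointIdeal_iff O ρ hρ hAO φ j Vs' hA' (π j b),
      ← mem_comap_pointIdeal_iff O ρ hρ hAO φ j Vs hA (π j b), hPj', hPj, hP']
  have hVs : Vs' = Vs := eq_of_lift_twist red' hlift (ψ j) (hn j) (hψ j) Vs' Vs hVs'0 hVs0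
    (hmem Vs' hA') (hmem Vs hA) hiff
  subst hVs
  rw [← hPj', hPj]

include hρ in
/-- **(UNIQ)** in the literal shape of the hypothesis `huniq` of `Glue/NodeNorm.lean`: `q` is the
image of an element `qN` of the lower level. -/
theorem huniq_of_lift {q : A}
    (hmin : ∀ 𝔮 ∈ (Ideal.span {q}).minimalPrimes, ∃ i, 𝔮 = centre (O i) (hAO i))
    (hnm : ∀ j, ¬ (centre (O j) (hAO j)).IsMaximal)
    {AN B' : Type*} [CommRing AN] [CommRing B'] (φ : AN →+* A) (qN : AN) (hqN : φ qN = q)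
    (red' : B' →+* κ)
    (hlift : ∀ V : ValuationSubring κ, V ≠ ⊤ → (∀ b : B', red' b ∈ V) →
      ∀ c ∈ V, ∃ a b : B', red' b ∉ V.nonunits ∧ red' a = c * red' b)
    (π : ι → B' →+* AN) (ψ : ι → κ →+* κ) (n : ι → ℕ) (hn : ∀ j, n j ≠ 0)
    (hψ : ∀ j, ∀ z : κ, ∃ z' : κ, ψ j z' = z ^ n j)
    (hcompat : ∀ j, ∀ b : B', redOn (O j) (ρ j) (hAO j) (φ (π j b)) = ψ j (red' b))
    (P : Ideal A) [P.IsMaximal] (hqP : q ∈ P) (hP : ∀ j, centre (O j) (hAO j) ≤ P) :
    ∀ P' : Ideal A, P'.IsMaximal → P'.comap φ = P.comap φ → P' = P := by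
  intro P' hP'max hP'
  refine eq_of_comap_eq_of_lift O ρ hρ hAO hmin hnm φ red' hlift π ψ n hn hψ hcompat P hP P' ?_
    hP'
  have h1 : qN ∈ P'.comap φ := by
    rw [hP', Ideal.mem_comap, hqN]
    exact hqP
  rw [← hqN]
  exact h1

end Uniq

section Three

variable {B F κ : Type*} [CommRing B] [IsDomain B] [Field F] [Algebra B F] [IsFractionRing B F]
  [Field κ]
variable {O : Fin 3 → ValuationSubring F} {red : ∀ i, O i →+* κ}
  {hred : ∀ i, ∀ x : O i, red i x = 0 ↔ x ∈ maximalIdeal (O i)}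
  {hBO : ∀ i, ∀ b : B, algebraMap B F b ∈ O i} {q : B}

omit [IsDomain B] [IsFractionRing B F] in
/-- **(UNIQ) at a triple point of a chart `B` of the model of level `M`** (vocabulary of
`Inst.V3Base`): `φ : AN → B` the pull-back `α^*` or `β^*` from a chart ring of level `N`,
`π j : B' → AN` degeneracy maps from the chart ring of the level `M'` of good reduction with
`red_j ∘ φ ∘ π j = ψ j ∘ red'`, and (LIFT) for `red'`.

For `α^*` : `π = (π₀, π₀, π₁)`, `ψ = (id, id, ψ)`;  for `β^*` : `π = (π₀, π₁, π₁)`,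
`ψ = (ψ, id, id)` (`ψ = qExpand k q`, with `ψ z' = z ^ q` solvable). -/
theorem huniq_of_V3Base (H : V3Base O red hred hBO q)
    {AN B' : Type*} [CommRing AN] [CommRing B'] (φ : AN →+* B) (qN : AN) (hqN : φ qN = q)
    (red' : B' →+* κ)
    (hlift : ∀ V : ValuationSubring κ, V ≠ ⊤ → (∀ b : B', red' b ∈ V) →
      ∀ c ∈ V, ∃ a b : B', red' b ∉ V.nonunits ∧ red' a = c * red' b)
    (π : Fin 3 → B' →+* AN) (ψ : Fin 3 → κ →+* κ) (n : Fin 3 → ℕ) (hn : ∀ j, n j ≠ 0)
    (hψ : ∀ j, ∀ z : κ, ∃ z' : κ, ψ j z' = z ^ n j)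
    (hcompat : ∀ j, ∀ b : B', redOn (O j) (red j) (hBO j) (φ (π j b)) = ψ j (red' b))
    (P : Ideal B) [P.IsMaximal] (hP : ∀ j, centre (O j) (hBO j) ≤ P) :
    ∀ P' : Ideal B, P'.IsMaximal → P'.comap φ = P.comap φ → P' = P :=
  huniq_of_lift O red hred hBO H.hmin H.not_max φ qN hqN red' hlift π ψ n hn hψ hcompat P
    (hP 0 ((mem_centre_iff (O 0) (hBO 0) q).2 (H.q_mem 0))) hP

end Three

end Fermat.Agent.CAR.Local.Inst.Uniq
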