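import Mathlib
import Fermat.Agent.CAR.Local.Inst.UniqLift
import Fermat.Agent.CAR.Local.Inst.Contract

/-!
# CAR-17 (P-6): (UNIQ) for `α^*` and `β^*` on the contract record

`H : Inst.Contract …` the contract of the finite chart `B` of level `M = M' q²` (three components
`O 0 = O_inf`, `O 1 = O_mid`, `O 2 = O_0`, reductions `r_i`, the level-`M'` ring `B'` with
`red' : B' → κ` and the pull-backs `π₀, π₂ : B' → B`).

Additional data for (UNIQ): the middle pull-back `π₁ : B' → B` (`y(z) ↦ y(qz)`), a twist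
`ψ : κ → κ` (`qExpand k q`) such that every `z ^ n` is in its image, and a ring `AN` (chart ring
of level `N = M' q`) with `φ : AN → B` (`α^*` or `β^*`) through which two of the three pull-backs
factor.

* `huniq_alpha_of_contract` : `π₀ = φ ∘ p₀`, `π₁ = φ ∘ p₁`, `r_2 ∘ π₁ = ψ ∘ red'`;
* `huniq_beta_of_contract`  : `π₁ = φ ∘ p₁`, `π₂ = φ ∘ p₂`, `r_0 ∘ π₁ = ψ ∘ red'`;

conclusion in both cases, for a maximal ideal `P` of `B` containing the three centres (a triple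
point): `∀ P', P'.IsMaximal → P'.comap φ = P.comap φ → P' = P`, the literal hypothesis `huniq`
of `Glue/NodeNorm.lean`.
-/

set_option autoImplicit false

namespace Fermat.Agent.CAR.Local.Inst.Uniq

open IsLocalRing Fermat.Agent.CAR.Local

variable {B B' F κ : Type*} [CommRing B] [IsDomain B] [Field F] [Algebra B F]
  [IsFractionRing B F] [Field κ] [CommRing B']
variable {O : Fin 3 → ValuationSubring F} {red : ∀ i, O i →+* κ}
  {hred : ∀ i, ∀ x : O i, red i x = 0 ↔ x ∈ maximalIdeal (O i)}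
  {hBO : ∀ i, ∀ b : B, algebraMap B F b ∈ O i}
  {red' : B' →+* κ} {π₀ π₂ : B' →+* B} {D : κ → κ}
  {q : B} {x' : B'} {u u₁ v₁ h : B} {Db G : κ} {N e : ℕ}

omit [IsDomain B] [IsFractionRing B F] in
/-- (LIFT) of the contract in the shape of `UniqLift`. -/
theorem lift_of_contract (H : Contract O red hred hBO red' π₀ π₂ D q x' u u₁ v₁ h Db G N e) :
    ∀ V : ValuationSubring κ, V ≠ ⊤ → (∀ b : B', red' b ∈ V) →
      ∀ c ∈ V, ∃ a b : B', red' b ∉ V.nonunits ∧ red' a = c * red' b :=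
  fun V h0 hV => H.lift V ⟨h0, hV⟩

omit [IsDomain B] [IsFractionRing B F] in
/-- **(UNIQ), general form on the contract**: for every component `j` a map `p j : B' → AN` and
a twist `ψ j` with `r_j (φ (p j b)) = ψ j (red' b)`. -/
theorem huniq_of_contract (H : Contract O red hred hBO red' π₀ π₂ D q x' u u₁ v₁ h Db G N e)
    {AN : Type*} [CommRing AN] (φ : AN →+* B) (qN : AN) (hqN : φ qN = q)
    (p : Fin 3 → B' →+* AN) (ψ : Fin 3 → κ →+* κ) (n : Fin 3 → ℕ) (hn : ∀ j, n j ≠ 0)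
    (hψ : ∀ j, ∀ z : κ, ∃ z' : κ, ψ j z' = z ^ n j)
    (hcompat : ∀ j, ∀ b : B', redOn (O j) (red j) (hBO j) (φ (p j b)) = ψ j (red' b))
    (P : Ideal B) [P.IsMaximal] (hP : ∀ j, centre (O j) (hBO j) ≤ P) :
    ∀ P' : Ideal B, P'.IsMaximal → P'.comap φ = P.comap φ → P' = P :=
  huniq_of_V3Base H.toV3Base φ qN hqN red' (lift_of_contract H) p ψ n hn hψ hcompat P hP

omit [IsDomain B] [IsFractionRing B F] in
/-- **(UNIQ) for `α^*`.**  `φ : AN → B` with `π₀ = φ ∘ p₀` and `π₁ = φ ∘ p₁`, where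
`r_2 ∘ π₁ = ψ ∘ red'`. -/
theorem huniq_alpha_of_contract
    (H : Contract O red hred hBO red' π₀ π₂ D q x' u u₁ v₁ h Db G N e)
    (π₁ : B' →+* B) (ψ : κ →+* κ) {n : ℕ} (hn : n ≠ 0) (hψ : ∀ z : κ, ∃ z' : κ, ψ z' = z ^ n)
    (zero_π₁ : ∀ y : B', redOn (O 2) (red 2) (hBO 2) (π₁ y) = ψ (red' y))
    {AN : Type*} [CommRing AN] (φ : AN →+* B) (qN : AN) (hqN : φ qN = q)
    (p₀ p₁ : B' →+* AN) (h₀ : ∀ y, φ (p₀ y) = π₀ y) (h₁ : ∀ y, φ (p₁ y) = π₁ y)
    (P : Ideal B) [P.IsMaximal] (hP : ∀ j, centre (O j) (hBO j) ≤ P) :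
    ∀ P' : Ideal B, P'.IsMaximal → P'.comap φ = P.comap φ → P' = P := by
  refine huniq_of_contract H φ qN hqN ![p₀, p₀, p₁] ![RingHom.id κ, RingHom.id κ, ψ]
    ![1, 1, n] ?_ ?_ ?_ P hP
  · intro j
    fin_cases j
    · exact one_ne_zero
    · exact one_ne_zero
    · exact hn
  · intro j z
    fin_cases j
    · exact ⟨z, by simp⟩
    · exact ⟨z, by simp⟩
    · exact hψ z
  · intro j b
    fin_cases j
    · show redOn (O 0) (red 0) (hBO 0) (φ (p₀ b)) = red' b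
      rw [h₀, H.inf_π₀]
    · show redOn (O 1) (red 1) (hBO 1) (φ (p₀ b)) = red' b
      rw [h₀, H.mid_π₀]
    · show redOn (O 2) (red 2) (hBO 2) (φ (p₁ b)) = ψ (red' b)
      rw [h₁, zero_π₁]

omit [IsDomain B] [IsFractionRing B F] in
/-- **(UNIQ) for `β^*`.**  `φ : AN → B` with `π₁ = φ ∘ p₁` and `π₂ = φ ∘ p₂`, where
`r_0 ∘ π₁ = ψ ∘ red'`. -/
theorem huniq_beta_of_contract
    (H : Contract O red hred hBO red' π₀ π₂ D q x' u u₁ v₁ h Db G N e)
    (π₁ : B' →+* B) (ψ : κ →+* κ) {n : ℕ} (hn : n ≠ 0) (hψ : ∀ z : κ, ∃ z' : κ, ψ z' = z ^ n)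
    (inf_π₁ : ∀ y : B', redOn (O 0) (red 0) (hBO 0) (π₁ y) = ψ (red' y))
    {AN : Type*} [CommRing AN] (φ : AN →+* B) (qN : AN) (hqN : φ qN = q)
    (p₁ p₂ : B' →+* AN) (h₁ : ∀ y, φ (p₁ y) = π₁ y) (h₂ : ∀ y, φ (p₂ y) = π₂ y)
    (P : Ideal B) [P.IsMaximal] (hP : ∀ j, centre (O j) (hBO j) ≤ P) :
    ∀ P' : Ideal B, P'.IsMaximal → P'.comap φ = P.comap φ → P' = P := by
  refine huniq_of_contract H φ qN hqN ![p₁, p₂, p₂] ![ψ, RingHom.id κ, RingHom.id κ]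
    ![n, 1, 1] ?_ ?_ ?_ P hP
  · intro j
    fin_cases j
    · exact hn
    · exact one_ne_zero
    · exact one_ne_zero
  · intro j z
    fin_cases j
    · exact hψ z
    · exact ⟨z, by simp⟩
    · exact ⟨z, by simp⟩
  · intro j b
    fin_cases j
    · show redOn (O 0) (red 0) (hBO 0) (φ (p₁ b)) = ψ (red' b)
      rw [h₁, inf_π₁]
    · show redOn (O 1) (red 1) (hBO 1) (φ (p₂ b)) = red' b
      rw [h₂, H.mid_π₂]
    · show redOn (O 2) (red 2) (hBO 2) (φ (p₂ b)) = red' b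
      rw [h₂, H.zero_π₂]

end Fermat.Agent.CAR.Local.Inst.Uniq
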