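import Mathlib
import Fermat.Agent.CAR.Local.Inst.UniqContract
import Fermat.Agent.CAR.Local.MeetingPow

/-!
# CAR-17 (P-4)/(P-6): the closed points of the finite chart, on the contract record

`H : Inst.Contract …` the contract of the finite chart `B` (components `O 0 = O_inf`,
`O 1 = O_mid`, `O 2 = O_0`; `red' : B' → κ`; `Db = Δ̄^(1-q)`, whose zeros are the supersingular
places).  A *finite place* is `Vs` with `Inst.IsFinPlace red' Vs`.

* `pt H i Vs hVs` : the closed point `(i, s)` of `Spec B`; `mem_pt_iff`, `pt_isMaximal`,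
  `centre_le_pt`, `pointRing_le_composite`;
* `exists_pt_eq` : exhaustion — a maximal ideal on the component `i` is `pt H i Vs hVs`;
  `pt_injective` : for a unique finite place `Vs`;
* `centre_le_pt_iff` : **meeting criterion** — for `i ≠ j`, the component `j` passes through the
  point `(i, s)` iff `Db` vanishes at `s`;
* `pt_eq_pt` : **triple-point identity** — if `Db` vanishes at `s` then
  `(inf, s) = (mid, s) = (0, s)`;  `pt_eq_pt_iff` : conversely `(i, s) = (j, s')` with `i ≠ j`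
  iff `s = s'` and `Db` vanishes at `s`;
* `point_cases` : a maximal ideal `𝔪 ∋ q` is either a triple point `(·, s)` with `Db(s) = 0`, or
  lies on exactly one component;
* `huniq_alpha_pt`, `huniq_beta_pt` : (UNIQ) at the triple points, in `pt` form.
-/

set_option autoImplicit false

namespace Fermat.Agent.CAR.Local.Inst.Meet

open IsLocalRing Fermat.Agent.CAR.Local

/-- A power (with non-zero exponent) is a non-unit of a valuation ring iff the base is. -/
theorem pow_mem_nonunits_iff {κ : Type*} [Field κ] (Vs : ValuationSubring κ) (z : κ) {e : ℕ}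
    (he : e ≠ 0) : z ^ e ∈ Vs.nonunits ↔ z ∈ Vs.nonunits := by
  rw [ValuationSubring.mem_nonunits_iff, ValuationSubring.mem_nonunits_iff, map_pow]
  exact pow_lt_one_iff he

variable {B B' F κ : Type*} [CommRing B] [IsDomain B] [Field F] [Algebra B F]
  [IsFractionRing B F] [Field κ] [CommRing B']
variable {O : Fin 3 → ValuationSubring F} {red : ∀ i, O i →+* κ}
  {hred : ∀ i, ∀ x : O i, red i x = 0 ↔ x ∈ maximalIdeal (O i)}
  {hBO : ∀ i, ∀ b : B, algebraMap B F b ∈ O i}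
  {red' : B' →+* κ} {π₀ π₂ : B' →+* B} {D : κ → κ}
  {q : B} {x' : B'} {u u₁ v₁ h : B} {Db G : κ} {N e : ℕ}

section Points

omit [IsDomain B] [IsFractionRing B F] in
/-- The chart ring lies in the composite valuation ring of every component and finite place. -/
theorem hA_of_isFinPlace (H : Contract O red hred hBO red' π₀ π₂ D q x' u u₁ v₁ h Db G N e)
    (i : Fin 3) (Vs : ValuationSubring κ) (hVs : IsFinPlace red' Vs) :
    ∀ b : B, algebraMap B F b ∈ compositeSubring (O i) (red i) (hred i) Vs := fun b =>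
  (algebraMap_mem_compositeSubring_iff (O i) (red i) (hred i) (hBO i) Vs b).2 (H.fin i Vs hVs b)

/-- **The closed point `(i, s)`** of the finite chart: component `i`, finite place `Vs`. -/
def pt (H : Contract O red hred hBO red' π₀ π₂ D q x' u u₁ v₁ h Db G N e) (i : Fin 3)
    (Vs : ValuationSubring κ) (hVs : IsFinPlace red' Vs) : Ideal B :=
  pointIdeal (O i) (red i) (hred i) Vs (hA_of_isFinPlace H i Vs hVs)

omit [IsDomain B] [IsFractionRing B F] in
theorem pt_eq_pointIdeal (H : Contract O red hred hBO red' π₀ π₂ D q x' u u₁ v₁ h Db G N e)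
    (i : Fin 3) (Vs : ValuationSubring κ) (hVs : IsFinPlace red' Vs)
    (hA : ∀ b : B, algebraMap B F b ∈ compositeSubring (O i) (red i) (hred i) Vs) :
    pt H i Vs hVs = pointIdeal (O i) (red i) (hred i) Vs hA :=
  rfl

omit [IsDomain B] [IsFractionRing B F] in
theorem mem_pt_iff (H : Contract O red hred hBO red' π₀ π₂ D q x' u u₁ v₁ h Db G N e)
    (i : Fin 3) (Vs : ValuationSubring κ) (hVs : IsFinPlace red' Vs) (b : B) :
    b ∈ pt H i Vs hVs ↔ redOn (O i) (red i) (hBO i) b ∈ Vs.nonunits :=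
  mem_pointIdeal_iff_redOn (O i) (red i) (hred i) (hBO i) Vs _ b

omit [IsDomain B] [IsFractionRing B F] in
instance pt_isPrime (H : Contract O red hred hBO red' π₀ π₂ D q x' u u₁ v₁ h Db G N e)
    (i : Fin 3) (Vs : ValuationSubring κ) (hVs : IsFinPlace red' Vs) :
    (pt H i Vs hVs).IsPrime :=
  pointIdeal_isPrime (O i) (red i) (hred i) Vs _

omit [IsDomain B] [IsFractionRing B F] in
/-- The points `(i, s)` are closed points. -/
instance pt_isMaximal (H : Contract O red hred hBO red' π₀ π₂ D q x' u u₁ v₁ h Db G N e)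
    (i : Fin 3) (Vs : ValuationSubring κ) (hVs : IsFinPlace red' Vs) :
    (pt H i Vs hVs).IsMaximal := by
  obtain ⟨φ, hφ⟩ := H.exists_pull i
  refine pointIdeal_isMaximal (O i) (red i) (hred i) (hBO i) Vs _ (fun v hv => ?_)
  obtain ⟨a, ha⟩ := H.res Vs hVs v hv
  exact ⟨φ a, by rw [hφ]; exact ha⟩

omit [IsDomain B] [IsFractionRing B F] in
/-- The point `(i, s)` lies on the component `i`. -/
theorem centre_le_pt (H : Contract O red hred hBO red' π₀ π₂ D q x' u u₁ v₁ h Db G N e)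
    (i : Fin 3) (Vs : ValuationSubring κ) (hVs : IsFinPlace red' Vs) :
    centre (O i) (hBO i) ≤ pt H i Vs hVs :=
  centre_le_pointIdeal (O i) (red i) (hred i) (hBO i) Vs _

omit [IsDomain B] [IsFractionRing B F] in
/-- `q` lies in every point `(i, s)`. -/
theorem q_mem_pt (H : Contract O red hred hBO red' π₀ π₂ D q x' u u₁ v₁ h Db G N e)
    (i : Fin 3) (Vs : ValuationSubring κ) (hVs : IsFinPlace red' Vs) : q ∈ pt H i Vs hVs :=
  centre_le_pt H i Vs hVs ((mem_centre_iff (O i) (hBO i) q).2 (H.q_mem i))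

/-- The local ring at `(i, s)` lies in the composite valuation ring of `(O i, Vs)`: its elements
lie in `O i` and reduce into `Vs`. -/
theorem pointRing_le_composite
    (H : Contract O red hred hBO red' π₀ π₂ D q x' u u₁ v₁ h Db G N e) (i : Fin 3)
    (Vs : ValuationSubring κ) (hVs : IsFinPlace red' Vs) (r : pointRing F (pt H i Vs hVs)) :
    ∃ hr : (r : F) ∈ O i, red i ⟨(r : F), hr⟩ ∈ Vs :=
  pointRing_le_component (O i) (red i) (hred i) Vs (hA_of_isFinPlace H i Vs hVs) r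

omit [IsDomain B] [IsFractionRing B F] in
/-- **Exhaustion**: a maximal ideal on the component `i` is a point `(i, s)`, `s` a finite
place. -/
theorem exists_pt_eq (H : Contract O red hred hBO red' π₀ π₂ D q x' u u₁ v₁ h Db G N e)
    (𝔪 : Ideal B) [h𝔪 : 𝔪.IsMaximal] (i : Fin 3) (hi : centre (O i) (hBO i) ≤ 𝔪) :
    ∃ Vs, ∃ hVs : IsFinPlace red' Vs, pt H i Vs hVs = 𝔪 := by
  obtain ⟨Vs, hA, hP⟩ := exists_pointIdeal_eq_of_isMaximal (O i) (red i) (hred i) (hBO i) 𝔪 hi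
  have htop : Vs ≠ ⊤ := H.toV3Base.ne_top_of_isMaximal i Vs hA (by rw [hP]; exact h𝔪)
  have hVs : IsFinPlace red' Vs := H.isFinPlace_of_forall i Vs htop (fun b =>
    (algebraMap_mem_compositeSubring_iff (O i) (red i) (hred i) (hBO i) Vs b).1 (hA b))
  exact ⟨Vs, hVs, hP⟩

omit [IsDomain B] [IsFractionRing B F] in
/-- **Exhaustion**: every maximal ideal containing `q` is a point `(i, s)`. -/
theorem exists_pt_eq_of_mem (H : Contract O red hred hBO red' π₀ π₂ D q x' u u₁ v₁ h Db G N e)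
    (𝔪 : Ideal B) [h𝔪 : 𝔪.IsMaximal] (hq : q ∈ 𝔪) :
    ∃ i, ∃ Vs, ∃ hVs : IsFinPlace red' Vs, pt H i Vs hVs = 𝔪 := by
  obtain ⟨i, hi⟩ := exists_centre_le_of_mem O hBO q H.hmin 𝔪 hq
  obtain ⟨Vs, hVs, hP⟩ := exists_pt_eq H 𝔪 i hi
  exact ⟨i, Vs, hVs, hP⟩

omit [IsDomain B] [IsFractionRing B F] in
/-- If the points `(i, s)` and `(j, s')` coincide and the components `i`, `j` have a common
pull-back of the level-`M'` functions, then `s = s'`. -/
theorem eq_of_pt_eq_of_pull (H : Contract O red hred hBO red' π₀ π₂ D q x' u u₁ v₁ h Db G N e)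
    (i j : Fin 3) (Vs Vs' : ValuationSubring κ) (hVs : IsFinPlace red' Vs)
    (hVs' : IsFinPlace red' Vs') (φ : B' →+* B)
    (hi : ∀ y : B', redOn (O i) (red i) (hBO i) (φ y) = red' y)
    (hj : ∀ y : B', redOn (O j) (red j) (hBO j) (φ y) = red' y)
    (hpt : pt H i Vs hVs = pt H j Vs' hVs') : Vs = Vs' := by
  refine Uniq.eq_of_lift red' (Uniq.lift_of_contract H) Vs Vs' hVs.1 hVs'.1 hVs.2 hVs'.2
    (fun b => ?_)
  have h1 : red' b ∈ Vs.nonunits ↔ φ b ∈ pt H i Vs hVs := by rw [mem_pt_iff, hi]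
  have h2 : red' b ∈ Vs'.nonunits ↔ φ b ∈ pt H j Vs' hVs' := by rw [mem_pt_iff, hj]
  rw [h1, h2, hpt]

omit [IsDomain B] [IsFractionRing B F] in
/-- **The place of a point on a component is unique.** -/
theorem pt_injective (H : Contract O red hred hBO red' π₀ π₂ D q x' u u₁ v₁ h Db G N e)
    (i : Fin 3) (Vs Vs' : ValuationSubring κ) (hVs : IsFinPlace red' Vs)
    (hVs' : IsFinPlace red' Vs') (hpt : pt H i Vs hVs = pt H i Vs' hVs') : Vs = Vs' := by
  obtain ⟨φ, hφ⟩ := H.exists_pull i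
  exact eq_of_pt_eq_of_pull H i i Vs Vs' hVs hVs' φ hφ hφ hpt

end Points

section Vertical

omit [IsDomain B] [IsFractionRing B F] in
/-- `v₁` vanishes only on `C_inf`. -/
theorem v₁_notMem (H : Contract O red hred hBO red' π₀ π₂ D q x' u u₁ v₁ h Db G N e)
    (i : Fin 3) (hi : i ≠ 0) : v₁ ∉ centre (O i) (hBO i) := by
  rw [← redOn_eq_zero_iff (O i) (red i) (hred i) (hBO i)]
  fin_cases i
  · exact absurd rfl hi
  · show redOn (O 1) (red 1) (hBO 1) v₁ ≠ 0
    rw [H.v₁_mid]; exact H.Db_ne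
  · exact H.v₁_zero

omit [IsDomain B] [IsFractionRing B F] in
/-- `u₁` vanishes only on `C_0`. -/
theorem u₁_notMem (H : Contract O red hred hBO red' π₀ π₂ D q x' u u₁ v₁ h Db G N e)
    (i : Fin 3) (hi : i ≠ 2) : u₁ ∉ centre (O i) (hBO i) := by
  rw [← redOn_eq_zero_iff (O i) (red i) (hred i) (hBO i)]
  fin_cases i
  · show redOn (O 0) (red 0) (hBO 0) u₁ ≠ 0
    rw [H.u₁_inf]; exact H.Db_ne
  · show redOn (O 1) (red 1) (hBO 1) u₁ ≠ 0
    rw [H.u₁_mid]; exact H.Db_ne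
  · exact absurd rfl hi

variable [IsNoetherianRing B]

omit [IsFractionRing B F] in
/-- `C_inf` passes through `(mid, s)` iff `Db` vanishes at `s`. -/
theorem inf_le_pt_mid_iff (H : Contract O red hred hBO red' π₀ π₂ D q x' u u₁ v₁ h Db G N e)
    (Vs : ValuationSubring κ) (hVs : IsFinPlace red' Vs) :
    centre (O 0) (hBO 0) ≤ pt H 1 Vs hVs ↔ Db ∈ Vs.nonunits := by
  have key := centre_le_pointIdeal_iff (O 1) (red 1) (hred 1) (hBO 1) Vs
    (hA_of_isFinPlace H 1 Vs hVs) O hBO H.q_ne H.hmin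
    (a := v₁) (a' := u * u₁) (N := N) (by rw [← H.prod]; ring) 0
    ((redOn_eq_zero_iff (O 0) (red 0) (hred 0) (hBO 0) v₁).1 H.v₁_inf) (v₁_notMem H)
  rw [H.v₁_mid] at key
  exact key

omit [IsFractionRing B F] in
/-- `C_0` passes through `(mid, s)` iff `Db` vanishes at `s`. -/
theorem zero_le_pt_mid_iff (H : Contract O red hred hBO red' π₀ π₂ D q x' u u₁ v₁ h Db G N e)
    (Vs : ValuationSubring κ) (hVs : IsFinPlace red' Vs) :
    centre (O 2) (hBO 2) ≤ pt H 1 Vs hVs ↔ Db ∈ Vs.nonunits := by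
  have key := centre_le_pointIdeal_iff (O 1) (red 1) (hred 1) (hBO 1) Vs
    (hA_of_isFinPlace H 1 Vs hVs) O hBO H.q_ne H.hmin
    (a := u₁) (a' := u * v₁) (N := N) (by rw [← H.prod]; ring) 2
    ((redOn_eq_zero_iff (O 2) (red 2) (hred 2) (hBO 2) u₁).1 H.u₁_zero) (u₁_notMem H)
  rw [H.u₁_mid] at key
  exact key

omit [IsFractionRing B F] in
/-- `C_0` passes through `(inf, s)` iff `Db` vanishes at `s`. -/
theorem zero_le_pt_inf_iff (H : Contract O red hred hBO red' π₀ π₂ D q x' u u₁ v₁ h Db G N e)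
    (Vs : ValuationSubring κ) (hVs : IsFinPlace red' Vs) :
    centre (O 2) (hBO 2) ≤ pt H 0 Vs hVs ↔ Db ∈ Vs.nonunits := by
  have key := centre_le_pointIdeal_iff (O 0) (red 0) (hred 0) (hBO 0) Vs
    (hA_of_isFinPlace H 0 Vs hVs) O hBO H.q_ne H.hmin
    (a := u₁) (a' := u * v₁) (N := N) (by rw [← H.prod]; ring) 2
    ((redOn_eq_zero_iff (O 2) (red 2) (hred 2) (hBO 2) u₁).1 H.u₁_zero) (u₁_notMem H)
  rw [H.u₁_inf] at key
  exact key

omit [IsFractionRing B F] in
/-- **Two components through a prime ⟹ all three.** -/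
theorem forall_centre_le_of_two
    (H : Contract O red hred hBO red' π₀ π₂ D q x' u u₁ v₁ h Db G N e) (P : Ideal B)
    [P.IsPrime] {i j : Fin 3} (hij : i ≠ j) (hi : centre (O i) (hBO i) ≤ P)
    (hj : centre (O j) (hBO j) ≤ P) : ∀ l, centre (O l) (hBO l) ≤ P := by
  have Hm := H.toV3Meet
  have h02 : centre (O 0) (hBO 0) ≤ P → centre (O 2) (hBO 2) ≤ P → ∀ l,
      centre (O l) (hBO l) ≤ P := by
    intro h0 h2 l
    fin_cases l
    · exact h0
    · exact Hm.mid_le_of_inf_zero (hred := hred) H.q_ne H.hmin P h0 h2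
    · exact h2
  have h10 : centre (O 1) (hBO 1) ≤ P → centre (O 0) (hBO 0) ≤ P → ∀ l,
      centre (O l) (hBO l) ≤ P := fun h1 h0 =>
    h02 h0 (Hm.zero_le_of_mid_inf (hred := hred) H.q_ne H.hmin P h1 h0)
  have h12 : centre (O 1) (hBO 1) ≤ P → centre (O 2) (hBO 2) ≤ P → ∀ l,
      centre (O l) (hBO l) ≤ P := fun h1 h2 =>
    h02 (Hm.inf_le_of_mid_zero (hred := hred) H.q_ne H.hmin P h1 h2) h2
  fin_cases i <;> fin_cases j
  · exact absurd rfl hij
  · exact h10 hj hi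
  · exact h02 hi hj
  · exact h10 hi hj
  · exact absurd rfl hij
  · exact h12 hi hj
  · exact h02 hj hi
  · exact h12 hj hi
  · exact absurd rfl hij

omit [IsFractionRing B F] in
/-- **Triple-point identity, first half**: if `Db` vanishes at `s`, `(inf, s) = (mid, s)`. -/
theorem pt_inf_eq_pt_mid (H : Contract O red hred hBO red' π₀ π₂ D q x' u u₁ v₁ h Db G N e)
    (Vs : ValuationSubring κ) (hVs : IsFinPlace red' Vs) (hDb : Db ∈ Vs.nonunits) :
    pt H 0 Vs hVs = pt H 1 Vs hVs := by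
  obtain ⟨Vs', hVs', hP⟩ := exists_pt_eq H (pt H 1 Vs hVs) 0 ((inf_le_pt_mid_iff H Vs hVs).2 hDb)
  have hVV : Vs' = Vs := eq_of_pt_eq_of_pull H 0 1 Vs' Vs hVs' hVs π₀ H.inf_π₀ H.mid_π₀ hP
  subst hVV
  exact hP

omit [IsFractionRing B F] in
/-- **Triple-point identity, second half**: if `Db` vanishes at `s`, `(0, s) = (mid, s)`. -/
theorem pt_zero_eq_pt_mid (H : Contract O red hred hBO red' π₀ π₂ D q x' u u₁ v₁ h Db G N e)
    (Vs : ValuationSubring κ) (hVs : IsFinPlace red' Vs) (hDb : Db ∈ Vs.nonunits) :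
    pt H 2 Vs hVs = pt H 1 Vs hVs := by
  obtain ⟨Vs', hVs', hP⟩ :=
    exists_pt_eq H (pt H 1 Vs hVs) 2 ((zero_le_pt_mid_iff H Vs hVs).2 hDb)
  have hVV : Vs' = Vs := eq_of_pt_eq_of_pull H 2 1 Vs' Vs hVs' hVs π₂ H.zero_π₂ H.mid_π₂ hP
  subst hVV
  exact hP

omit [IsFractionRing B F] in
/-- **Triple-point identity**: if `Db` vanishes at `s`, the three points `(i, s)` coincide. -/
theorem pt_eq_pt (H : Contract O red hred hBO red' π₀ π₂ D q x' u u₁ v₁ h Db G N e)
    (Vs : ValuationSubring κ) (hVs : IsFinPlace red' Vs) (hDb : Db ∈ Vs.nonunits)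
    (i j : Fin 3) : pt H i Vs hVs = pt H j Vs hVs := by
  have key : ∀ l : Fin 3, pt H l Vs hVs = pt H 1 Vs hVs := by
    intro l
    fin_cases l
    · exact pt_inf_eq_pt_mid H Vs hVs hDb
    · rfl
    · exact pt_zero_eq_pt_mid H Vs hVs hDb
  rw [key i, key j]

omit [IsFractionRing B F] in
/-- **Structure of the multiple points**: a maximal ideal lying on two components is a triple
point `(·, s)`, `s` a finite place at which `Db` vanishes. -/
theorem exists_triple (H : Contract O red hred hBO red' π₀ π₂ D q x' u u₁ v₁ h Db G N e)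
    (𝔪 : Ideal B) [h𝔪 : 𝔪.IsMaximal] {i j : Fin 3} (hij : i ≠ j)
    (hi : centre (O i) (hBO i) ≤ 𝔪) (hj : centre (O j) (hBO j) ≤ 𝔪) :
    ∃ Vs, ∃ hVs : IsFinPlace red' Vs, Db ∈ Vs.nonunits ∧ ∀ l, pt H l Vs hVs = 𝔪 := by
  have hall := forall_centre_le_of_two H 𝔪 hij hi hj
  obtain ⟨Vs, hVs, hP⟩ := exists_pt_eq H 𝔪 1 (hall 1)
  have hDb : Db ∈ Vs.nonunits := (inf_le_pt_mid_iff H Vs hVs).1 (by rw [hP]; exact hall 0)
  exact ⟨Vs, hVs, hDb, fun l => by rw [pt_eq_pt H Vs hVs hDb l 1, hP]⟩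

omit [IsFractionRing B F] in
/-- **The meeting criterion**: for `i ≠ j`, the component `j` passes through the point `(i, s)`
iff `Db` vanishes at `s`. -/
theorem centre_le_pt_iff (H : Contract O red hred hBO red' π₀ π₂ D q x' u u₁ v₁ h Db G N e)
    {i j : Fin 3} (hij : i ≠ j) (Vs : ValuationSubring κ) (hVs : IsFinPlace red' Vs) :
    centre (O j) (hBO j) ≤ pt H i Vs hVs ↔ Db ∈ Vs.nonunits := by
  constructor
  · intro hle
    obtain ⟨Vs', hVs', hDb, hall⟩ :=
      exists_triple H (pt H i Vs hVs) hij (centre_le_pt H i Vs hVs) hle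
    have hVV : Vs' = Vs := pt_injective H i Vs' Vs hVs' hVs (hall i)
    rw [← hVV]
    exact hDb
  · intro hDb
    rw [pt_eq_pt H Vs hVs hDb i j]
    exact centre_le_pt H j Vs hVs

omit [IsFractionRing B F] in
/-- Two points on different components coincide iff they have the same place, at which `Db`
vanishes. -/
theorem pt_eq_pt_iff (H : Contract O red hred hBO red' π₀ π₂ D q x' u u₁ v₁ h Db G N e)
    {i j : Fin 3} (hij : i ≠ j) (Vs Vs' : ValuationSubring κ) (hVs : IsFinPlace red' Vs)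
    (hVs' : IsFinPlace red' Vs') :
    pt H i Vs hVs = pt H j Vs' hVs' ↔ Vs = Vs' ∧ Db ∈ Vs.nonunits := by
  constructor
  · intro hpt
    have hle : centre (O j) (hBO j) ≤ pt H i Vs hVs := by
      rw [hpt]; exact centre_le_pt H j Vs' hVs'
    have hDb : Db ∈ Vs.nonunits := (centre_le_pt_iff H hij Vs hVs).1 hle
    refine ⟨?_, hDb⟩
    rw [pt_eq_pt H Vs hVs hDb i j] at hpt
    exact pt_injective H j Vs Vs' hVs hVs' hpt
  · rintro ⟨rfl, hDb⟩
    exact pt_eq_pt H Vs hVs hDb i j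

omit [IsFractionRing B F] in
/-- **Classification of the closed points of the special fibre**: a maximal ideal `𝔪 ∋ q` is
either a triple point `(inf, s) = (mid, s) = (0, s)` with `Db(s) = 0` (supersingular), or a point
`(i, s)` with `Db(s) ≠ 0` through which only the component `i` passes. -/
theorem point_cases (H : Contract O red hred hBO red' π₀ π₂ D q x' u u₁ v₁ h Db G N e)
    (𝔪 : Ideal B) [h𝔪 : 𝔪.IsMaximal] (hq : q ∈ 𝔪) :
    (∃ Vs, ∃ hVs : IsFinPlace red' Vs, Db ∈ Vs.nonunits ∧ ∀ l, pt H l Vs hVs = 𝔪) ∨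
    (∃ i, ∃ Vs, ∃ hVs : IsFinPlace red' Vs, Db ∉ Vs.nonunits ∧ pt H i Vs hVs = 𝔪 ∧
      ∀ j, j ≠ i → ¬ centre (O j) (hBO j) ≤ 𝔪) := by
  obtain ⟨i, Vs, hVs, hP⟩ := exists_pt_eq_of_mem H 𝔪 hq
  by_cases hDb : Db ∈ Vs.nonunits
  · exact Or.inl ⟨Vs, hVs, hDb, fun l => by rw [pt_eq_pt H Vs hVs hDb l i, hP]⟩
  · refine Or.inr ⟨i, Vs, hVs, hDb, hP, fun j hj hle => hDb ?_⟩
    rw [← hP] at hle
    exact (centre_le_pt_iff H (Ne.symm hj) Vs hVs).1 hle

end Vertical

section Uniq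

variable [IsNoetherianRing B]

omit [IsFractionRing B F] in
/-- **(UNIQ) for `α^*` at the triple point over `s`** (`Db(s) = 0`), in `pt` form. -/
theorem huniq_alpha_pt (H : Contract O red hred hBO red' π₀ π₂ D q x' u u₁ v₁ h Db G N e)
    (π₁ : B' →+* B) (ψ : κ →+* κ) {n : ℕ} (hn : n ≠ 0) (hψ : ∀ z : κ, ∃ z' : κ, ψ z' = z ^ n)
    (zero_π₁ : ∀ y : B', redOn (O 2) (red 2) (hBO 2) (π₁ y) = ψ (red' y))
    {AN : Type*} [CommRing AN] (φ : AN →+* B) (qN : AN) (hqN : φ qN = q)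
    (p₀ p₁ : B' →+* AN) (h₀ : ∀ y, φ (p₀ y) = π₀ y) (h₁ : ∀ y, φ (p₁ y) = π₁ y)
    (Vs : ValuationSubring κ) (hVs : IsFinPlace red' Vs) (hDb : Db ∈ Vs.nonunits) (i : Fin 3) :
    ∀ P' : Ideal B, P'.IsMaximal → P'.comap φ = (pt H i Vs hVs).comap φ →
      P' = pt H i Vs hVs :=
  Uniq.huniq_alpha_of_contract H π₁ ψ hn hψ zero_π₁ φ qN hqN p₀ p₁ h₀ h₁ (pt H i Vs hVs)
    (fun j => by rw [pt_eq_pt H Vs hVs hDb i j]; exact centre_le_pt H j Vs hVs)

omit [IsFractionRing B F] in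
/-- **(UNIQ) for `β^*` at the triple point over `s`** (`Db(s) = 0`), in `pt` form. -/
theorem huniq_beta_pt (H : Contract O red hred hBO red' π₀ π₂ D q x' u u₁ v₁ h Db G N e)
    (π₁ : B' →+* B) (ψ : κ →+* κ) {n : ℕ} (hn : n ≠ 0) (hψ : ∀ z : κ, ∃ z' : κ, ψ z' = z ^ n)
    (inf_π₁ : ∀ y : B', redOn (O 0) (red 0) (hBO 0) (π₁ y) = ψ (red' y))
    {AN : Type*} [CommRing AN] (φ : AN →+* B) (qN : AN) (hqN : φ qN = q)
    (p₁ p₂ : B' →+* AN) (h₁ : ∀ y, φ (p₁ y) = π₁ y) (h₂ : ∀ y, φ (p₂ y) = π₂ y)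
    (Vs : ValuationSubring κ) (hVs : IsFinPlace red' Vs) (hDb : Db ∈ Vs.nonunits) (i : Fin 3) :
    ∀ P' : Ideal B, P'.IsMaximal → P'.comap φ = (pt H i Vs hVs).comap φ →
      P' = pt H i Vs hVs :=
  Uniq.huniq_beta_of_contract H π₁ ψ hn hψ inf_π₁ φ qN hqN p₁ p₂ h₁ h₂ (pt H i Vs hVs)
    (fun j => by rw [pt_eq_pt H Vs hVs hDb i j]; exact centre_le_pt H j Vs hVs)

end Uniq

end Fermat.Agent.CAR.Local.Inst.Meet
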