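import Mathlib
import Fermat.Agent.CAR.Local.Inst.MeetContract

/-!
# CAR-17 (P-6): the record `ContractUniq` — the middle pull-back and the Frobenius twist

Companion of `Inst.Contract` (which knows the pull-backs `π₀`, `π₂` only): the middle pull-back
`π₁ : B' → B` (`y(z) ↦ y(qz)`), whose reduction on each of the three components is the twist
`ψ` (`= FrobAut.vHom k q M'`, `h(t) ↦ h(t^q)`) of the reduction of level `M'`, and the fact that
every `n`-th power of `κ` is in the image of `ψ` (`n = q`).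

With it (UNIQ) for `α^*` and `β^*` at the triple points needs only the chart ring `AN` of level
`N = M' q` and the factorisations of the pull-backs through `α^*`, `β^*`.
-/

set_option autoImplicit false

namespace Fermat.Agent.CAR.Local.Inst

open IsLocalRing Fermat.Agent.CAR.Local

variable {B B' F κ : Type*} [CommRing B] [Field F] [Algebra B F] [Field κ] [CommRing B']

/-- **The middle pull-back**: `red_i ∘ π₁ = ψ ∘ red'` on the three components, and every `n`-th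
power of the residue field is in the image of `ψ`. -/
structure ContractUniq (O : Fin 3 → ValuationSubring F) (red : ∀ i, O i →+* κ)
    (hBO : ∀ i, ∀ b : B, algebraMap B F b ∈ O i) (red' : B' →+* κ) (π₁ : B' →+* B)
    (ψ : κ →+* κ) (n : ℕ) : Prop where
  n_ne : n ≠ 0
  /-- every `n`-th power is in the image of the twist. -/
  frob : ∀ z : κ, ∃ z' : κ, ψ z' = z ^ n
  /-- `red_inf ∘ π₁^* = ψ ∘ red'`. -/
  inf_π₁ : ∀ y : B', redOn (O 0) (red 0) (hBO 0) (π₁ y) = ψ (red' y)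
  /-- `red_mid ∘ π₁^* = ψ ∘ red'`. -/
  mid_π₁ : ∀ y : B', redOn (O 1) (red 1) (hBO 1) (π₁ y) = ψ (red' y)
  /-- `red_0 ∘ π₁^* = ψ ∘ red'`. -/
  zero_π₁ : ∀ y : B', redOn (O 2) (red 2) (hBO 2) (π₁ y) = ψ (red' y)

namespace ContractUniq

variable [IsDomain B] [IsFractionRing B F]
variable {O : Fin 3 → ValuationSubring F} {red : ∀ i, O i →+* κ}
  {hred : ∀ i, ∀ x : O i, red i x = 0 ↔ x ∈ maximalIdeal (O i)}
  {hBO : ∀ i, ∀ b : B, algebraMap B F b ∈ O i}
  {red' : B' →+* κ} {π₀ π₁ π₂ : B' →+* B} {D : κ → κ}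
  {q : B} {x' : B'} {u u₁ v₁ h : B} {Db G : κ} {N e : ℕ} {ψ : κ →+* κ} {n : ℕ}

omit [IsDomain B] [IsFractionRing B F] in
/-- **(UNIQ) for `α^*`** at a maximal ideal lying on the three components: `φ : AN → B` with
`π₀ = φ ∘ p₀`, `π₁ = φ ∘ p₁`. -/
theorem huniq_alpha (U : ContractUniq O red hBO red' π₁ ψ n)
    (H : Contract O red hred hBO red' π₀ π₂ D q x' u u₁ v₁ h Db G N e)
    {AN : Type*} [CommRing AN] (φ : AN →+* B) (qN : AN) (hqN : φ qN = q)
    (p₀ p₁ : B' →+* AN) (h₀ : ∀ y, φ (p₀ y) = π₀ y) (h₁ : ∀ y, φ (p₁ y) = π₁ y)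
    (P : Ideal B) [P.IsMaximal] (hP : ∀ j, centre (O j) (hBO j) ≤ P) :
    ∀ P' : Ideal B, P'.IsMaximal → P'.comap φ = P.comap φ → P' = P :=
  Uniq.huniq_alpha_of_contract H π₁ ψ U.n_ne U.frob U.zero_π₁ φ qN hqN p₀ p₁ h₀ h₁ P hP

omit [IsDomain B] [IsFractionRing B F] in
/-- **(UNIQ) for `β^*`** at a maximal ideal lying on the three components: `φ : AN → B` with
`π₁ = φ ∘ p₁`, `π₂ = φ ∘ p₂`. -/
theorem huniq_beta (U : ContractUniq O red hBO red' π₁ ψ n)
    (H : Contract O red hred hBO red' π₀ π₂ D q x' u u₁ v₁ h Db G N e)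
    {AN : Type*} [CommRing AN] (φ : AN →+* B) (qN : AN) (hqN : φ qN = q)
    (p₁ p₂ : B' →+* AN) (h₁ : ∀ y, φ (p₁ y) = π₁ y) (h₂ : ∀ y, φ (p₂ y) = π₂ y)
    (P : Ideal B) [P.IsMaximal] (hP : ∀ j, centre (O j) (hBO j) ≤ P) :
    ∀ P' : Ideal B, P'.IsMaximal → P'.comap φ = P.comap φ → P' = P :=
  Uniq.huniq_beta_of_contract H π₁ ψ U.n_ne U.frob U.inf_π₁ φ qN hqN p₁ p₂ h₁ h₂ P hP

variable [IsNoetherianRing B]

omit [IsFractionRing B F] in
/-- **(UNIQ) for `α^*` at the triple point over a supersingular place**, in `Meet.pt` form. -/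
theorem huniq_alpha_pt (U : ContractUniq O red hBO red' π₁ ψ n)
    (H : Contract O red hred hBO red' π₀ π₂ D q x' u u₁ v₁ h Db G N e)
    {AN : Type*} [CommRing AN] (φ : AN →+* B) (qN : AN) (hqN : φ qN = q)
    (p₀ p₁ : B' →+* AN) (h₀ : ∀ y, φ (p₀ y) = π₀ y) (h₁ : ∀ y, φ (p₁ y) = π₁ y)
    (Vs : ValuationSubring κ) (hVs : IsFinPlace red' Vs) (hDb : Db ∈ Vs.nonunits) (i : Fin 3) :
    ∀ P' : Ideal B, P'.IsMaximal → P'.comap φ = (Meet.pt H i Vs hVs).comap φ →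
      P' = Meet.pt H i Vs hVs :=
  Meet.huniq_alpha_pt H π₁ ψ U.n_ne U.frob U.zero_π₁ φ qN hqN p₀ p₁ h₀ h₁ Vs hVs hDb i

omit [IsFractionRing B F] in
/-- **(UNIQ) for `β^*` at the triple point over a supersingular place**, in `Meet.pt` form. -/
theorem huniq_beta_pt (U : ContractUniq O red hBO red' π₁ ψ n)
    (H : Contract O red hred hBO red' π₀ π₂ D q x' u u₁ v₁ h Db G N e)
    {AN : Type*} [CommRing AN] (φ : AN →+* B) (qN : AN) (hqN : φ qN = q)
    (p₁ p₂ : B' →+* AN) (h₁ : ∀ y, φ (p₁ y) = π₁ y) (h₂ : ∀ y, φ (p₂ y) = π₂ y)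
    (Vs : ValuationSubring κ) (hVs : IsFinPlace red' Vs) (hDb : Db ∈ Vs.nonunits) (i : Fin 3) :
    ∀ P' : Ideal B, P'.IsMaximal → P'.comap φ = (Meet.pt H i Vs hVs).comap φ →
      P' = Meet.pt H i Vs hVs :=
  Meet.huniq_beta_pt H π₁ ψ U.n_ne U.frob U.inf_π₁ φ qN hqN p₁ p₂ h₁ h₂ Vs hVs hDb i

end ContractUniq

end Fermat.Agent.CAR.Local.Inst
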